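import Fermat.Agent.H13.Dual
import Fermat.Agent.H16.Theta.Final
import Fermat.Prelude.Def_ModularCurve_ModularUnit

set_option autoImplicit false

noncomputable section

open ModularForm CongruenceSubgroup ModularFormClass ModularCurve
open Fermat.Agent.H22

namespace Fermat.Agent.H13

variable (N : ℕ) [hN : Fact N.Prime]

theorem piH_surjective : Function.Surjective (piH N) := by
  have h1 : Function.Surjective (CuspForm.heckeEvalForms N 2) := by
    intro x
    obtain ⟨x, hx⟩ := x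
    induction hx using Algebra.adjoin_induction with
    | mem x hx =>
      rcases hx with ⟨ℓ, hℓ, hℓN, hℓS, rfl⟩ | ⟨q, hqN, hq, hqS, rfl⟩
      · exact ⟨heckeGen ⟨ℓ, hℓ⟩, CuspForm.heckeEvalForms_heckeGen_of_not_dvd (ℓ := ⟨ℓ, hℓ⟩) hℓN⟩
      · exact ⟨heckeGen ⟨q, hq⟩, CuspForm.heckeEvalForms_heckeGen_of_dvd (q := ⟨q, hq⟩) hqN⟩
    | algebraMap r => exact ⟨MvPolynomial.C r, CuspForm.heckeEvalForms_C N 2 r⟩
    | add x y hx hy h1 h2 =>
      obtain ⟨t1, h1⟩ := h1
      obtain ⟨t2, h2⟩ := h2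
      exact ⟨t1 + t2, by rw [map_add, h1, h2]; rfl⟩
    | mul x y hx hy h1 h2 =>
      obtain ⟨t1, h1⟩ := h1
      obtain ⟨t2, h2⟩ := h2
      exact ⟨t1 * t2, by rw [map_mul, h1, h2]; rfl⟩
  exact (CuspForm.latticeRestrictHom_surjective N ∅).comp h1

/-- Upper bound for the congruence module. -/
theorem upper {q : ℕ} [hq : Fact q.Prime] (v : ℕ) (hv : 1 ≤ v)
    (h : ∀ Q : HeckeAlg, piH N Q = 0 → ((q ^ v : ℕ) : ℤ) ∣ epsH N Q) :
    q ^ v ∣ eisensteinNumerator N := by
  let χ : TT N →+* ZMod (q ^ v) := RingHom.liftOfSurjective (piH N) (piH_surjective N)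
    ⟨(Int.castRingHom (ZMod (q ^ v))).comp (epsH N), by
      intro Q hQ
      rw [RingHom.mem_ker] at hQ ⊢
      have := h Q hQ
      rw [RingHom.comp_apply, eq_intCast, ZMod.intCast_zmod_eq_zero_iff_dvd]
      exact this⟩
  have hχ : ∀ Q, χ (piH N Q) = ((epsH N Q : ℤ) : ZMod (q ^ v)) := fun Q =>
    RingHom.liftOfRightInverse_comp_apply (piH N) _ _ _ Q
  let cast : ℤ →ₗ[ℤ] ZMod (q ^ v) := (Int.castAddHom (ZMod (q ^ v))).toIntLinearMap
  have hcast : Function.Surjective cast := ZMod.intCast_surjective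
  obtain ⟨ψ, hψ⟩ := Module.projective_lifting_property cast χ.toAddMonoidHom.toIntLinearMap hcast
  obtain ⟨f, hf⟩ := pairB_surjective N ψ
  refine partB (N := N) (q := q) (ModularFormClass.modularForm (f : CuspForm (Gamma0 N) 2))
    (coefL N f) (coefL_zero N f) (fun k => ?_) v hv (fun k hk => ?_)
  · exact coefL_spec N f k
  · obtain ⟨P, hP, hP'⟩ := coefL_eq_pairB N hk
    have h1 : coefL N f k = ψ (piH N P) := by rw [hP, hf]
    have h2 : ((ψ (piH N P) : ℤ) : ZMod (q ^ v)) = ((sigN N k : ℤ) : ZMod (q ^ v)) := by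
      have h3 := LinearMap.congr_fun hψ (piH N P)
      have h4 : ((ψ (piH N P) : ℤ) : ZMod (q ^ v)) = χ (piH N P) := h3
      rw [h4, hχ, hP']
    rw [h1]
    exact ((ZMod.intCast_eq_intCast_iff_dvd_sub _ _ _).mp h2)

theorem num_dvd_of {x : ℤ} (h : ((N - 1 : ℕ) : ℤ) ∣ 12 * x) : ((eisensteinNumerator N : ℕ) : ℤ) ∣ x := by
  have hN2 := hN.out.two_le
  have hg : 0 < Nat.gcd (N - 1) 12 := Nat.gcd_pos_of_pos_right _ (by norm_num)
  have h1 : N - 1 = Nat.gcd (N - 1) 12 * eisensteinNumerator N := by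
    rw [eisensteinNumerator, Nat.mul_div_cancel' (Nat.gcd_dvd_left _ _)]
  have h2 : 12 = Nat.gcd (N - 1) 12 * (12 / Nat.gcd (N - 1) 12) := by
    rw [Nat.mul_div_cancel' (Nat.gcd_dvd_right _ _)]
  have hcop : Nat.Coprime (eisensteinNumerator N) (12 / Nat.gcd (N - 1) 12) := by
    rw [eisensteinNumerator]
    exact Nat.coprime_div_gcd_div_gcd hg
  have h3 : (Nat.gcd (N - 1) 12 : ℤ) * (eisensteinNumerator N : ℤ) ∣
      (Nat.gcd (N - 1) 12 : ℤ) * ((12 / Nat.gcd (N - 1) 12 : ℕ) * x) := by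
    have e1 : ((N - 1 : ℕ) : ℤ) = (Nat.gcd (N - 1) 12 : ℤ) * (eisensteinNumerator N : ℤ) := by
      exact_mod_cast h1
    have e2 : (12 : ℤ) = (Nat.gcd (N - 1) 12 : ℤ) * ((12 / Nat.gcd (N - 1) 12 : ℕ) : ℤ) := by
      exact_mod_cast h2
    rw [← e1]
    have e3 : (Nat.gcd (N - 1) 12 : ℤ) * ((12 / Nat.gcd (N - 1) 12 : ℕ) * x) = 12 * x := by
      rw [← mul_assoc, ← e2]
    rw [e3]
    exact h
  have h4 := Int.dvd_of_mul_dvd_mul_left (by exact_mod_cast hg.ne') h3
  exact (Nat.isCoprime_iff_coprime.mpr hcop).dvd_of_dvd_mul_left h4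

/-- Lower bound for the congruence module. -/
theorem lower (Q : HeckeAlg) (hQ : piH N Q = 0) :
    ((eisensteinNumerator N : ℕ) : ℤ) ∣ epsH N Q := by
  have hN2 := hN.out.two_le
  rcases lt_or_ge N 5 with h5 | h5
  · have : eisensteinNumerator N = 1 := by
      have hN' := hN.out
      rcases (show N = 2 ∨ N = 3 ∨ N = 4 by omega) with h | h | h
      · rw [h]; decide
      · rw [h]; decide
      · exfalso; rw [h] at hN'; revert hN'; decide
    rw [this]
    simp
  · apply num_dvd_of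
    obtain ⟨F, hF0, hFk⟩ := Fermat.Agent.H16.Theta.exists_theta N hN.out h5
    choose b hb using hFk
    let b' : ℕ → ℤ := fun k => if h : 1 ≤ k then b k h else 0
    have hN1 : (((N - 1 : ℕ) : ℤ) : ℂ) = (N : ℂ) - 1 := by
      push_cast [Nat.cast_sub (by omega : 1 ≤ N)]; ring
    -- the cusp form
    let G₀ : ModularForm (Gamma0 N) 2 := ((N : ℂ) - 1) • F - (1 / 2 : ℂ) • eisForm N
    have hG₀ : ∀ k, (UpperHalfPlane.qExpansion 1 G₀).coeff k =
        ((((N - 1 : ℕ) : ℤ) * b' k - 12 * sN N k : ℤ) : ℂ) := by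
      intro k
      have e1 : (⇑G₀ : UpperHalfPlane → ℂ) = ⇑(((N : ℂ) - 1) • F) - ⇑((1 / 2 : ℂ) • eisForm N) := rfl
      rw [e1, ModularForm.qExpansion_sub one_pos (one_mem_strictPeriods_Gamma0 N),
        FunLike.coe_smul, FunLike.coe_smul,
        ModularForm.qExpansion_smul one_pos (one_mem_strictPeriods_Gamma0 N),
        ModularForm.qExpansion_smul one_pos (one_mem_strictPeriods_Gamma0 N), map_sub,
        PowerSeries.coeff_smul, PowerSeries.coeff_smul, qExpansion_eisForm', coeff_qc,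
        PowerSeries.coeff_map, eisZ, PowerSeries.coeff_mk]
      rcases Nat.eq_zero_or_pos k with rfl | hk
      · have h1 : (UpperHalfPlane.qExpansion 1 F).coeff 0 = 1 / 2 := hF0
        rw [h1]
        simp [b', sN, sigN_zero]
        ring
      · have h1 : (UpperHalfPlane.qExpansion 1 F).coeff k = (b k hk : ℂ) := hb k hk
        have h2 : b' k = b k hk := dif_pos hk
        rw [h1, if_neg (by omega), h2]
        have h4 : ((Int.castRingHom ℚ) (24 * (sigN N k : ℤ)) : ℚ) = 24 * (sigN N k : ℚ) := by simp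
        rw [h4]
        push_cast
        rw [← hN1]
        simp only [smul_eq_mul, sN]
        push_cast
        ring
    have h0 : (UpperHalfPlane.qExpansion 1 G₀).coeff 0 = 0 := by
      rw [hG₀]
      simp [b', sN, sigN_zero]
    obtain ⟨G, hG⟩ := exists_cuspForm_two G₀ h0
    have hGk : ∀ k, qCoeff ⇑G k = ((((N - 1 : ℕ) : ℤ) * b' k - 12 * sN N k : ℤ) : ℂ) := by
      intro k
      rw [hG]
      exact hG₀ k
    have hmem : G ∈ CuspForm.intLattice N 2 := by
      rw [mem_intLattice_iff]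
      exact fun k => ⟨_, hGk k⟩
    let g : LL N := ⟨G, hmem⟩
    have hg : coefL N g = ((N - 1 : ℕ) : ℤ) • b' - (12 : ℤ) • sN N := by
      funext k
      have h1 := coefL_spec N g k
      have h2 : qCoeff ⇑G k = (coefL N g k : ℂ) := h1
      rw [hGk] at h2
      have h3 : coefL N g k = ((N - 1 : ℕ) : ℤ) * b' k - 12 * sN N k := by exact_mod_cast h2.symm
      rw [h3]
      rfl
    obtain ⟨Θ, hΘ, hΘs⟩ := exists_op N Q
    have h1 := hΘ g
    rw [hQ] at h1
    have h2 : ((0 : TT N) : Module.End ℤ (LL N)) g = 0 := rfl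
    rw [h2, map_zero, hg, map_sub, map_smul, map_smul, hΘs] at h1
    have h3 := congrFun h1 1
    have h4 : sN N 1 = 1 := by
      simp [sN, sigN_one hN.out.ne_one]
    simp only [Pi.zero_apply, Pi.sub_apply, Pi.smul_apply, smul_eq_mul, h4, mul_one] at h3
    exact ⟨Θ b' 1, by linarith⟩

/-- membership of integers in the Eisenstein ideal -/
theorem intCast_mem_iff (x : ℤ) :
    ((x : ℤ) : TT N) ∈ Ideal.map (piH N) (eisensteinIdeal N) ↔
      ∃ Q : HeckeAlg, piH N Q = 0 ∧ epsH N Q = x := by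
  rw [Ideal.mem_map_iff_of_surjective _ (piH_surjective N)]
  constructor
  · rintro ⟨Q', hQ', h⟩
    refine ⟨(x : HeckeAlg) - Q', ?_, ?_⟩
    · rw [map_sub, map_intCast, h, sub_self]
    · rw [eisensteinIdeal_eq, RingHom.mem_ker] at hQ'
      rw [map_sub, map_intCast, hQ', sub_zero]; simp
  · rintro ⟨Q, hQ, h⟩
    refine ⟨(x : HeckeAlg) - Q, ?_, ?_⟩
    · rw [eisensteinIdeal_eq, RingHom.mem_ker, map_sub, map_intCast, h]; simp
    · rw [map_sub, map_intCast, hQ, sub_zero]

theorem card_quotient :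
    Nat.card (TT N ⧸ Ideal.map (piH N) (eisensteinIdeal N)) = eisensteinNumerator N := by
  set I := Ideal.map (piH N) (eisensteinIdeal N) with hI
  let c : ℤ →+* TT N ⧸ I := (Ideal.Quotient.mk I).comp (Int.castRingHom (TT N))
  have hc : Function.Surjective c := by
    intro y
    obtain ⟨t, rfl⟩ := Ideal.Quotient.mk_surjective y
    obtain ⟨Q, rfl⟩ := piH_surjective N t
    refine ⟨epsH N Q, ?_⟩
    change Ideal.Quotient.mk I ((Int.castRingHom (TT N)) (epsH N Q)) = _
    rw [Ideal.Quotient.eq]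
    rw [eq_intCast]
    have : ((epsH N Q : ℤ) : TT N) - piH N Q = piH N (((epsH N Q : ℤ) : HeckeAlg) - Q) := by
      rw [map_sub, map_intCast]
    rw [this, hI]
    apply Ideal.mem_map_of_mem
    rw [eisensteinIdeal_eq, RingHom.mem_ker, map_sub, map_intCast]
    simp
  have hker : ∀ x : ℤ, x ∈ RingHom.ker c ↔ ∃ Q : HeckeAlg, piH N Q = 0 ∧ epsH N Q = x := by
    intro x
    rw [← intCast_mem_iff, ← hI, RingHom.mem_ker]
    change Ideal.Quotient.mk I ((Int.castRingHom (TT N)) x) = 0 ↔ _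
    rw [Ideal.Quotient.eq_zero_iff_mem, eq_intCast]
  -- a generator of the kernel
  obtain ⟨m, hm⟩ : ∃ m : ℕ, RingHom.ker c = Ideal.span {(m : ℤ)} := by
    obtain ⟨a, ha⟩ := (IsPrincipalIdealRing.principal (RingHom.ker c)).principal
    refine ⟨a.natAbs, ?_⟩
    rw [Int.span_natAbs]
    exact ha
  have h1 : eisensteinNumerator N ∣ m := by
    have : (m : ℤ) ∈ RingHom.ker c := by rw [hm]; exact Ideal.mem_span_singleton_self _
    obtain ⟨Q, hQ, h⟩ := (hker _).mp this
    have h2 := lower N Q hQ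
    rw [h] at h2
    exact_mod_cast h2
  have h2 : m ∣ eisensteinNumerator N := by
    rw [Nat.dvd_iff_prime_pow_dvd_dvd]
    intro q v hq hqv
    rcases Nat.eq_zero_or_pos v with rfl | hv
    · simp
    have : Fact q.Prime := ⟨hq⟩
    refine upper N v hv fun Q hQ => ?_
    have h3 : epsH N Q ∈ RingHom.ker c := (hker _).mpr ⟨Q, hQ, rfl⟩
    rw [hm, Ideal.mem_span_singleton] at h3
    exact dvd_trans (by exact_mod_cast hqv) h3
  have h3 : m = eisensteinNumerator N := Nat.dvd_antisymm h2 h1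
  have e1 := RingHom.quotientKerEquivOfSurjective hc
  have e2 : ℤ ⧸ RingHom.ker c ≃+* ZMod m :=
    (Ideal.quotEquivOfEq hm).trans (Int.quotientSpanNatEquivZMod m)
  rw [← Nat.card_congr e1.toEquiv, Nat.card_congr e2.toEquiv, Nat.card_zmod, h3]

end Fermat.Agent.H13
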