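import Fermat.Agent.H13.E2

set_option autoImplicit false

noncomputable section

open UpperHalfPlane hiding I
open ModularForm CongruenceSubgroup Complex ModularFormClass PowerSeries
open EisensteinSeries
open scoped MatrixGroups Manifold Topology ModularForm Real

namespace Fermat.Agent.H13

/-! ### The discriminant, over any ring -/

/-- `w12 = (5 s₃ + 7 s₅)/12`. -/
def w12Z : ℤ⟦X⟧ := PowerSeries.mk fun n => ∑ d ∈ n.divisors, ((5 * d ^ 3 + 7 * d ^ 5 : ℤ) / 12)

theorem w12Z_spec : 12 * w12Z = 5 * sser ℤ 3 + 7 * sser ℤ 5 := by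
  ext n
  rw [map_add, coeff_ofNat_mul, coeff_ofNat_mul, coeff_ofNat_mul, coeff_sser, coeff_sser, w12Z,
    coeff_mk, ArithmeticFunction.sigma_apply, ArithmeticFunction.sigma_apply]
  push_cast
  rw [Finset.mul_sum, Finset.mul_sum, Finset.mul_sum, ← Finset.sum_add_distrib]
  refine Finset.sum_congr rfl fun d _ => ?_
  have h : (12 : ℤ) ∣ 5 * (d : ℤ) ^ 3 + 7 * (d : ℤ) ^ 5 := by
    have := (ZMod.intCast_zmod_eq_zero_iff_dvd (5 * (d : ℤ) ^ 3 + 7 * (d : ℤ) ^ 5) 12).mp
    norm_num at this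
    apply this
    generalize ((d : ℕ) : ZMod 12) = x
    revert x
    decide
  rw [Int.mul_ediv_cancel' h]

/-- `δ = ∑ τ(n) q^n` over `ℤ` -/
def deltaZ : ℤ⟦X⟧ := w12Z + 100 * sser ℤ 3 ^ 2 + 8000 * sser ℤ 3 ^ 3 - 147 * sser ℤ 5 ^ 2

theorem deltaZ_spec : 1728 * deltaZ = e4 ℤ ^ 3 - e6 ℤ ^ 2 := by
  rw [deltaZ, e4, e6]
  linear_combination 144 * w12Z_spec

section
variable (R : Type*) [CommRing R]

def delta : R⟦X⟧ := deltaZ.map (Int.castRingHom R)

def w12 : R⟦X⟧ := w12Z.map (Int.castRingHom R)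

variable {R}

@[simp] theorem map_delta {S : Type*} [CommRing S] (f : R →+* S) : (delta R).map f = delta S := by
  ext n
  simp [delta]

@[simp] theorem map_w12 {S : Type*} [CommRing S] (f : R →+* S) : (w12 R).map f = w12 S := by
  ext n
  simp [w12]

theorem w12_spec : 12 * w12 R = 5 * sser R 3 + 7 * sser R 5 := by
  have := congrArg (PowerSeries.map (Int.castRingHom R)) w12Z_spec
  simp only [map_mul, map_add, map_sser, map_ofNat] at this
  exact this

theorem delta_spec : 1728 * delta R = e4 R ^ 3 - e6 R ^ 2 := by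
  have := congrArg (PowerSeries.map (Int.castRingHom R)) deltaZ_spec
  simp only [map_mul, map_sub, map_pow, map_e4, map_e6, map_ofNat] at this
  exact this

theorem delta_eq : delta R = w12 R + 100 * sser R 3 ^ 2 + 8000 * sser R 3 ^ 3
    - 147 * sser R 5 ^ 2 := by
  rw [delta, deltaZ]
  simp only [map_mul, map_sub, map_add, map_pow, map_sser, map_ofNat]
  rfl

theorem coeff_zero_sser (k : ℕ) : coeff 0 (sser R k) = 0 := by
  simp

theorem coeff_one_sser (k : ℕ) : coeff 1 (sser R k) = 1 := by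
  simp [ArithmeticFunction.sigma_apply]

theorem coeff_zero_e4 : coeff 0 (e4 R) = 1 := by
  rw [e4, map_add, coeff_ofNat_mul, coeff_zero_sser]; simp

theorem coeff_zero_e6 : coeff 0 (e6 R) = 1 := by
  rw [e6, map_sub, coeff_ofNat_mul, coeff_zero_sser]; simp

theorem coeff_zero_e2 : coeff 0 (e2 R) = 1 := by
  rw [e2, map_sub, coeff_ofNat_mul, coeff_zero_sser]; simp

theorem coeff_zero_delta : coeff 0 (delta R) = 0 := by
  have h1 : constantCoeff (sser ℤ 3) = 0 := by
    rw [← coeff_zero_eq_constantCoeff_apply]; exact coeff_zero_sser 3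
  have h2 : constantCoeff (sser ℤ 5) = 0 := by
    rw [← coeff_zero_eq_constantCoeff_apply]; exact coeff_zero_sser 5
  have h3 : constantCoeff w12Z = 0 := by
    rw [← coeff_zero_eq_constantCoeff_apply, w12Z, coeff_mk]; simp
  have h : coeff 0 deltaZ = 0 := by
    rw [coeff_zero_eq_constantCoeff_apply, deltaZ]
    simp only [map_add, map_sub, map_mul, map_pow, h1, h2, h3]
    simp
  rw [delta, coeff_map, h]
  simp

theorem coeff_one_delta : coeff 1 (delta R) = 1 := by
  have h2 : ∀ a : ℤ⟦X⟧, coeff 0 a = 0 → coeff 1 (a ^ 2) = 0 := by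
    intro a ha
    rw [coeff_pow]
    apply Finset.sum_eq_zero
    intro l hl
    rw [Finset.mem_finsuppAntidiag] at hl
    obtain ⟨h1, _⟩ := hl
    simp only [Finset.sum_range_succ, Finset.sum_range_zero, zero_add] at h1
    rw [Finset.prod_range_succ, Finset.prod_range_succ, Finset.prod_range_zero, one_mul]
    rcases Nat.eq_zero_or_pos (l 0) with h | h
    · rw [h, ha, zero_mul]
    · have : l 1 = 0 := by omega
      rw [this, ha, mul_zero]
  have h3 : ∀ a : ℤ⟦X⟧, coeff 0 a = 0 → coeff 1 (a ^ 3) = 0 := by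
    intro a ha
    rw [pow_succ, coeff_mul]
    apply Finset.sum_eq_zero
    intro p hp
    rw [Finset.HasAntidiagonal.mem_antidiagonal] at hp
    rcases Nat.eq_zero_or_pos p.2 with h | h
    · rw [h, ha, mul_zero]
    · have : p.1 = 0 := by omega
      rw [this]
      have : coeff 0 (a ^ 2) = 0 := by
        rw [coeff_zero_eq_constantCoeff, map_pow, ← coeff_zero_eq_constantCoeff_apply, ha]; simp
      rw [this, zero_mul]
  have h : coeff 1 deltaZ = 1 := by
    rw [deltaZ, map_sub, map_add, map_add, coeff_ofNat_mul, coeff_ofNat_mul, coeff_ofNat_mul,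
      h2 _ (coeff_zero_sser 3), h2 _ (coeff_zero_sser 5), h3 _ (coeff_zero_sser 3), w12Z, coeff_mk]
    simp
  rw [delta, coeff_map, h]
  simp

/-- `δ = X · u` with `u` a unit. -/
theorem exists_delta_unit : ∃ u v : R⟦X⟧, delta R = X * u ∧ u * v = 1 := by
  have h := (X_dvd_iff (φ := delta R)).mpr (by
    rw [← coeff_zero_eq_constantCoeff_apply]; exact coeff_zero_delta)
  obtain ⟨u, hu⟩ := h
  have hu1 : constantCoeff u = 1 := by
    have := coeff_one_delta (R := R)
    rw [hu] at this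
    simpa using this
  have hunit : IsUnit u := by
    rw [isUnit_iff_constantCoeff, hu1]; exact isUnit_one
  obtain ⟨v, hv⟩ := hunit.exists_right_inv
  exact ⟨u, v, hu, hv⟩

end

/-! ### Level one forms -/

variable {k : ℤ} {φ ψ : ℚ⟦X⟧}

theorem qExpansion_E4 : qExpansion 1 E₄ = qc (e4 ℚ) := by
  ext n
  rw [E_qExpansion_coeff _ ⟨2, rfl⟩, coeff_qc, e4, map_add, coeff_ofNat_mul, coeff_sser, coeff_one]
  rw [show bernoulli 4 = -1 / 30 by decide +kernel]
  split_ifs with h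
  · subst h; simp
  · push_cast
    norm_num

theorem isOne_e4 : IsOne 4 (e4 ℚ) := ⟨E₄, qExpansion_E4⟩

theorem qExpansion_E6 : qExpansion 1 E₆ = qc (e6 ℚ) := by
  ext n
  rw [E_qExpansion_coeff _ ⟨3, rfl⟩, coeff_qc, e6, map_sub, coeff_ofNat_mul, coeff_sser, coeff_one]
  rw [show bernoulli 6 = 1 / 42 by decide +kernel]
  split_ifs with h
  · subst h; simp
  · push_cast
    norm_num

theorem isOne_e6 : IsOne 6 (e6 ℚ) := ⟨E₆, qExpansion_E6⟩

theorem isOne_delta : IsOne 12 (delta ℚ) := by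
  have h1 := (isOne_e4.pow 3).sub ((isOne_e6.pow 2).cast (by norm_num))
  have h2 := h1.C_mul (1 / 1728)
  refine (h2.cast (by norm_num)).congr ?_
  have h3 := delta_spec (R := ℚ)
  rw [← h3, ← mul_assoc]
  have : (PowerSeries.C (1 / 1728 : ℚ)) * (1728 : ℚ⟦X⟧) = 1 := by
    have : (1728 : ℚ⟦X⟧) = PowerSeries.C (1728 : ℚ) := by rw [map_ofNat]
    rw [this, ← map_mul]
    norm_num
  rw [this, one_mul]

theorem IsOne.eq_zero_of_neg (h : IsOne k φ) (hk : k < 0) : φ = 0 := by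
  obtain ⟨A, hA⟩ := h
  have : A = 0 := rank_zero_iff_forall_zero.mp (levelOne_neg_weight_rank_zero hk) A
  apply qc_injective
  rw [← hA, this, map_zero]
  simpa using qExpansion_zero 1

theorem IsOne.eq_zero_of_two (h : IsOne 2 φ) : φ = 0 := by
  obtain ⟨A, hA⟩ := h
  have : A = 0 := rank_zero_iff_forall_zero.mp levelOne_weight_two_rank_zero A
  apply qc_injective
  rw [← hA, this, map_zero]
  simpa using qExpansion_zero 1

theorem IsOne.eq_C_of_zero (h : IsOne 0 φ) : φ = PowerSeries.C (coeff 0 φ) := by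
  obtain ⟨A, hA⟩ := h
  obtain ⟨c, hc⟩ := levelOne_weight_zero_const A
  have h1 : qExpansion 1 A = PowerSeries.C c := by
    refine qExpansion_eq_of_hasQ_one A fun τ => ?_
    rw [hc]
    have h1 := hasSum_ite_eq (0 : ℕ) c
    have h2 : (fun m ↦ coeff m (PowerSeries.C c) * Function.Periodic.qParam 1 τ ^ m) =
        fun m : ℕ => if m = 0 then c else 0 := by
      funext m
      rw [coeff_C]
      split_ifs with h
      · subst h; simp
      · simp
    rw [h2]
    exact h1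
  ext n
  have h2 := congrArg (coeff n) (hA.symm.trans h1)
  have h0 := congrArg (coeff 0) (hA.symm.trans h1)
  rw [coeff_qc, coeff_C] at h2 h0
  rw [coeff_C]
  split_ifs at h2 ⊢ with h
  · rw [h]
  · exact_mod_cast h2

theorem qExpansion_discriminant : qExpansion 1 discriminant = qc (delta ℚ) := by
  have h4 : HasQ E₄ (e4 ℂ) := by
    have := hasQ_one E₄
    rwa [qExpansion_E4, map_e4] at this
  have h6 : HasQ E₆ (e6 ℂ) := by
    have := hasQ_one E₆
    rwa [qExpansion_E6, map_e6] at this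
  have h := (((h4.mul h4).mul h4).sub (h6.mul h6)).smul (1 / 1728)
  have h' : HasQ CuspForm.discriminant (delta ℂ) := by
    refine h.congr ?_ ?_
    · ext z
      have := discriminant_eq_E₄_cube_sub_E₆_sq z
      rw [CuspForm.coe_discriminant, this]
      simp only [Pi.smul_apply, Pi.sub_apply, Pi.mul_apply, smul_eq_mul]
      ring
    · have h3 := delta_spec (R := ℂ)
      have h4 : e4 ℂ * e4 ℂ * e4 ℂ - e6 ℂ * e6 ℂ = 1728 * delta ℂ := by
        rw [h3]; ring
      rw [h4, smul_eq_C_mul, ← mul_assoc]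
      have : (PowerSeries.C (1 / 1728 : ℂ)) * (1728 : ℂ⟦X⟧) = 1 := by
        have : (1728 : ℂ⟦X⟧) = PowerSeries.C (1728 : ℂ) := by rw [map_ofNat]
        rw [this, ← map_mul]
        norm_num
      rw [this, one_mul]
  rw [map_delta]
  ext n
  exact (ModularFormClass.qExpansion_coeff_unique (f := CuspForm.discriminant)
    (c := fun m => coeff m (delta ℂ)) one_pos one_mem_strictPeriods_SL
    (fun τ => by simpa using h' τ) n).symm

theorem IsOne.div_delta (h : IsOne k φ) (h0 : coeff 0 φ = 0) (hψ : φ = delta ℚ * ψ) :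
    IsOne (k - 12) ψ := by
  obtain ⟨A, hA⟩ := h
  have hc : (qExpansion 1 A).coeff 0 = 0 := by
    rw [hA, coeff_qc, h0]; simp
  refine ⟨CuspForm.discriminantEquiv (toCuspForm A hc), ?_⟩
  have h1 := qExpansion_eq_qExpansion_discriminant_mul A hc
  rw [qExpansion_discriminant, hA, hψ, map_mul] at h1
  have h2 : qc (delta ℚ) ≠ 0 := by
    intro h
    have := congrArg (coeff 1) h
    rw [coeff_qc, coeff_one_delta] at this
    simp at this
  exact (mul_left_cancel₀ h2 h1).symm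

theorem exists_eq_delta_mul {R : Type*} [CommRing R] (φ : R⟦X⟧) (h0 : coeff 0 φ = 0) :
    ∃ ψ, φ = delta R * ψ := by
  obtain ⟨u, v, hu, huv⟩ := exists_delta_unit (R := R)
  have h := (X_dvd_iff (φ := φ)).mpr (by
    rw [← coeff_zero_eq_constantCoeff_apply]; exact h0)
  obtain ⟨χ, hχ⟩ := h
  refine ⟨v * χ, ?_⟩
  rw [hu, hχ]
  linear_combination (-X * χ) * huv

theorem IsOne.eq_of_lt {A : ℚ⟦X⟧} (h : IsOne k φ) (hA : IsOne k A) (hA0 : coeff 0 A = 1)
    (hk : k < 12) : φ = PowerSeries.C (coeff 0 φ) * A := by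
  have h1 := h.sub (hA.C_mul (coeff 0 φ))
  have h2 : coeff 0 (φ - PowerSeries.C (coeff 0 φ) * A) = 0 := by
    rw [map_sub, coeff_C_mul, hA0]; ring
  obtain ⟨ψ, hψ⟩ := exists_eq_delta_mul _ h2
  have h3 := (h1.div_delta h2 hψ).eq_zero_of_neg (by linarith)
  rw [h3, mul_zero, sub_eq_zero] at hψ
  exact hψ

theorem coeff_zero_theta {R : Type*} [CommRing R] (φ : R⟦X⟧) : coeff 0 (theta φ) = 0 := by
  simp

theorem coeff_zero_mul' {R : Type*} [CommRing R] (φ ψ : R⟦X⟧) :
    coeff 0 (φ * ψ) = coeff 0 φ * coeff 0 ψ := by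
  simp [coeff_zero_eq_constantCoeff]

theorem coeff_zero_pow' {R : Type*} [CommRing R] (φ : R⟦X⟧) (n : ℕ) :
    coeff 0 (φ ^ n) = coeff 0 φ ^ n := by
  simp [coeff_zero_eq_constantCoeff]

theorem mapZ_injective : Function.Injective (PowerSeries.map (Int.castRingHom ℚ)) := by
  intro a b h
  ext n
  have := congrArg (coeff n) h
  simpa using this

theorem theta_e4_Q : 3 * theta (e4 ℚ) = e2 ℚ * e4 ℚ - e6 ℚ := by
  have h := (isOne_e4.serre.cast (l := 6) (by norm_num)).eq_of_lt isOne_e6 coeff_zero_e6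
    (by norm_num)
  rw [map_sub, coeff_zero_theta, coeff_C_mul, coeff_zero_mul', coeff_zero_e2, coeff_zero_e4] at h
  have e1 : (PowerSeries.C (((4 : ℤ) : ℚ) / 12)) * 3 = (1 : ℚ⟦X⟧) := by
    rw [show (3 : ℚ⟦X⟧) = PowerSeries.C (3 : ℚ) by rw [map_ofNat], ← map_mul]
    norm_num
  have e2' : (PowerSeries.C ((0 : ℚ) - ((4 : ℤ) : ℚ) / 12 * (1 * 1))) * 3 = (-1 : ℚ⟦X⟧) := by
    rw [show (3 : ℚ⟦X⟧) = PowerSeries.C (3 : ℚ) by rw [map_ofNat], ← map_mul]
    norm_num
  linear_combination 3 * h + e6 ℚ * e2' + e2 ℚ * e4 ℚ * e1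

theorem theta_e6_Q : 2 * theta (e6 ℚ) = e2 ℚ * e6 ℚ - e4 ℚ ^ 2 := by
  have h := (isOne_e6.serre.cast (l := 8) (by norm_num)).eq_of_lt
    ((isOne_e4.pow 2).cast (l := 8) (by norm_num)) (by rw [coeff_zero_pow', coeff_zero_e4]; norm_num)
    (by norm_num)
  rw [map_sub, coeff_zero_theta, coeff_C_mul, coeff_zero_mul', coeff_zero_e2, coeff_zero_e6] at h
  have e1 : (PowerSeries.C (((6 : ℤ) : ℚ) / 12)) * 2 = (1 : ℚ⟦X⟧) := by
    rw [show (2 : ℚ⟦X⟧) = PowerSeries.C (2 : ℚ) by rw [map_ofNat], ← map_mul]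
    norm_num
  have e2' : (PowerSeries.C ((0 : ℚ) - ((6 : ℤ) : ℚ) / 12 * (1 * 1))) * 2 = (-1 : ℚ⟦X⟧) := by
    rw [show (2 : ℚ⟦X⟧) = PowerSeries.C (2 : ℚ) by rw [map_ofNat], ← map_mul]
    norm_num
  linear_combination 2 * h + e4 ℚ ^ 2 * e2' + e2 ℚ * e6 ℚ * e1

theorem theta_e2_Q : 12 * theta (e2 ℚ) = e2 ℚ ^ 2 - e4 ℚ := by
  have h := isOne_e2d.eq_of_lt isOne_e4 coeff_zero_e4 (by norm_num)
  rw [map_sub, coeff_zero_theta, coeff_C_mul, coeff_zero_mul', coeff_zero_e2] at h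
  have e1 : (PowerSeries.C (1 / 12 : ℚ)) * 12 = (1 : ℚ⟦X⟧) := by
    rw [show (12 : ℚ⟦X⟧) = PowerSeries.C (12 : ℚ) by rw [map_ofNat], ← map_mul]
    norm_num
  have e2' : (PowerSeries.C ((0 : ℚ) - 1 / 12 * (1 * 1))) * 12 = (-1 : ℚ⟦X⟧) := by
    rw [show (12 : ℚ⟦X⟧) = PowerSeries.C (12 : ℚ) by rw [map_ofNat], ← map_mul]
    norm_num
  linear_combination 12 * h + e4 ℚ * e2' + e2 ℚ * e2 ℚ * e1

theorem theta_e4_Z : 3 * theta (e4 ℤ) = e2 ℤ * e4 ℤ - e6 ℤ := by
  apply mapZ_injective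
  simp only [map_mul, map_sub, map_theta, map_e2, map_e4, map_e6, map_ofNat]
  exact theta_e4_Q

theorem theta_e6_Z : 2 * theta (e6 ℤ) = e2 ℤ * e6 ℤ - e4 ℤ ^ 2 := by
  apply mapZ_injective
  simp only [map_mul, map_sub, map_pow, map_theta, map_e2, map_e4, map_e6, map_ofNat]
  exact theta_e6_Q

theorem theta_e2_Z : 12 * theta (e2 ℤ) = e2 ℤ ^ 2 - e4 ℤ := by
  apply mapZ_injective
  simp only [map_mul, map_sub, map_pow, map_theta, map_e2, map_e4, map_ofNat]
  exact theta_e2_Q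

theorem theta_ofNat_mul {R : Type*} [CommRing R] (c : ℕ) [c.AtLeastTwo] (a : R⟦X⟧) :
    theta ((OfNat.ofNat c : R⟦X⟧) * a) = (OfNat.ofNat c : R⟦X⟧) * theta a := by
  have : (OfNat.ofNat c : R⟦X⟧) = PowerSeries.C (OfNat.ofNat c : R) :=
    (map_ofNat (PowerSeries.C (R := R)) c).symm
  rw [this, theta_C_mul]

theorem ofNat_ne_zero_Z (c : ℕ) [c.AtLeastTwo] : (OfNat.ofNat c : ℤ⟦X⟧) ≠ 0 := by
  have : (OfNat.ofNat c : ℤ⟦X⟧) = PowerSeries.C (OfNat.ofNat c : ℤ) :=
    (map_ofNat (PowerSeries.C (R := ℤ)) c).symm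
  rw [this]
  intro h
  have := congrArg (coeff 0) h
  rw [coeff_zero_C] at this
  simp at this

theorem theta_delta_Z : theta deltaZ = e2 ℤ * deltaZ := by
  have h : (1728 : ℤ⟦X⟧) ≠ 0 := ofNat_ne_zero_Z 1728
  apply mul_left_cancel₀ h
  have h1 := congrArg theta deltaZ_spec
  rw [theta_ofNat_mul, theta_sub, theta_pow, theta_pow] at h1
  rw [h1]
  push_cast
  linear_combination e4 ℤ ^ 2 * theta_e4_Z - e6 ℤ * theta_e6_Z - e2 ℤ * deltaZ_spec

theorem delta_rc_Z : deltaZ = e4 ℤ * theta (theta (sser ℤ 3)) - 300 * theta (sser ℤ 3) ^ 2 := by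
  have h : (103680 : ℤ⟦X⟧) ≠ 0 := ofNat_ne_zero_Z 103680
  apply mul_left_cancel₀ h
  have h4 : theta (e4 ℤ) = 240 * theta (sser ℤ 3) := by
    rw [e4, theta_add, theta_one, theta_ofNat_mul, zero_add]
  have h44 : theta (theta (e4 ℤ)) = 240 * theta (theta (sser ℤ 3)) := by
    rw [h4, theta_ofNat_mul]
  have h5 := congrArg theta theta_e4_Z
  rw [theta_ofNat_mul, theta_sub, theta_mul] at h5
  linear_combination 60 * deltaZ_spec - 144 * e4 ℤ * h5 - 12 * e4 ℤ ^ 2 * theta_e2_Z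
    - 48 * e4 ℤ * e2 ℤ * theta_e4_Z + 72 * e4 ℤ * theta_e6_Z
    + 60 * (3 * theta (e4 ℤ) + e2 ℤ * e4 ℤ - e6 ℤ) * theta_e4_Z + 432 * e4 ℤ * h44
    - 540 * (theta (e4 ℤ) + 240 * theta (sser ℤ 3)) * h4

section anyring
variable {R : Type*} [CommRing R]

theorem theta_e4 : 3 * theta (e4 R) = e2 R * e4 R - e6 R := by
  have := congrArg (PowerSeries.map (Int.castRingHom R)) theta_e4_Z
  simp only [map_mul, map_sub, map_theta, map_e2, map_e4, map_e6, map_ofNat] at this
  exact this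

theorem theta_e6 : 2 * theta (e6 R) = e2 R * e6 R - e4 R ^ 2 := by
  have := congrArg (PowerSeries.map (Int.castRingHom R)) theta_e6_Z
  simp only [map_mul, map_sub, map_pow, map_theta, map_e2, map_e4, map_e6, map_ofNat] at this
  exact this

theorem theta_delta : theta (delta R) = e2 R * delta R := by
  have := congrArg (PowerSeries.map (Int.castRingHom R)) theta_delta_Z
  simp only [map_mul, map_theta, map_e2] at this
  exact this

theorem delta_rc : delta R = e4 R * theta (theta (sser R 3)) - 300 * theta (sser R 3) ^ 2 := by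
  have := congrArg (PowerSeries.map (Int.castRingHom R)) delta_rc_Z
  simp only [map_mul, map_sub, map_pow, map_theta, map_e4, map_sser, map_ofNat] at this
  exact this

end anyring

end Fermat.Agent.H13
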