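import Fermat.Agent.H13.Serre

set_option autoImplicit false

noncomputable section

open UpperHalfPlane hiding I
open ModularForm CongruenceSubgroup Complex ModularFormClass PowerSeries Derivative Filter
open EisensteinSeries
open scoped MatrixGroups Manifold Topology ModularForm Real

namespace Fermat.Agent.H13

local notation "𝕢" => Function.Periodic.qParam

variable {f g : ℍ → ℂ} {a b : ℂ⟦X⟧} {N : ℕ} {k : ℤ}

/-- `j(z) = (2πi z)⁻¹` -/
def jfun (z : ℍ) : ℂ := (2 * π * I)⁻¹ * (z : ℂ)⁻¹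

theorem E2_slash_S : E2 ∣[(2 : ℤ)] ModularGroup.S = E2 + (12 : ℂ) • jfun := by
  rw [E2_slash_action]
  ext z
  have hz : (z : ℂ) ≠ 0 := ne_zero z
  have hpi : (π : ℂ) ≠ 0 := ofReal_ne_zero.mpr Real.pi_ne_zero
  simp only [Pi.sub_apply, Pi.add_apply, Pi.smul_apply, D2_S, jfun, riemannZeta_two, smul_eq_mul]
  have hI : I ^ 2 = -1 := I_sq
  field_simp
  linear_combination (-12) * hI

theorem E2_slash_T : E2 ∣[(2 : ℤ)] ModularGroup.T = E2 := by
  rw [E2_slash_action, D2_T]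
  simp

theorem mdiff_jfun : MDiff jfun := by
  rw [UpperHalfPlane.mdifferentiable_iff]
  have : Set.EqOn (jfun ∘ ofComplex) (fun z : ℂ => (2 * π * I)⁻¹ * z⁻¹) upperHalfPlaneSet := by
    intro z hz
    simp only [Function.comp_apply, ofComplex_apply_of_im_pos hz, jfun]
  refine DifferentiableOn.congr ?_ this
  intro z hz
  have hz0 : z ≠ 0 := by
    rintro rfl
    simp at hz
  exact ((differentiableAt_inv hz0).const_mul _).differentiableWithinAt

theorem D_jfun (z : ℍ) : D jfun z = - jfun z ^ 2 := by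
  have hz : (z : ℂ) ≠ 0 := ne_zero z
  have : (jfun ∘ ofComplex) =ᶠ[𝓝 (z : ℂ)] (fun z : ℂ => (2 * π * I)⁻¹ * z⁻¹) := by
    filter_upwards [isOpen_upperHalfPlaneSet.mem_nhds z.im_pos] with w hw
    simp only [Function.comp_apply, ofComplex_apply_of_im_pos hw, jfun]
  unfold normalizedDerivOfComplex
  rw [this.deriv_eq, ((hasDerivAt_inv hz).const_mul _).deriv, jfun]
  ring

theorem mdiff_E2 : MDiff E2 := E2_mdifferentiable

theorem mdiff_DE2 : MDiff (D E2) := normalizedDerivOfComplex_mdifferentiable mdiff_E2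

/-- `D E₂ - E₂²/12` -/
def e2dFun : ℍ → ℂ := D E2 - (12⁻¹ : ℂ) • (E2 * E2)

theorem e2dFun_slash_T : e2dFun ∣[(4 : ℤ)] ModularGroup.T = e2dFun := by
  have h1 := normalizedDerivOfComplex_SL_slash (k := 2) mdiff_E2 (γ := ModularGroup.T)
  rw [E2_slash_T] at h1
  have h2 : (fun z : ℍ => ((2 : ℤ) : ℂ) * (2 * π * I)⁻¹ *
      ((ModularGroup.T 1 0 : ℤ) / denom ModularGroup.T z) * E2 z) = 0 := by
    ext z
    simp [ModularGroup.T]
  rw [h2, sub_zero] at h1
  have h3 : (E2 * E2) ∣[(4 : ℤ)] ModularGroup.T = E2 * E2 := by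
    have := mul_slash_SL2 2 2 ModularGroup.T E2 E2
    rw [E2_slash_T] at this
    exact this
  rw [e2dFun, sub_eq_add_neg, SlashAction.add_slash, SlashAction.neg_slash, SL_smul_slash, h3]
  congr 1
  exact h1.symm

theorem e2dFun_slash_S : e2dFun ∣[(4 : ℤ)] ModularGroup.S = e2dFun := by
  have h1 := normalizedDerivOfComplex_SL_slash (k := 2) mdiff_E2 (γ := ModularGroup.S)
  rw [E2_slash_S] at h1
  have h2 : (fun z : ℍ => ((2 : ℤ) : ℂ) * (2 * π * I)⁻¹ *
      ((ModularGroup.S 1 0 : ℤ) / denom ModularGroup.S z) * (E2 + (12 : ℂ) • jfun) z) =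
      fun z => 2 * jfun z * (E2 z + 12 * jfun z) := by
    ext z
    simp only [jfun, ModularGroup.denom_S, Pi.add_apply, Pi.smul_apply, smul_eq_mul]
    have : (ModularGroup.S 1 0 : ℤ) = 1 := by simp [ModularGroup.S]
    rw [this]
    push_cast
    ring
  rw [h2, normalizedDerivOfComplex_add _ _ mdiff_E2 (mdiff_jfun.const_smul _),
    normalizedDerivOfComplex_smul _ _ mdiff_jfun] at h1
  have h3 : (E2 * E2) ∣[(4 : ℤ)] ModularGroup.S = (E2 + (12 : ℂ) • jfun) * (E2 + (12 : ℂ) • jfun) := by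
    have := mul_slash_SL2 2 2 ModularGroup.S E2 E2
    rw [E2_slash_S] at this
    exact this
  rw [e2dFun, sub_eq_add_neg, SlashAction.add_slash, SlashAction.neg_slash, SL_smul_slash, h3]
  ext z
  have h4 := congrFun h1 z
  have e24 : (D E2 ∣[(2 + 2 : ℤ)] ModularGroup.S) = (D E2 ∣[(4 : ℤ)] ModularGroup.S) := rfl
  rw [e24] at h4
  simp only [Pi.add_apply, Pi.smul_apply, Pi.sub_apply, smul_eq_mul, D_jfun] at h4
  simp only [Pi.add_apply, Pi.smul_apply, Pi.sub_apply, Pi.neg_apply, Pi.mul_apply, smul_eq_mul]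
  linear_combination -h4

theorem hasQ_e2d : HasQ e2dFun (theta (e2 ℂ) - C (12⁻¹ : ℂ) * (e2 ℂ * e2 ℂ)) := by
  have := hasQ_E2.D.sub ((hasQ_E2.mul hasQ_E2).smul (12⁻¹ : ℂ))
  rw [smul_eq_C_mul] at this
  exact this

/-- `D E₂ - E₂²/12` as a modular form -/
def e2dForm : ModularForm 𝒮ℒ 4 where
  toFun := e2dFun
  slash_action_eq' := by
    rintro _ ⟨γ, rfl⟩
    exact SlashInvariantForm.slash_action_generators_SL2Z e2dFun_slash_S e2dFun_slash_T γ
  holo' := by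
    have h1 : MDiff (E2 * E2) := mdiff_E2.mul mdiff_E2
    exact mdiff_DE2.sub (h1.const_smul (12⁻¹ : ℂ))
  bdd_at_cusps' {c} hc := by
    rw [Subgroup.IsArithmetic.isCusp_iff_isCusp_SL2Z] at hc
    rw [OnePoint.isBoundedAt_iff_forall_SL2Z hc]
    intro γ _
    rw [SlashInvariantForm.slash_action_generators_SL2Z e2dFun_slash_S e2dFun_slash_T γ]
    exact hasQ_e2d.bounded

theorem isOne_e2d : IsOne 4 (theta (e2 ℚ) - C (1 / 12 : ℚ) * (e2 ℚ * e2 ℚ)) := by
  refine ⟨e2dForm, ?_⟩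
  rw [qExpansion_eq_of_hasQ_one e2dForm hasQ_e2d]
  simp [map_theta]

/-! ### The weight two Eisenstein series of level `N` -/

section
variable [Fact N.Prime]

/-- `N E₂(Nz) - E₂(z)` -/
def eisFun (N : ℕ) : ℍ → ℂ := (E2 ∣[(2 : ℤ)] heckeDiagMatrix N) - E2

/-- `γ ↦ diag(N,1) γ diag(N,1)⁻¹` -/
def dConj (N : ℕ) (γ : SL(2, ℤ)) (h : (N : ℤ) ∣ γ 1 0) : SL(2, ℤ) :=
  ⟨!![γ 0 0, N * γ 0 1; γ 1 0 / N, γ 1 1], by
    have hdet := γ.det_coe
    rw [Matrix.det_fin_two] at hdet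
    rw [Matrix.det_fin_two_of]
    have : γ 1 0 / N * N = γ 1 0 := Int.ediv_mul_cancel h
    linear_combination hdet - γ 0 1 * this⟩

theorem diag_mul (γ : SL(2, ℤ)) (h : (N : ℤ) ∣ γ 1 0) :
    heckeDiagMatrix N * (γ : GL (Fin 2) ℝ) =
      (dConj N γ h : GL (Fin 2) ℝ) * heckeDiagMatrix N := by
  have hN : N ≠ 0 := (Fact.out : N.Prime).ne_zero
  have hc : ((γ 1 0 / N : ℤ) : ℝ) * N = ((γ 1 0 : ℤ) : ℝ) := by
    have : γ 1 0 / N * N = γ 1 0 := Int.ediv_mul_cancel h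
    exact_mod_cast congrArg (Int.cast : ℤ → ℝ) this
  apply Units.ext
  simp only [Units.val_mul, val_heckeDiagMatrix hN]
  ext a b
  have e1 : ∀ (g : SL(2, ℤ)) (i j : Fin 2), ((g : GL (Fin 2) ℝ) : Matrix (Fin 2) (Fin 2) ℝ) i j
    = ((g i j : ℤ) : ℝ) := fun g i j => rfl
  fin_cases a <;> fin_cases b <;>
  simp only [Matrix.mul_apply, Fin.sum_univ_two, e1] <;>
  simp [dConj] <;> nlinarith [hc]

theorem diag_mul_S :
    heckeDiagMatrix N * ((ModularGroup.S : SL(2, ℤ)) : GL (Fin 2) ℝ) =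
      ((ModularGroup.S : SL(2, ℤ)) : GL (Fin 2) ℝ) * heckeMatrix N 0 := by
  have hN : N ≠ 0 := (Fact.out : N.Prime).ne_zero
  apply Units.ext
  simp only [Units.val_mul, val_heckeDiagMatrix hN, val_heckeMatrix hN]
  ext a b
  have e1 : ∀ (g : SL(2, ℤ)) (i j : Fin 2), ((g : GL (Fin 2) ℝ) : Matrix (Fin 2) (Fin 2) ℝ) i j
    = ((g i j : ℤ) : ℝ) := fun g i j => rfl
  fin_cases a <;> fin_cases b <;>
  simp only [Matrix.mul_apply, Fin.sum_univ_two, e1] <;>
  simp [ModularGroup.S]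

theorem smul_slash_diag (c : ℂ) (f : ℍ → ℂ) :
    (c • f) ∣[(2 : ℤ)] heckeDiagMatrix N = c • (f ∣[(2 : ℤ)] heckeDiagMatrix N) := by
  ext τ
  have hN : N ≠ 0 := (Fact.out : N.Prime).ne_zero
  simp only [slash_heckeDiagMatrix_apply _ hN, Pi.smul_apply, smul_eq_mul]
  ring

theorem D2_slash_diag (γ : SL(2, ℤ)) (h : (N : ℤ) ∣ γ 1 0) :
    D2 (dConj N γ h) ∣[(2 : ℤ)] heckeDiagMatrix N = D2 γ := by
  ext τ
  have hN : N ≠ 0 := (Fact.out : N.Prime).ne_zero
  have hN' := natCast_ne (N := N)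
  have hc : ((γ 1 0 / N : ℤ) : ℂ) * N = ((γ 1 0 : ℤ) : ℂ) := by
    have : γ 1 0 / N * N = γ 1 0 := Int.ediv_mul_cancel h
    exact_mod_cast congrArg (Int.cast : ℤ → ℂ) this
  rw [slash_heckeDiagMatrix_apply _ hN]
  have hd : denom (dConj N γ h : GL (Fin 2) ℝ) (heckeDiagMatrix N • τ : ℍ) = denom (γ : GL (Fin 2) ℝ) τ := by
    rw [ModularGroup.denom_apply, ModularGroup.denom_apply, coe_diag_smul]
    simp only [dConj, Matrix.of_apply, Matrix.cons_val', Matrix.cons_val_zero, Matrix.cons_val_one,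
      Matrix.cons_val_fin_one]
    linear_combination (τ : ℂ) * hc
  simp only [D2]
  rw [hd]
  have h10 : (dConj N γ h) 1 0 = γ 1 0 / N := rfl
  rw [h10, ← hc]
  have h2 : ((N : ℂ)) ^ ((2 : ℤ) - 1) = N := by norm_num
  rw [h2]
  ring

theorem eisFun_slash (γ : SL(2, ℤ)) (hγ : γ ∈ Gamma0 N) : eisFun N ∣[(2 : ℤ)] γ = eisFun N := by
  have hd := dvd_of_mem_Gamma0 hγ
  have h1 : (E2 ∣[(2 : ℤ)] heckeDiagMatrix N) ∣[(2 : ℤ)] γ =
      (E2 ∣[(2 : ℤ)] heckeDiagMatrix N) - (1 / (2 * riemannZeta 2)) • D2 γ := by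
    rw [SL_slash, ← SlashAction.slash_mul, diag_mul γ hd, SlashAction.slash_mul, ← SL_slash,
      E2_slash_action, sub_eq_add_neg, SlashAction.add_slash, SlashAction.neg_slash,
      smul_slash_diag, D2_slash_diag, ← sub_eq_add_neg]
  rw [eisFun, sub_eq_add_neg, SlashAction.add_slash, SlashAction.neg_slash, h1, E2_slash_action]
  abel

theorem jfun_bounded : IsBoundedAtImInfty jfun := by
  rw [UpperHalfPlane.isBoundedAtImInfty_iff]
  refine ⟨1, 1, fun z hz => ?_⟩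
  rw [jfun, norm_mul, norm_inv, norm_inv]
  have h1 : 1 ≤ ‖(z : ℂ)‖ := le_trans hz (le_trans (le_abs_self _) (abs_im_le_norm (z : ℂ)))
  have h2 : 1 ≤ ‖(2 * π * I : ℂ)‖ := by
    simp only [norm_mul, Complex.norm_real, norm_I, mul_one, Real.norm_eq_abs,
      abs_of_pos Real.pi_pos]
    have := Real.pi_gt_three
    norm_num
    linarith
  exact mul_le_one₀ (inv_le_one_of_one_le₀ h2) (by positivity) (inv_le_one_of_one_le₀ h1)

theorem eisFun_slash_S_bounded : IsBoundedAtImInfty (eisFun N ∣[(2 : ℤ)] ModularGroup.S) := by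
  have hS : IsBoundedAtImInfty (E2 ∣[(2 : ℤ)] ModularGroup.S) := by
    rw [E2_slash_S]
    exact hasQ_E2.bounded.add (bounded_smul jfun_bounded _)
  have h1 : (E2 ∣[(2 : ℤ)] heckeDiagMatrix N) ∣[(2 : ℤ)] ModularGroup.S =
      (E2 ∣[(2 : ℤ)] ModularGroup.S) ∣[(2 : ℤ)] heckeMatrix N 0 := by
    rw [SL_slash, SL_slash, ← SlashAction.slash_mul, diag_mul_S, SlashAction.slash_mul]
  rw [eisFun, sub_eq_add_neg, SlashAction.add_slash, SlashAction.neg_slash, h1]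
  exact (hS.slash 2 (heckeMatrix_one_zero' N 0)).add hS.neg_left

theorem hasQ_eisFun : HasQ (eisFun N)
    (C (N : ℂ) * expand N (Fact.out : N.Prime).ne_zero (e2 ℂ) - e2 ℂ) := by
  have hN : N ≠ 0 := (Fact.out : N.Prime).ne_zero
  have h := ((hasQ_E2.diag (N := N)).smul (N : ℂ)).sub hasQ_E2
  rw [smul_eq_C_mul] at h
  refine h.congr ?_ rfl
  ext τ
  rw [eisFun, Pi.sub_apply, Pi.sub_apply, slash_heckeDiagMatrix_apply _ hN]
  have h2 : ((N : ℂ)) ^ ((2 : ℤ) - 1) = N := by norm_num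
  rw [h2]
  rfl

/-- The weight two Eisenstein series of level `N`, normalised as `N E₂(Nz) - E₂(z)` -/
def eisForm (N : ℕ) [Fact N.Prime] : ModularForm (Gamma0 N) 2 :=
  mkForm (eisFun N) eisFun_slash
    ((mdiff_E2.slash 2 (heckeDiagMatrix N)).sub mdiff_E2) hasQ_eisFun.bounded
    eisFun_slash_S_bounded

theorem qExpansion_eisForm : qExpansion 1 (eisForm N) =
    C (N : ℂ) * expand N (Fact.out : N.Prime).ne_zero (e2 ℂ) - e2 ℂ :=
  qExpansion_eq_of_hasQ_form (eisForm N) hasQ_eisFun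

/-- For weight two forms `F⁰ = -(1/N) U_N F`. -/
theorem qExpansion_wForm_two (F : ModularForm (Gamma0 N) 2) :
    qExpansion 1 (wForm F) = C (-(1 / (N : ℂ))) * Uop N (qExpansion 1 F) := by
  have hN := natCast_ne (N := N)
  have h0 : ∀ A : ModularForm 𝒮ℒ 2, A = 0 := by
    intro A
    have := levelOne_weight_two_rank_zero
    exact rank_zero_iff_forall_zero.mp this A
  have h1 : ∀ n, (qExpansion 1 (wForm F)).coeff n +
      N * (qExpansion 1 (wForm (wForm F))).coeff (n * N) = 0 := by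
    intro n
    rw [← qCoeff_trForm, h0 (trForm (wForm F))]
    simp [qExpansion_zero]
  have h2 : qExpansion 1 (wForm (wForm F)) = ((N : ℂ) ^ (-2 : ℤ)) • qExpansion 1 F := by
    have : (⇑(wForm (wForm F)) : ℍ → ℂ) = ((N : ℂ) ^ (-2 : ℤ)) • ⇑F := by
      simp only [coe_wForm, wFun_wFun (k := 2) ⟨1, rfl⟩]
    rw [this, ModularForm.qExpansion_smul one_pos (one_mem_strictPeriods_Gamma0 N) _ F]
  ext n
  have h3 := h1 n
  rw [h2, coeff_smul, smul_eq_mul] at h3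
  rw [coeff_C_mul, coeff_Uop]
  have h4 : ((N : ℂ) ^ (-2 : ℤ)) = 1 / (N : ℂ) ^ 2 := by
    rw [zpow_neg, one_div]; norm_cast
  rw [h4] at h3
  have h5 : (N : ℂ) * (1 / (N : ℂ) ^ 2 * coeff (n * N) (qExpansion 1 F)) =
      1 / (N : ℂ) * coeff (n * N) (qExpansion 1 F) := by
    field_simp
  rw [h5] at h3
  linear_combination h3

end

end Fermat.Agent.H13
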