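import Fermat.Agent.H13.Cusp
import Fermat.Agent.H22.Hecke

set_option autoImplicit false

noncomputable section

open ModularForm CongruenceSubgroup ModularFormClass ModularCurve
open Fermat.Agent.H22

namespace Fermat.Agent.H13

variable (N : ℕ) [hN : Fact N.Prime]

/-- the integral lattice -/
abbrev LL := ↥(CuspForm.intLattice N 2)

/-- the Hecke algebra -/
abbrev TT := ↥(CuspForm.heckeLatticeAlgebra N ∅)

/-- integral coefficients -/
def coefL : LL N →ₗ[ℤ] (ℕ → ℤ) where
  toFun g := fun k => Classical.choose ((mem_intLattice_iff g.1).mp g.2 k)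
  map_add' g h := by
    funext k
    have h1 := Classical.choose_spec ((mem_intLattice_iff g.1).mp g.2 k)
    have h2 := Classical.choose_spec ((mem_intLattice_iff h.1).mp h.2 k)
    have h3 := Classical.choose_spec ((mem_intLattice_iff (g + h).1).mp (g + h).2 k)
    have h4 : qCoeff ⇑(g + h).1 k = qCoeff ⇑g.1 k + qCoeff ⇑h.1 k := cusp_qCoeff_add g.1 h.1 k
    rw [h1, h2, h3] at h4
    exact_mod_cast h4
  map_smul' c g := by
    funext k
    have h1 := Classical.choose_spec ((mem_intLattice_iff g.1).mp g.2 k)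
    have h3 := Classical.choose_spec ((mem_intLattice_iff (c • g).1).mp (c • g).2 k)
    have h4 : qCoeff ⇑(c • g).1 k = c * qCoeff ⇑g.1 k := cusp_qCoeff_zsmul c g.1 k
    rw [h1, h3] at h4
    exact_mod_cast h4

omit hN in
theorem coefL_spec (g : LL N) (k : ℕ) : qCoeff ⇑g.1 k = (coefL N g k : ℂ) :=
  Classical.choose_spec ((mem_intLattice_iff g.1).mp g.2 k)

omit hN in
theorem coefL_zero (g : LL N) : coefL N g 0 = 0 := by
  have h := coefL_spec N g 0
  rw [cusp_qCoeff_zero] at h
  exact_mod_cast h.symm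

theorem coefL_injective : Function.Injective (coefL N) := by
  rw [injective_iff_map_eq_zero]
  intro g hg
  apply Subtype.ext
  refine cusp_eq_zero_of_qCoeff g.1 fun n _ => ?_
  rw [coefL_spec, hg]
  simp

/-- formal Hecke operators -/
def heckeOp (ℓ : ℕ) : (ℕ → ℤ) →ₗ[ℤ] (ℕ → ℤ) where
  toFun a := fun k => a (k * ℓ) + (if ℓ ∣ k then (if ℓ ∣ N then 0 else (ℓ : ℤ)) * a (k / ℓ) else 0)
  map_add' a b := by
    funext k
    simp only [Pi.add_apply]
    split_ifs <;> ring
  map_smul' c a := by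
    funext k
    simp only [Pi.smul_apply, smul_eq_mul, RingHom.id_apply]
    split_ifs <;> ring

/-- the map from the abstract Hecke algebra -/
def piH : HeckeAlg →+* TT N :=
  (CuspForm.latticeRestrictHom N ∅).toRingHom.comp (CuspForm.heckeEvalForms N 2)

theorem coefL_gen (ℓ : Nat.Primes) (g : LL N) :
    coefL N ((piH N (heckeGen ℓ) : Module.End ℤ (LL N)) g) = heckeOp N ℓ (coefL N g) := by
  funext k
  have h := coefL_spec N ((piH N (heckeGen ℓ) : Module.End ℤ (LL N)) g) k
  have e : (((piH N (heckeGen ℓ) : Module.End ℤ (LL N)) g : LL N) : CuspForm (Gamma0 N) 2) =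
      ((CuspForm.heckeEvalForms N 2 (heckeGen ℓ) : CuspForm.heckeAlgebra N 2 ∅) :
        Module.End ℂ (CuspForm (Gamma0 N) 2)) (g : CuspForm (Gamma0 N) 2) := rfl
  rw [e] at h
  by_cases hd : (ℓ : ℕ) ∣ N
  · rw [CuspForm.heckeEvalForms_heckeGen_of_dvd hd, CuspForm.heckeAlgebra.coe_U,
      qCoeff_heckeULin, coeffHeckeU_apply, coefL_spec] at h
    have h' : coefL N ((piH N (heckeGen ℓ) : Module.End ℤ (LL N)) g) k = coefL N g (k * ℓ) := by
      exact_mod_cast h.symm
    rw [h']
    simp [heckeOp, hd]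
  · rw [CuspForm.heckeEvalForms_heckeGen_of_not_dvd hd, CuspForm.heckeAlgebra.coe_T,
      qCoeff_heckeTLin, coeffHeckeT_apply, coefL_spec, coefL_spec] at h
    simp only [heckeOp, LinearMap.coe_mk, AddHom.coe_mk, if_neg hd]
    have h2 : ((ℓ : ℕ) : ℂ) ^ ((2 : ℤ) - 1) = ((ℓ : ℕ) : ℂ) := by norm_num
    rw [h2] at h
    split_ifs at h ⊢ with hk
    · exact_mod_cast h.symm
    · rw [add_zero] at h ⊢
      exact_mod_cast h.symm


/-- the Eisenstein character -/
def epsH : HeckeAlg →+* ℤ := (MvPolynomial.aeval (R := ℤ) (eisensteinSystem N)).toRingHom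

omit hN in
theorem eisensteinIdeal_eq : eisensteinIdeal N = RingHom.ker (epsH N) := rfl

omit hN in
theorem epsH_gen (ℓ : Nat.Primes) : epsH N (heckeGen ℓ) = eisensteinSystem N ℓ :=
  aeval_heckeGen _ _

/-- the sequence `σ_N` -/
def sN : ℕ → ℤ := fun k => sigN N k

theorem heckeOp_sN (ℓ : Nat.Primes) : heckeOp N ℓ (sN N) = eisensteinSystem N ℓ • sN N := by
  funext k
  simp only [heckeOp, LinearMap.coe_mk, AddHom.coe_mk, Pi.smul_apply, smul_eq_mul, sN]
  by_cases hd : (ℓ : ℕ) ∣ N
  · have : (ℓ : ℕ) = N := (Nat.prime_dvd_prime_iff_eq ℓ.2 hN.out).mp hd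
    rw [eisensteinSystem_of_dvd hd, if_pos hd, zero_mul, ite_self, add_zero, one_mul, this,
      sigN_mul_self]
  · rw [eisensteinSystem_of_not_dvd hd, if_neg hd]
    have := sigN_mul_prime (N := N) ℓ.2 hd k
    exact_mod_cast this

theorem exists_op (Q : HeckeAlg) : ∃ Θ : (ℕ → ℤ) →ₗ[ℤ] (ℕ → ℤ),
    (∀ g : LL N, coefL N ((piH N Q : Module.End ℤ (LL N)) g) = Θ (coefL N g)) ∧
    Θ (sN N) = epsH N Q • sN N := by
  induction Q using MvPolynomial.induction_on with
  | C a =>
    refine ⟨a • LinearMap.id, fun g => ?_, ?_⟩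
    · have : piH N (MvPolynomial.C a) = ((a : ℤ) : TT N) := by
        have h1 : (MvPolynomial.C a : HeckeAlg) = ((a : ℤ) : HeckeAlg) := by simp
        rw [h1, map_intCast]
      rw [this]
      have h2 : (((a : ℤ) : TT N) : Module.End ℤ (LL N)) g = a • g := by simp
      rw [h2, map_smul]
      rfl
    · have : epsH N (MvPolynomial.C a) = a := by
        have h1 : (MvPolynomial.C a : HeckeAlg) = ((a : ℤ) : HeckeAlg) := by simp
        rw [h1, map_intCast]; simp
      rw [this]; rfl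
  | add p q hp hq =>
    obtain ⟨Θ₁, h1, h1'⟩ := hp
    obtain ⟨Θ₂, h2, h2'⟩ := hq
    refine ⟨Θ₁ + Θ₂, fun g => ?_, ?_⟩
    · rw [map_add]
      have : ((piH N p + piH N q : TT N) : Module.End ℤ (LL N)) g =
        (piH N p : Module.End ℤ (LL N)) g + (piH N q : Module.End ℤ (LL N)) g := rfl
      rw [this, map_add, h1, h2, LinearMap.add_apply]
    · rw [LinearMap.add_apply, h1', h2', map_add, add_smul]
  | mul_X p ℓ hp =>
    obtain ⟨Θ, h1, h1'⟩ := hp
    refine ⟨Θ ∘ₗ heckeOp N ℓ, fun g => ?_, ?_⟩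
    · rw [map_mul]
      have : ((piH N p * piH N (MvPolynomial.X ℓ) : TT N) : Module.End ℤ (LL N)) g =
        (piH N p : Module.End ℤ (LL N)) ((piH N (heckeGen ℓ) : Module.End ℤ (LL N)) g) := rfl
      rw [this, h1, coefL_gen, LinearMap.comp_apply]
    · rw [LinearMap.comp_apply, heckeOp_sN, map_smul, h1', map_mul, smul_smul]
      congr 1
      have : epsH N (MvPolynomial.X ℓ) = eisensteinSystem N ℓ := epsH_gen N ℓ
      rw [this, mul_comm]

/-- the operators `P_k` with `a_k = a_1 ∘ P_k` -/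
theorem exists_P (k : ℕ) (hk : 1 ≤ k) : ∃ P : HeckeAlg,
    (∀ g : LL N, coefL N g k = coefL N ((piH N P : Module.End ℤ (LL N)) g) 1) ∧
    epsH N P = sigN N k := by
  induction k using Nat.strong_induction_on with
  | _ k ih =>
    rcases eq_or_ne k 1 with rfl | hk1
    · refine ⟨1, fun g => ?_, ?_⟩
      · rw [map_one]; rfl
      · rw [map_one, sigN_one hN.out.ne_one]; rfl
    · obtain ⟨ℓ, m, rfl⟩ : ∃ (ℓ : Nat.Primes) (m : ℕ), k = ℓ * m := by
        obtain ⟨ℓ, hℓ, m, rfl⟩ := Nat.exists_prime_and_dvd hk1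
        exact ⟨⟨ℓ, hℓ⟩, m, rfl⟩
      have hℓ := ℓ.2
      have hm : 1 ≤ m := Nat.one_le_iff_ne_zero.mpr (by rintro rfl; simp at hk)
      have hmlt : m < ℓ * m := by nlinarith [hℓ.one_lt]
      obtain ⟨P, hP, hP'⟩ := ih m hmlt hm
      have key : ∀ g : LL N, coefL N ((piH N (P * heckeGen ℓ) : Module.End ℤ (LL N)) g) 1 =
          heckeOp N ℓ (coefL N g) m := by
        intro g
        rw [map_mul]
        have : ((piH N P * piH N (heckeGen ℓ) : TT N) : Module.End ℤ (LL N)) g =
          (piH N P : Module.End ℤ (LL N)) ((piH N (heckeGen ℓ) : Module.End ℤ (LL N)) g) := rfl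
        rw [this, ← hP, coefL_gen]
      have key2 : epsH N (P * heckeGen ℓ) = heckeOp N ℓ (sN N) m := by
        rw [map_mul, hP', epsH_gen, heckeOp_sN]
        simp only [Pi.smul_apply, smul_eq_mul, sN]
        ring
      by_cases hd : (ℓ : ℕ) ∣ m
      · obtain ⟨m', rfl⟩ := hd
        have hm' : 1 ≤ m' := Nat.one_le_iff_ne_zero.mpr (by rintro rfl; simp at hm)
        have hmlt' : m' < ℓ * (ℓ * m') :=
          lt_of_le_of_lt (Nat.le_mul_of_pos_left m' hℓ.pos) hmlt
        obtain ⟨P', h1, h1'⟩ := ih m' hmlt' hm'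
        obtain ⟨e, he⟩ : ∃ e : ℤ, e = if (ℓ : ℕ) ∣ N then 0 else ((ℓ : ℕ) : ℤ) := ⟨_, rfl⟩
        have hop : ∀ a : ℕ → ℤ, heckeOp N ℓ a (ℓ * m') = a (ℓ * (ℓ * m')) + e * a m' := by
          intro a
          simp only [heckeOp, LinearMap.coe_mk, AddHom.coe_mk, dvd_mul_right, if_true,
            Nat.mul_div_cancel_left _ hℓ.pos, ← he]
          rw [mul_comm (ℓ : ℕ) (ℓ * m')]
        refine ⟨P * heckeGen ℓ - (e : HeckeAlg) * P', fun g => ?_, ?_⟩
        · rw [map_sub, map_mul (piH N) _ P', map_intCast]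
          have : ((piH N (P * heckeGen ℓ) - ((e : ℤ) : TT N) * piH N P' : TT N) :
              Module.End ℤ (LL N)) g =
              (piH N (P * heckeGen ℓ) : Module.End ℤ (LL N)) g -
              e • ((piH N P' : Module.End ℤ (LL N)) g) := by
            simp
          rw [this, map_sub, map_smul, Pi.sub_apply, Pi.smul_apply, key, ← h1, hop, smul_eq_mul]
          ring
        · rw [map_sub, key2, map_mul, map_intCast, h1', hop]
          simp only [sN, Int.cast_id]
          ring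
      · refine ⟨P * heckeGen ℓ, fun g => ?_, ?_⟩
        · rw [key]
          simp only [heckeOp, LinearMap.coe_mk, AddHom.coe_mk, if_neg hd, add_zero]
          rw [mul_comm]
        · rw [key2]
          simp only [heckeOp, LinearMap.coe_mk, AddHom.coe_mk, if_neg hd, add_zero, sN]
          rw [mul_comm]

/-! ### Duality -/

/-- the pairing `(g, t) ↦ a_1(t g)` -/
def pairB : LL N →ₗ[ℤ] (TT N →ₗ[ℤ] ℤ) where
  toFun g :=
    { toFun := fun t => coefL N ((t : Module.End ℤ (LL N)) g) 1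
      map_add' := fun s t => by
        have : ((s + t : TT N) : Module.End ℤ (LL N)) g = (s : Module.End ℤ (LL N)) g +
          (t : Module.End ℤ (LL N)) g := rfl
        rw [this, map_add]; rfl
      map_smul' := fun c t => by
        have : ((c • t : TT N) : Module.End ℤ (LL N)) g = c • ((t : Module.End ℤ (LL N)) g) := rfl
        rw [this, map_smul]; rfl }
  map_add' g h := by
    ext t
    simp
  map_smul' c g := by
    ext t
    simp

@[simp] theorem pairB_apply (g : LL N) (t : TT N) :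
    pairB N g t = coefL N ((t : Module.End ℤ (LL N)) g) 1 := rfl

theorem coefL_eq_pairB {k : ℕ} (hk : 1 ≤ k) :
    ∃ P : HeckeAlg, (∀ g : LL N, coefL N g k = pairB N g (piH N P)) ∧ epsH N P = sigN N k :=
  exists_P N k hk

theorem pairB_injective : Function.Injective (pairB N) := by
  rw [injective_iff_map_eq_zero]
  intro g hg
  apply coefL_injective N
  rw [map_zero]
  funext k
  rcases Nat.eq_zero_or_pos k with rfl | hk
  · rw [coefL_zero]; rfl
  · obtain ⟨P, hP, _⟩ := coefL_eq_pairB N hk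
    rw [hP, hg]; rfl

theorem pairB_flip_injective : Function.Injective (pairB N).flip := by
  rw [injective_iff_map_eq_zero]
  intro t ht
  apply Subtype.ext
  apply LinearMap.ext
  intro g
  apply pairB_injective N
  ext s
  have h1 : pairB N ((t : Module.End ℤ (LL N)) g) s = pairB N g (s * t) := rfl
  have h2 : pairB N g (s * t) = pairB N g (t * s) := by rw [mul_comm]
  have h3 : pairB N g (t * s) = (pairB N).flip t ((s : Module.End ℤ (LL N)) g) := rfl
  rw [h1, h2, h3, ht]
  simp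

theorem finrank_eq : Module.finrank ℤ (LL N) = Module.finrank ℤ (TT N) := by
  have := CuspForm.intLattice.moduleFinite N
  have := CuspForm.intLattice.moduleFree N
  apply le_antisymm
  · have h := LinearMap.finrank_le_finrank_of_injective (pairB_injective N)
    rwa [Module.finrank_linearMap_self] at h
  · have h := LinearMap.finrank_le_finrank_of_injective (pairB_flip_injective N)
    rwa [Module.finrank_linearMap_self] at h

theorem exists_smul_mem (ψ : TT N →ₗ[ℤ] ℤ) : ∃ (d : ℤ) (g : LL N), d ≠ 0 ∧ d • ψ = pairB N g := by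
  have := CuspForm.intLattice.moduleFinite N
  have := CuspForm.intLattice.moduleFree N
  have h1 : Module.finrank ℤ (LinearMap.range (pairB N)) = Module.finrank ℤ (TT N →ₗ[ℤ] ℤ) := by
    rw [LinearMap.finrank_range_of_inj (pairB_injective N), finrank_eq,
      Module.finrank_linearMap_self]
  have h2 := Submodule.finrank_quotient_add_finrank (LinearMap.range (pairB N))
  have h3 : Module.finrank ℤ ((TT N →ₗ[ℤ] ℤ) ⧸ LinearMap.range (pairB N)) = 0 := by omega
  have h4 : Module.rank ℤ ((TT N →ₗ[ℤ] ℤ) ⧸ LinearMap.range (pairB N)) = 0 := by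
    rw [← Module.finrank_eq_rank, h3]; rfl
  rw [rank_eq_zero_iff] at h4
  obtain ⟨d, hd, h5⟩ := h4 (Submodule.Quotient.mk ψ)
  rw [← Submodule.Quotient.mk_smul, Submodule.Quotient.mk_eq_zero] at h5
  obtain ⟨g, hg⟩ := h5
  exact ⟨d, g, hd, hg.symm⟩

theorem pairB_surjective (ψ : TT N →ₗ[ℤ] ℤ) : ∃ f : LL N, pairB N f = ψ := by
  obtain ⟨d, g, hd, hg⟩ := exists_smul_mem N ψ
  have hdC : (d : ℂ) ≠ 0 := by exact_mod_cast hd
  -- all coefficients of `g` are divisible by `d`
  have h1 : ∀ k, ∃ b : ℤ, coefL N g k = d * b := by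
    intro k
    rcases Nat.eq_zero_or_pos k with rfl | hk
    · exact ⟨0, by rw [coefL_zero, mul_zero]⟩
    · obtain ⟨P, hP, _⟩ := coefL_eq_pairB N hk
      exact ⟨ψ (piH N P), by rw [hP, ← hg]; rfl⟩
  have hmem : ((d : ℂ)⁻¹ • (g : CuspForm (Gamma0 N) 2)) ∈ CuspForm.intLattice N 2 := by
    rw [mem_intLattice_iff]
    intro k
    obtain ⟨b, hb⟩ := h1 k
    refine ⟨b, ?_⟩
    rw [cusp_qCoeff_smul, coefL_spec, hb]
    push_cast
    field_simp
  refine ⟨⟨_, hmem⟩, ?_⟩
  have h2 : d • (⟨_, hmem⟩ : LL N) = g := by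
    apply Subtype.ext
    change (d : ℤ) • ((d : ℂ)⁻¹ • (g : CuspForm (Gamma0 N) 2)) = g
    rw [← Int.cast_smul_eq_zsmul ℂ d, smul_smul, mul_inv_cancel₀ hdC, one_smul]
  have h3 : d • pairB N ⟨_, hmem⟩ = d • ψ := by
    rw [← map_smul, h2, hg]
  ext t
  have h4 := LinearMap.congr_fun h3 t
  simp only [LinearMap.smul_apply, smul_eq_mul] at h4
  exact mul_left_cancel₀ hd h4

end Fermat.Agent.H13
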