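import Fermat.Agent.H13.B123

set_option autoImplicit false

noncomputable section

open PowerSeries

namespace Fermat.Agent.H13

theorem nt1 {q N : ℕ} (hq : q.Prime) (hN : N.Prime) (hqN : q ≠ N) :
    ∃ M : ℕ, ¬ q ^ (M + 1) ∣ N ^ (q ^ M - 1) - 1 := by
  refine ⟨N ^ (q - 1), fun h => ?_⟩
  set M := N ^ (q - 1) with hM
  have hcop : Nat.Coprime N (q ^ (M + 1)) :=
    Nat.Coprime.pow_right _ ((Nat.coprime_primes hN hq).mpr (Ne.symm hqN))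
  have hQ : 1 ≤ q ^ M := Nat.one_le_pow _ _ hq.pos
  have hN1 : 1 ≤ N ^ (q ^ M - 1) := Nat.one_le_pow _ _ hN.pos
  have h1 : N ^ (q ^ M - 1) ≡ 1 [MOD q ^ (M + 1)] := ((Nat.modEq_iff_dvd' hN1).mpr h).symm
  have h2 : N ^ (Nat.totient (q ^ (M + 1))) ≡ 1 [MOD q ^ (M + 1)] := Nat.ModEq.pow_totient hcop
  rw [Nat.totient_prime_pow_succ hq] at h2
  -- orders
  let u : (ZMod (q ^ (M + 1)))ˣ := ZMod.unitOfCoprime N hcop
  have hu1 : u ^ (q ^ M - 1) = 1 := by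
    apply Units.ext
    simp only [Units.val_pow_eq_pow_val, u, ZMod.coe_unitOfCoprime, Units.val_one]
    exact_mod_cast (ZMod.natCast_eq_natCast_iff _ _ _).mpr h1
  have hu2 : u ^ (q ^ M * (q - 1)) = 1 := by
    apply Units.ext
    simp only [Units.val_pow_eq_pow_val, u, ZMod.coe_unitOfCoprime, Units.val_one]
    exact_mod_cast (ZMod.natCast_eq_natCast_iff _ _ _).mpr h2
  have ho1 := orderOf_dvd_of_pow_eq_one hu1
  have ho2 := orderOf_dvd_of_pow_eq_one hu2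
  have hc : Nat.Coprime (orderOf u) (q ^ M) := by
    apply Nat.Coprime.of_dvd_left ho1
    have : Nat.Coprime (q ^ M - 1) (q ^ M - 1 + 1) := by simp
    rwa [Nat.sub_add_cancel hQ] at this
  have ho3 : orderOf u ∣ q - 1 := hc.dvd_of_dvd_mul_left ho2
  have hu3 : u ^ (q - 1) = 1 := orderOf_dvd_iff_pow_eq_one.mp ho3
  have h3 : N ^ (q - 1) ≡ 1 [MOD q ^ (M + 1)] := by
    have := congrArg Units.val hu3
    simp only [Units.val_pow_eq_pow_val, u, ZMod.coe_unitOfCoprime, Units.val_one] at this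
    have h4 : ((N ^ (q - 1) : ℕ) : ZMod (q ^ (M + 1))) = ((1 : ℕ) : ZMod (q ^ (M + 1))) := by
      exact_mod_cast this
    exact (ZMod.natCast_eq_natCast_iff _ _ _).mp h4
  have hN2 : 1 < N ^ (q - 1) := Nat.one_lt_pow (by have := hq.two_le; omega) hN.one_lt
  have h5 : q ^ (M + 1) ∣ N ^ (q - 1) - 1 := (Nat.modEq_iff_dvd' (by omega)).mp h3.symm
  have h6 := Nat.le_of_dvd (by omega) h5
  have h7 : M + 1 < q ^ (M + 1) := Nat.lt_pow_self hq.one_lt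
  omega

section
variable {R : Subring ℚ} {φ ψ : R⟦X⟧} {k : ℤ}

theorem ROne.of_nat_mul (c : ℕ) (hc : c ≠ 0) (h : ROne R k ((c : R⟦X⟧) * φ)) : ROne R k φ := by
  have hc' : (c : ℚ) ≠ 0 := by exact_mod_cast hc
  have e : (C ((c : ℚ)⁻¹)) * (c : ℚ⟦X⟧) = 1 := by
    have : (c : ℚ⟦X⟧) = C (c : ℚ) := by simp
    rw [this, ← map_mul, inv_mul_cancel₀ hc', map_one]
  refine (IsOne.C_mul h ((c : ℚ)⁻¹)).congr ?_
  rw [map_mul, map_natCast, ← mul_assoc, e, one_mul]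

end

section
variable {q : ℕ} [hq : Fact q.Prime] {N : ℕ} [hN : Fact N.Prime] {X₁ X₂ : (Zl q)⟦X⟧}

theorem B1_aux {κ Z A s u : (Zl q)⟦X⟧} {c a : ℤ} {w M : ℕ} (hw : w < 6)
    (hκ : ROne (Zl q) (2 * ((q ^ M : ℕ) : ℤ)) κ) (hκc : κ = (c : (Zl q)⟦X⟧) + (q : (Zl q)⟦X⟧) * Z)
    (hA : ROne (Zl q) (2 * (w : ℤ)) A) (hAs : A = 1 + (a : (Zl q)⟦X⟧) * s)
    (hs : s = X * u) (hu : coeff 0 u = 1) (hqc : ¬ (q : ℤ) ∣ c) : (q : ℤ) ∣ a := by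
  obtain ⟨r, hr⟩ := exists_add_pow_prime_pow_eq hq.out (1 : (Zl q)⟦X⟧) ((a : (Zl q)⟦X⟧) * s) M
  obtain ⟨Y, hY⟩ : (q : (Zl q)⟦X⟧) ∣ κ ^ w - (c : (Zl q)⟦X⟧) ^ w :=
    dvd_trans ⟨Z, by rw [hκc]; ring⟩ (sub_dvd_pow_sub_pow κ (c : (Zl q)⟦X⟧) w)
  have h1 := (hκ.pow w).sub (((hA.pow (q ^ M)).C_mul ((c : Zl q) ^ w)).cast
    (k' := w * (2 * ((q ^ M : ℕ) : ℤ))) (by push_cast; ring))
  have hCc : (C ((c : Zl q) ^ w) : (Zl q)⟦X⟧) = (c : (Zl q)⟦X⟧) ^ w := by simp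
  have h2 : κ ^ w - C ((c : Zl q) ^ w) * A ^ q ^ M =
      (q : (Zl q)⟦X⟧) * (Y - (c : (Zl q)⟦X⟧) ^ w * 1 * ((a : (Zl q)⟦X⟧) * s) * r)
        - ((c ^ w * a ^ q ^ M : ℤ) : (Zl q)⟦X⟧) * (X ^ q ^ M * u ^ q ^ M) := by
    rw [hCc, hAs, hr]
    push_cast
    rw [mul_pow, hs, mul_pow]
    linear_combination hY
  have hQ : 1 ≤ q ^ M := Nat.one_le_pow _ _ hq.out.pos
  have h3 : ∀ n < q ^ M, (q : Zl q) ∣ coeff n (κ ^ w - C ((c : Zl q) ^ w) * A ^ q ^ M) := by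
    intro n hn
    rw [h2, map_sub, coeff_natCast_mul, coeff_intCast_mul, coeff_X_pow_mul', if_neg (by omega),
      mul_zero, sub_zero]
    exact dvd_mul_right _ _
  have h4 := sturm (q ^ M) (w * ((q ^ M : ℕ) : ℤ)) _ (by
    have : (1 : ℤ) ≤ ((q ^ M : ℕ) : ℤ) := by exact_mod_cast hQ
    have hw' : (w : ℤ) ≤ 5 := by exact_mod_cast (by omega : w ≤ 5)
    nlinarith) (h1.cast (by ring)) h3 (q ^ M)
  rw [h2, map_sub, coeff_natCast_mul, coeff_intCast_mul, coeff_X_pow_mul', if_pos le_rfl,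
    Nat.sub_self, coeff_zero_pow', hu, one_pow,
    mul_one (((c ^ w * a ^ q ^ M : ℤ)) : Zl q)] at h4
  have h5 : (q : Zl q) ∣ ((c ^ w * a ^ q ^ M : ℤ) : Zl q) :=
    (dvd_sub_right (dvd_mul_right _ _)).mp h4
  have h6 := Zl.dvd_of_dvd (q := q) (v := 1) (m := c ^ w * a ^ q ^ M) (by simpa using h5)
  rw [pow_one] at h6
  have hp : Prime (q : ℤ) := Nat.prime_iff_prime_int.mp hq.out
  rcases hp.dvd_or_dvd h6 with h | h
  · exact absurd (hp.dvd_of_dvd_pow h) hqc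
  · exact hp.dvd_of_dvd_pow h

theorem sser_eq_X_mul {R : Type*} [CommRing R] (k : ℕ) : ∃ u : R⟦X⟧, sser R k = X * u ∧ coeff 0 u = 1 := by
  obtain ⟨u, hu⟩ := (X_dvd_iff (φ := sser R k)).mpr (by
    rw [← coeff_zero_eq_constantCoeff_apply]; exact coeff_zero_sser k)
  refine ⟨u, hu, ?_⟩
  have := coeff_one_sser (R := R) k
  rw [hu] at this
  simpa using this

/-- case `q ≥ 5`, `q ≠ N` -/
theorem B1 (hqN : q ≠ N) (hq5 : 5 ≤ q)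
    (hG : RForm (Zl q) N 1 (1 + ((q ^ 1 : ℕ) : (Zl q)⟦X⟧) * X₁)
      (1 + ((q ^ 1 : ℕ) : (Zl q)⟦X⟧) * X₂)) : False := by
  obtain ⟨M, hM⟩ := nt1 hq.out hN.out hqN
  have hQ : 1 ≤ q ^ M := Nat.one_le_pow _ _ hq.out.pos
  rw [pow_one] at hG
  -- factor out the power of `q`
  have hA0 : N ^ (q ^ M - 1) - 1 ≠ 0 := by
    intro h
    exact hM (h ▸ dvd_zero _)
  obtain ⟨s, c, hqc, hA⟩ := Nat.exists_eq_pow_mul_and_not_dvd hA0 q hq.out.ne_one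
  have hs : s ≤ M := by
    by_contra hlt
    exact hM (dvd_trans (pow_dvd_pow q (by omega)) (hA ▸ dvd_mul_right _ _))
  have hp1 := dvd_sub_pow_of_dvd_sub (R := (Zl q)⟦X⟧) (p := q)
    (a := 1 + (q : (Zl q)⟦X⟧) * X₁) (b := 1) ⟨X₁, by ring⟩ M
  have hp2 := dvd_sub_pow_of_dvd_sub (R := (Zl q)⟦X⟧) (p := q)
    (a := 1 + (q : (Zl q)⟦X⟧) * X₂) (b := 1) ⟨X₂, by ring⟩ M
  obtain ⟨Z₁, hZ₁⟩ := hp1
  obtain ⟨Z₂, hZ₂⟩ := hp2
  have h1 := (((hG.pow (q ^ M)).cast (l := (q ^ M - 1) + 1) (by omega)).trace)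
  rw [Nat.sub_add_cancel hQ] at h1
  have hodd : Odd (q ^ M) := (hq.out.odd_of_ne_two (by omega)).pow
  rw [hodd.neg_one_pow] at h1
  have e1 : (1 + (q : (Zl q)⟦X⟧) * X₁) ^ q ^ M = 1 + (q : (Zl q)⟦X⟧) ^ (M + 1) * Z₁ := by
    rw [one_pow] at hZ₁; linear_combination hZ₁
  have e2 : (1 + (q : (Zl q)⟦X⟧) * X₂) ^ q ^ M =
      1 + ((q ^ (M + 1) : ℕ) : (Zl q)⟦X⟧) * Z₂ := by
    rw [one_pow] at hZ₂; push_cast; linear_combination hZ₂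
  rw [e1, e2, map_add, Uop_natCast_mul, Uop_one hN.out.ne_zero] at h1
  have e3 : (N : (Zl q)⟦X⟧) ^ (q ^ M - 1) = 1 + (q : (Zl q)⟦X⟧) ^ s * (c : (Zl q)⟦X⟧) := by
    have h2 : N ^ (q ^ M - 1) = 1 + q ^ s * c := by
      have := Nat.one_le_pow (q ^ M - 1) N hN.out.pos
      omega
    exact_mod_cast congrArg (Nat.cast (R := (Zl q)⟦X⟧)) h2
  have e4' : (q : (Zl q)⟦X⟧) ^ (M + 1) = (q : (Zl q)⟦X⟧) ^ s * ((q : (Zl q)⟦X⟧) * (q : (Zl q)⟦X⟧) ^ (M - s)) := by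
    rw [← pow_succ', ← pow_add]
    congr 1
    omega
  have h3 : ROne (Zl q) (2 * ((q ^ M : ℕ) : ℤ)) (((q ^ s : ℕ) : (Zl q)⟦X⟧) *
      (((c : ℤ) : (Zl q)⟦X⟧) + (q : (Zl q)⟦X⟧) * ((q : (Zl q)⟦X⟧) ^ (M - s) *
        ((N : (Zl q)⟦X⟧) ^ (q ^ M - 1) * Z₁ - Uop N Z₂)))) := by
    refine (h1.cast (by push_cast [Nat.cast_sub hQ]; ring)).congr ?_
    push_cast
    rw [e4']
    linear_combination e3
  have h4 := h3.of_nat_mul _ (pow_ne_zero _ hq.out.ne_zero)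
  have hqc' : ¬ (q : ℤ) ∣ (c : ℤ) := by exact_mod_cast hqc
  obtain ⟨u₃, hu₃, hu₃'⟩ := sser_eq_X_mul (R := Zl q) 3
  obtain ⟨u₅, hu₅, hu₅'⟩ := sser_eq_X_mul (R := Zl q) 5
  have h5 : (q : ℤ) ∣ 240 := B1_aux (w := 2) (a := 240) (by norm_num) h4 rfl
    (rOne_e4.cast (by norm_num)) (by rw [e4]; push_cast; rfl) hu₃ hu₃' hqc'
  have h6 : (q : ℤ) ∣ (-504) := B1_aux (w := 3) (a := -504) (by norm_num) h4 rfl
    (rOne_e6.cast (by norm_num)) (by rw [e6]; push_cast; ring) hu₅ hu₅' hqc'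
  have h8 : (q : ℤ) ∣ 24 := by
    have := dvd_sub (Dvd.dvd.mul_left h6 (-1)) (Dvd.dvd.mul_left h5 2)
    norm_num at this
    exact this
  have h9 : q ∣ 24 := by exact_mod_cast h8
  have h10 : q ≤ 24 := Nat.le_of_dvd (by norm_num) h9
  have := hq.out
  generalize q = r at *
  interval_cases r <;> revert h9 this <;> decide

end

end Fermat.Agent.H13
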