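import Fermat.Agent.H13.Loc

set_option autoImplicit false

noncomputable section

open PowerSeries

namespace Fermat.Agent.H13

section gen
variable {R : Type*} [CommRing R] {N : ℕ}

theorem coeff_natCast_mul (c n : ℕ) (φ : R⟦X⟧) : coeff n ((c : R⟦X⟧) * φ) = c * coeff n φ := by
  have : (c : R⟦X⟧) = C (c : R) := by simp
  rw [this, coeff_C_mul]

theorem coeff_intCast_mul (c : ℤ) (n : ℕ) (φ : R⟦X⟧) : coeff n ((c : R⟦X⟧) * φ) = c * coeff n φ := by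
  have : (c : R⟦X⟧) = C (c : R) := by simp
  rw [this, coeff_C_mul]

theorem Uop_natCast_mul (c : ℕ) (φ : R⟦X⟧) : Uop N ((c : R⟦X⟧) * φ) = c * Uop N φ := by
  ext n
  rw [coeff_Uop, coeff_natCast_mul, coeff_natCast_mul, coeff_Uop]

theorem Uop_intCast_mul (c : ℤ) (φ : R⟦X⟧) : Uop N ((c : R⟦X⟧) * φ) = c * Uop N φ := by
  ext n
  rw [coeff_Uop, coeff_intCast_mul, coeff_intCast_mul, coeff_Uop]

theorem coeff_natCast_of_pos (c n : ℕ) (hn : n ≠ 0) : coeff n (c : R⟦X⟧) = 0 := by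
  have : (c : R⟦X⟧) = C (c : R) := by simp
  rw [this, coeff_C, if_neg hn]

theorem coeff_intCast_of_pos (c : ℤ) (n : ℕ) (hn : n ≠ 0) : coeff n (c : R⟦X⟧) = 0 := by
  have : (c : R⟦X⟧) = C (c : R) := by simp
  rw [this, coeff_C, if_neg hn]

theorem coeff_zero_intCast (c : ℤ) : coeff 0 (c : R⟦X⟧) = c := by
  have : (c : R⟦X⟧) = C (c : R) := by simp
  rw [this, coeff_zero_C]

theorem coeff_one_e4 : coeff 1 (e4 R) = 240 := by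
  rw [e4, map_add, coeff_ofNat_mul, coeff_one_sser, coeff_one]; simp

theorem coeff_one_e6 : coeff 1 (e6 R) = -504 := by
  rw [e6, map_sub, coeff_ofNat_mul, coeff_one_sser, coeff_one]; simp

end gen

section
variable {q : ℕ} [hq : Fact q.Prime] {N : ℕ} [hN : Fact N.Prime] {lam w : ℕ} {X₁ X₂ : (Zl q)⟦X⟧}

theorem P4 (hG : RForm (Zl q) N 1 (1 + (lam : (Zl q)⟦X⟧) * X₁) (1 + (lam : (Zl q)⟦X⟧) * X₂)) :
    (lam : Zl q) ∣ (((N + 1) * 240 : ℤ) : Zl q) := by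
  have h1 := (((hG.pow 2).cast (l := 1 + 1) (by norm_num)).trace)
  have h2 := (h1.cast (k' := 4) (by norm_num)).eq_of_lt rOne_e4 coeff_zero_e4 (by norm_num)
  obtain ⟨Z, hZ⟩ : ∃ Z : (Zl q)⟦X⟧, Z = (N : (Zl q)⟦X⟧) * (2 * X₁ + (lam : (Zl q)⟦X⟧) * X₁ ^ 2) +
    Uop N (2 * X₂ + (lam : (Zl q)⟦X⟧) * X₂ ^ 2) := ⟨_, rfl⟩
  have h3 : (N : (Zl q)⟦X⟧) ^ 1 * (1 + (lam : (Zl q)⟦X⟧) * X₁) ^ 2 +
      (-1) ^ (1 + 1) * Uop N ((1 + (lam : (Zl q)⟦X⟧) * X₂) ^ 2) =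
      ((N + 1 : ℤ) : (Zl q)⟦X⟧) + (lam : (Zl q)⟦X⟧) * Z := by
    have : (1 + (lam : (Zl q)⟦X⟧) * X₂) ^ 2 =
      1 + (lam : (Zl q)⟦X⟧) * (2 * X₂ + (lam : (Zl q)⟦X⟧) * X₂ ^ 2) := by ring
    rw [this, map_add, Uop_natCast_mul, Uop_one hN.out.ne_zero, hZ]
    push_cast
    ring
  rw [h3] at h2
  have h4 := congrArg (coeff 1) h2
  rw [coeff_C_mul, coeff_one_e4, map_add, map_add, coeff_natCast_mul, coeff_natCast_mul,
    coeff_intCast_of_pos _ _ one_ne_zero, coeff_zero_intCast] at h4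
  refine ⟨coeff 1 Z - coeff 0 Z * 240, ?_⟩
  push_cast at h4 ⊢
  linear_combination -h4

theorem P6 (hG : RForm (Zl q) N 1 (1 + (lam : (Zl q)⟦X⟧) * X₁) (1 + (lam : (Zl q)⟦X⟧) * X₂)) :
    (lam : Zl q) ∣ (((N ^ 2 - 1) * 504 : ℤ) : Zl q) := by
  have h1 := (((hG.pow 3).cast (l := 2 + 1) (by norm_num)).trace)
  have h2 := (h1.cast (k' := 6) (by norm_num)).eq_of_lt rOne_e6 coeff_zero_e6 (by norm_num)
  obtain ⟨Z, hZ⟩ : ∃ Z : (Zl q)⟦X⟧, Z = (N : (Zl q)⟦X⟧) ^ 2 * (3 * X₁ +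
      3 * (lam : (Zl q)⟦X⟧) * X₁ ^ 2 + (lam : (Zl q)⟦X⟧) ^ 2 * X₁ ^ 3) -
    Uop N (3 * X₂ + 3 * (lam : (Zl q)⟦X⟧) * X₂ ^ 2 + (lam : (Zl q)⟦X⟧) ^ 2 * X₂ ^ 3) := ⟨_, rfl⟩
  have h3 : (N : (Zl q)⟦X⟧) ^ 2 * (1 + (lam : (Zl q)⟦X⟧) * X₁) ^ 3 +
      (-1) ^ (2 + 1) * Uop N ((1 + (lam : (Zl q)⟦X⟧) * X₂) ^ 3) =
      ((N ^ 2 - 1 : ℤ) : (Zl q)⟦X⟧) + (lam : (Zl q)⟦X⟧) * Z := by
    have : (1 + (lam : (Zl q)⟦X⟧) * X₂) ^ 3 = 1 + (lam : (Zl q)⟦X⟧) *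
      (3 * X₂ + 3 * (lam : (Zl q)⟦X⟧) * X₂ ^ 2 + (lam : (Zl q)⟦X⟧) ^ 2 * X₂ ^ 3) := by ring
    rw [this, map_add, Uop_natCast_mul, Uop_one hN.out.ne_zero, hZ]
    push_cast
    ring
  rw [h3] at h2
  have h4 := congrArg (coeff 1) h2
  rw [coeff_C_mul, coeff_one_e6, map_add, map_add, coeff_natCast_mul, coeff_natCast_mul,
    coeff_intCast_of_pos _ _ one_ne_zero, coeff_zero_intCast] at h4
  refine ⟨-(coeff 1 Z) - coeff 0 Z * 504, ?_⟩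
  push_cast at h4 ⊢
  linear_combination h4

theorem P4' (hG : RForm (Zl q) N 1 (1 + ((q ^ w : ℕ) : (Zl q)⟦X⟧) * X₁)
    (1 + ((q ^ w : ℕ) : (Zl q)⟦X⟧) * X₂)) : ((q ^ w : ℕ) : ℤ) ∣ (N + 1) * 240 :=
  Zl.dvd_of_dvd (P4 hG)

theorem P6' (hG : RForm (Zl q) N 1 (1 + ((q ^ w : ℕ) : (Zl q)⟦X⟧) * X₁)
    (1 + ((q ^ w : ℕ) : (Zl q)⟦X⟧) * X₂)) : ((q ^ w : ℕ) : ℤ) ∣ (N ^ 2 - 1) * 504 :=
  Zl.dvd_of_dvd (P6 hG)

/-- case `q = N ≥ 5` -/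
theorem B2_ge (hqN : q = N) (hq5 : 5 ≤ q)
    (hG : RForm (Zl q) N 1 (1 + ((q ^ 1 : ℕ) : (Zl q)⟦X⟧) * X₁)
      (1 + ((q ^ 1 : ℕ) : (Zl q)⟦X⟧) * X₂)) : False := by
  have h4' := P4' hG
  have h6' := P6' hG
  rw [pow_one] at h4' h6'
  have hp : Prime (q : ℤ) := Nat.prime_iff_prime_int.mp hq.out
  rw [← hqN] at h4' h6'
  rcases hp.dvd_or_dvd h4' with h | h
  · have : (q : ℤ) ∣ 1 := by
      have := dvd_sub h (dvd_refl (q : ℤ))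
      simpa using this
    exact hp.not_isUnit (isUnit_of_dvd_one this)
  · rcases hp.dvd_or_dvd h6' with h' | h'
    · have : (q : ℤ) ∣ 1 := by
        have h7 : (q : ℤ) ∣ (q : ℤ) ^ 2 := dvd_pow_self _ two_ne_zero
        have := dvd_sub h7 h'
        simpa using this
      exact hp.not_isUnit (isUnit_of_dvd_one this)
    · have h8 : (q : ℤ) ∣ 24 := by
        have := dvd_sub (Dvd.dvd.mul_left h' 1) (Dvd.dvd.mul_left h 2)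
        norm_num at this
        exact this
      have h9 : q ∣ 24 := by exact_mod_cast h8
      have h10 : q ≤ 24 := Nat.le_of_dvd (by norm_num) h9
      have := hq.out
      clear hG h4' h6' hp h h' h8
      clear hqN
      interval_cases q <;> revert h9 this <;> decide

/-- case `q = N = 3` -/
theorem B2_three (hqN : q = N) (hq3 : q = 3)
    (hG : RForm (Zl q) N 1 (1 + ((q ^ 2 : ℕ) : (Zl q)⟦X⟧) * X₁)
      (1 + ((q ^ 2 : ℕ) : (Zl q)⟦X⟧) * X₂)) : False := by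
  have h4 := P4' hG
  rw [← hqN, hq3] at h4
  norm_num at h4

/-- case `q = N = 2` -/
theorem B2_two (hqN : q = N) (hq2 : q = 2)
    (hG : RForm (Zl q) N 1 (1 + ((q ^ 4 : ℕ) : (Zl q)⟦X⟧) * X₁)
      (1 + ((q ^ 4 : ℕ) : (Zl q)⟦X⟧) * X₂)) : False := by
  have h4 := P6' hG
  rw [← hqN, hq2] at h4
  norm_num at h4

end

end Fermat.Agent.H13
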