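import Fermat.Agent.H13.B1

set_option autoImplicit false

noncomputable section

open PowerSeries

namespace Fermat.Agent.H13

variable {q : ℕ} [hq : Fact q.Prime] {N : ℕ} [hN : Fact N.Prime] {w : ℕ} {X₁ X₂ : (Zl q)⟦X⟧}


omit hN in
theorem expand_e4 {R : Type*} [CommRing R] (hN0 : N ≠ 0) :
    expand N hN0 (e4 R) = 1 + 240 * expand N hN0 (sser R 3) := by
  rw [e4, map_add, map_one, map_mul]
  congr 2
  exact map_ofNat _ _

omit hN in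
theorem expand_e6 {R : Type*} [CommRing R] (hN0 : N ≠ 0) :
    expand N hN0 (e6 R) = 1 - 504 * expand N hN0 (sser R 5) := by
  rw [e6, map_sub, map_one, map_mul]
  congr 2
  exact map_ofNat _ _

theorem B3 (hqN : q ≠ N) (hlam : q ^ w ∣ 504)
    (hG : RForm (Zl q) N 1 (1 + ((q ^ w : ℕ) : (Zl q)⟦X⟧) * X₁)
      (1 + ((q ^ w : ℕ) : (Zl q)⟦X⟧) * X₂)) : q ^ w ∣ N ^ 3 + 1 := by
  have hN0 := hN.out.ne_zero
  obtain ⟨t, ht⟩ := hlam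
  have ht' : (504 : (Zl q)⟦X⟧) = ((q ^ w : ℕ) : (Zl q)⟦X⟧) * (t : (Zl q)⟦X⟧) := by
    exact_mod_cast congrArg (Nat.cast (R := (Zl q)⟦X⟧)) ht
  generalize hL : ((q ^ w : ℕ) : (Zl q)⟦X⟧) = L at hG ht'
  have hD := (RForm.ofOne (N := N) (j := 6) ((rOne_delta (R := Zl q)).cast (by norm_num))).swap
  have h6 := RForm.ofOne (N := N) (j := 3) ((rOne_e6 (R := Zl q)).cast (by norm_num))
  have h1 := (((((hG.pow 3).cast (l := 3) (by norm_num)).nat_mul (N ^ 3)).add h6).mul hD)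
  have h2 := (h1.cast (l := 8 + 1) (by norm_num)).trace
  obtain ⟨A, hA⟩ : ∃ A : (Zl q)⟦X⟧, A = (N : (Zl q)⟦X⟧) ^ 3 * (3 * X₁ + 3 * L * X₁ ^ 2 + L ^ 2 * X₁ ^ 3)
    - (t : (Zl q)⟦X⟧) * sser (Zl q) 5 := ⟨_, rfl⟩
  obtain ⟨B, hB⟩ : ∃ B : (Zl q)⟦X⟧, B = (N : (Zl q)⟦X⟧) ^ 3 * (3 * X₂ + 3 * L * X₂ ^ 2 + L ^ 2 * X₂ ^ 3
    + (t : (Zl q)⟦X⟧) * expand N hN0 (sser (Zl q) 5)) := ⟨_, rfl⟩
  have e1 : ((N ^ 3 : ℕ) : (Zl q)⟦X⟧) * (1 + L * X₁) ^ 3 + e6 (Zl q) =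
      ((N ^ 3 + 1 : ℕ) : (Zl q)⟦X⟧) + L * A := by
    rw [hA, e6]
    push_cast
    linear_combination (- sser (Zl q) 5) * ht'
  have e2 : ((N ^ 3 : ℕ) : (Zl q)⟦X⟧) * (1 + L * X₂) ^ 3 +
      (-(N : (Zl q)⟦X⟧)) ^ 3 * expand N hN0 (e6 (Zl q)) = L * B := by
    rw [hB, expand_e6]
    push_cast
    linear_combination (N : (Zl q)⟦X⟧) ^ 3 * expand N hN0 (sser (Zl q) 5) * ht'
  rw [e1, e2] at h2
  obtain ⟨Z, hZ⟩ : ∃ Z : (Zl q)⟦X⟧, Z = (N : (Zl q)⟦X⟧) ^ 8 * (A * ((-(N : (Zl q)⟦X⟧)) ^ 6 *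
    expand N hN0 (delta (Zl q)))) - Uop N (B * delta (Zl q)) := ⟨_, rfl⟩
  have e3 : (N : (Zl q)⟦X⟧) ^ 8 * ((((N ^ 3 + 1 : ℕ) : (Zl q)⟦X⟧) + L * A) *
      ((-(N : (Zl q)⟦X⟧)) ^ 6 * expand N hN0 (delta (Zl q)))) +
      (-1) ^ (8 + 1) * Uop N (L * B * delta (Zl q)) =
      ((N ^ 14 * (N ^ 3 + 1) : ℕ) : (Zl q)⟦X⟧) * expand N hN0 (delta (Zl q)) +
        ((q ^ w : ℕ) : (Zl q)⟦X⟧) * Z := by
    rw [hZ, ← hL, mul_assoc ((q ^ w : ℕ) : (Zl q)⟦X⟧), Uop_natCast_mul]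
    push_cast
    ring
  rw [e3] at h2
  have h3 : ∀ n < 2, ((q ^ w : ℕ) : Zl q) ∣ coeff n (((N ^ 14 * (N ^ 3 + 1) : ℕ) : (Zl q)⟦X⟧) *
      expand N hN0 (delta (Zl q)) + ((q ^ w : ℕ) : (Zl q)⟦X⟧) * Z) := by
    intro n hn
    have h4 : coeff n (expand N hN0 (delta (Zl q))) = 0 := by
      rw [coeff_expand]
      split_ifs with h
      · have : n = 0 := by
          rcases Nat.eq_zero_or_pos n with h0 | h0
          · exact h0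
          · have := Nat.le_of_dvd h0 h
            have := hN.out.two_le
            omega
        rw [this, Nat.zero_div]
        exact coeff_zero_delta
      · rfl
    rw [map_add, coeff_natCast_mul, coeff_natCast_mul, h4, mul_zero, zero_add]
    exact dvd_mul_right _ _
  have h5 := sturm 2 9 _ (by norm_num) (h2.cast (by norm_num)) h3 N
  have h6 : coeff N (expand N hN0 (delta (Zl q))) = 1 := by
    rw [coeff_expand, if_pos (dvd_refl N), Nat.div_self (Nat.pos_of_ne_zero hN0)]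
    exact coeff_one_delta
  rw [map_add, coeff_natCast_mul, coeff_natCast_mul, h6, mul_one] at h5
  have h7 := (dvd_add_left (dvd_mul_right _ _)).mp h5
  have h8 := Zl.dvd_of_dvd_nat h7
  have h9 : Nat.Coprime (q ^ w) (N ^ 14) :=
    Nat.Coprime.pow _ _ ((Nat.coprime_primes hq.out hN.out).mpr hqN)
  exact h9.dvd_of_dvd_mul_left h8

end Fermat.Agent.H13
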