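import Fermat.Agent.H13.Desc

set_option autoImplicit false

noncomputable section

open PowerSeries

namespace Fermat.Agent.H13

theorem delta_mod_three (R : Type*) [CommRing R] :
    ∃ Z : R⟦X⟧, delta R = theta (sser R 3) + 3 * Z := by
  obtain ⟨Z', hZ'⟩ : ∃ Z' : R⟦X⟧, theta (theta (theta (sser R 3))) = theta (sser R 3) + 3 * Z' := by
    refine ⟨PowerSeries.mk fun n => (((n ^ 3 - n) / 3 : ℕ) : R) * coeff n (sser R 3), ?_⟩
    ext n
    rw [map_add, coeff_ofNat_mul, coeff_mk, coeff_theta, coeff_theta, coeff_theta]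
    have h3 : 3 ∣ n ^ 3 - n := by
      rw [← Nat.modEq_iff_dvd' (Nat.le_self_pow (by norm_num) n)]
      rw [← ZMod.natCast_eq_natCast_iff]
      push_cast
      generalize ((n : ℕ) : ZMod 3) = x
      revert x
      decide
    have h4 : n ^ 3 = n + 3 * ((n ^ 3 - n) / 3) := by
      rw [Nat.mul_div_cancel' h3]
      have : n ≤ n ^ 3 := Nat.le_self_pow (by norm_num) n
      omega
    have h5 : (n : R) ^ 3 = n + 3 * (((n ^ 3 - n) / 3 : ℕ) : R) := by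
      exact_mod_cast congrArg (Nat.cast (R := R)) h4
    linear_combination coeff n (sser R 3) * h5
  have h1 : delta R = theta (delta R) + 24 * (sser R 1 * delta R) := by
    rw [theta_delta, e2]; ring
  have h2 : delta R = theta (theta (sser R 3)) + 3 * (80 * sser R 3 * theta (theta (sser R 3))
      - 100 * theta (sser R 3) ^ 2) := by
    conv_lhs => rw [delta_rc, e4]
    ring
  have h3 := congrArg theta h2
  rw [theta_add, theta_ofNat_mul, hZ'] at h3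
  exact ⟨Z' + theta (80 * sser R 3 * theta (theta (sser R 3)) - 100 * theta (sser R 3) ^ 2) +
    8 * (sser R 1 * delta R), by linear_combination h1 + h3⟩

theorem e4_e6_identity {S : Type*} [CommRing S] [IsDomain S] (h1728 : (1728 : S) ≠ 0)
    (h2 : (2 : S) ≠ 0) {G b c a e d : S} (hb : 48 * b = G ^ 2 - a)
    (hc : 1728 * c = G ^ 3 - 3 * a * G + 2 * e) (hd : 1728 * d = a ^ 3 - e ^ 2) :
    d = a * (b ^ 2 - G * c) + 8 * (-2 * b ^ 3 + 3 * G * b * c - 54 * c ^ 2) := by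
  have he : e = 864 * c + G ^ 3 - 72 * G * b := by
    apply mul_left_cancel₀ h2
    linear_combination 3 * G * hb - hc
  apply mul_left_cancel₀ h1728
  have ha : a = G ^ 2 - 48 * b := by linear_combination hb
  rw [hd, he, ha]
  ring

variable {q : ℕ} [hq : Fact q.Prime] {N : ℕ} [hN : Fact N.Prime] {X₁ X₂ : (Zl q)⟦X⟧}

/-- case `q = 3`, `N ≡ 2 (mod 3)` -/
theorem B4 (hq3 : q = 3) (hN2 : N % 3 = 2)
    (hG : RForm (Zl q) N 1 (1 + ((q ^ 2 : ℕ) : (Zl q)⟦X⟧) * X₁)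
      (1 + ((q ^ 2 : ℕ) : (Zl q)⟦X⟧) * X₂)) : False := by
  have hN0 := hN.out.ne_zero
  have hqN : q ≠ N := by rintro h; omega
  have h9 : ((q ^ 2 : ℕ) : (Zl q)⟦X⟧) = 9 := by
    have : q ^ 2 = 9 := by rw [hq3]; norm_num
    exact_mod_cast congrArg (Nat.cast (R := (Zl q)⟦X⟧)) this
  rw [h9] at hG
  obtain ⟨u, hu⟩ := Zl.exists_inv (q := q) 2 (by rw [hq3]; norm_num)
  have hU : (C u : (Zl q)⟦X⟧) * 2 = 1 := by
    have := congrArg (C (R := Zl q)) hu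
    rw [map_mul, map_natCast, map_one] at this
    exact_mod_cast this
  obtain ⟨t, ht⟩ : ∃ t : ℕ, N + 1 = 3 * t := ⟨(N + 1) / 3, by omega⟩
  have ht' : (N : (Zl q)⟦X⟧) + 1 = 3 * (t : (Zl q)⟦X⟧) := by
    exact_mod_cast congrArg (Nat.cast (R := (Zl q)⟦X⟧)) ht
  generalize (C u : (Zl q)⟦X⟧) = U at hU
  obtain ⟨Z₀, hZ₀⟩ := delta_mod_three (Zl q)
  have hZ₀' : expand N hN0 (delta (Zl q)) = expand N hN0 (theta (sser (Zl q) 3)) +
      3 * expand N hN0 Z₀ := by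
    rw [hZ₀, map_add, map_mul]
    congr 2
    exact map_ofNat _ _
  have hth : theta (expand N hN0 (sser (Zl q) 3)) =
      (N : (Zl q)⟦X⟧) * expand N hN0 (theta (sser (Zl q) 3)) := theta_expand hN0 _
  have hE4 := expand_e4 (R := Zl q) hN0
  have hD := RForm.ofOne (N := N) (j := 6) ((rOne_delta (R := Zl q)).cast (by norm_num))
  have h4 := RForm.ofOne (N := N) (j := 2) ((rOne_e4 (R := Zl q)).cast (by norm_num))
  -- the form `Y = (e₄ - G²)/6`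
  obtain ⟨Y, hY⟩ : ∃ Y : (Zl q)⟦X⟧, Y = 40 * sser (Zl q) 3 - 3 * X₁ - 27 * U * X₁ ^ 2 := ⟨_, rfl⟩
  obtain ⟨Ys, hYs⟩ : ∃ Ys : (Zl q)⟦X⟧, Ys = ((N : (Zl q)⟦X⟧) - 1) * t * U +
    40 * (N : (Zl q)⟦X⟧) ^ 2 * expand N hN0 (sser (Zl q) 3) - 3 * X₂ - 27 * U * X₂ ^ 2 := ⟨_, rfl⟩
  have hYf : RForm (Zl q) N 2 Y Ys := by
    have := h4.sub ((hG.pow 2).cast (by norm_num))
    refine RForm.of_nat_mul 6 (by norm_num) (this.congr ?_ ?_)
    · rw [hY, e4]; push_cast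
      linear_combination 81 * X₁ ^ 2 * hU
    · rw [hYs, hE4]; push_cast
      linear_combination (81 * X₂ ^ 2 - 3 * ((N : (Zl q)⟦X⟧) - 1) * t) * hU +
        ((N : (Zl q)⟦X⟧) - 1) * ht'
  have hW := hG.bracket hYf
  have thG : ∀ X' : (Zl q)⟦X⟧, theta (1 + 9 * X') = 9 * theta X' := by
    intro X'
    rw [theta_add, theta_one, theta_ofNat_mul, zero_add]
  have thU : theta U = 0 := by
    have : U = U * (U * 2) := by rw [hU, mul_one]
    have h5 := congrArg theta hU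
    have e : (2 : (Zl q)⟦X⟧) = ((2 : ℕ) : (Zl q)⟦X⟧) := by norm_num
    rw [theta_mul, theta_one, e, theta_natCast, mul_zero, add_zero] at h5
    have h6 : theta U * (U * 2) = 0 := by
      rw [mul_comm U 2, ← mul_assoc]
      have : theta U * ((2 : ℕ) : (Zl q)⟦X⟧) = 0 := h5
      push_cast at this
      rw [this, zero_mul]
    rwa [hU, mul_one] at h6
  have thY : theta Y = 40 * theta (sser (Zl q) 3) - 3 * theta X₁ - 27 * X₁ * theta X₁ := by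
    rw [hY, theta_sub, theta_sub, theta_ofNat_mul, theta_ofNat_mul, mul_assoc, theta_ofNat_mul,
      theta_mul, thU, theta_pow]
    push_cast
    linear_combination (-27 * X₁ * theta X₁) * hU
  have thYs : theta Ys = 40 * (N : (Zl q)⟦X⟧) ^ 3 * expand N hN0 (theta (sser (Zl q) 3))
      - 3 * theta X₂ - 27 * X₂ * theta X₂ := by
    have c1 : theta ((((N : (Zl q)⟦X⟧) - 1) * (t : (Zl q)⟦X⟧) * U)) = 0 := by
      rw [theta_mul, thU, theta_mul, theta_sub, theta_natCast, theta_natCast, theta_one]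
      ring
    have c2 : theta (40 * (N : (Zl q)⟦X⟧) ^ 2 * expand N hN0 (sser (Zl q) 3)) =
      40 * (N : (Zl q)⟦X⟧) ^ 3 * expand N hN0 (theta (sser (Zl q) 3)) := by
      rw [mul_assoc, theta_ofNat_mul, theta_mul, theta_pow, theta_natCast, hth]
      ring
    rw [hYs, theta_sub, theta_sub, theta_add, c1, c2, theta_ofNat_mul, mul_assoc 27,
      theta_ofNat_mul, theta_mul, thU, theta_pow]
    push_cast
    linear_combination (-27 * X₂ * theta X₂) * hU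
  rw [thG, thG] at hW
  obtain ⟨W, hWd⟩ : ∃ W : (Zl q)⟦X⟧, W = (1 : ℕ) * ((1 + 9 * X₁) * theta Y) -
    ((2 : ℕ) : (Zl q)⟦X⟧) * (Y * (9 * theta X₁)) := ⟨_, rfl⟩
  obtain ⟨Ws, hWsd⟩ : ∃ Ws : (Zl q)⟦X⟧, Ws = -((1 : ℕ) * ((1 + 9 * X₂) * theta Ys) -
    ((2 : ℕ) : (Zl q)⟦X⟧) * (Ys * (9 * theta X₂))) := ⟨_, rfl⟩
  rw [← hWd, ← hWsd] at hW
  have hW' : RForm (Zl q) N 4 W Ws := hW.cast (by norm_num)
  have hX := hD.sub ((h4.mul hW').cast (by norm_num))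
  obtain ⟨V, hV⟩ : ∃ V : (Zl q)⟦X⟧, V = Z₀ - 13 * theta (sser (Zl q) 3) + theta X₁ +
    9 * X₁ * theta X₁ - 3 * (X₁ * theta Y - 2 * Y * theta X₁) - 80 * sser (Zl q) 3 * W := ⟨_, rfl⟩
  obtain ⟨Vs, hVs⟩ : ∃ Vs : (Zl q)⟦X⟧, Vs = (N : (Zl q)⟦X⟧) ^ 6 * expand N hN0 Z₀ +
    (N : (Zl q)⟦X⟧) ^ 5 * (t + 13) * expand N hN0 (theta (sser (Zl q) 3)) -
    (N : (Zl q)⟦X⟧) ^ 2 * (theta X₂ + 9 * X₂ * theta X₂ - 3 * (X₂ * theta Ys - 2 * Ys * theta X₂))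
    - 80 * (N : (Zl q)⟦X⟧) ^ 2 * expand N hN0 (sser (Zl q) 3) * Ws := ⟨_, rfl⟩
  have f1 : delta (Zl q) - e4 (Zl q) * W = 3 * V := by
    rw [hV, e4]
    push_cast at hWd
    linear_combination hZ₀ - hWd - thY
  have f2 : (-(N : (Zl q)⟦X⟧)) ^ 6 * expand N hN0 (delta (Zl q)) -
      (-(N : (Zl q)⟦X⟧)) ^ 2 * expand N hN0 (e4 (Zl q)) * Ws = 3 * Vs := by
    rw [hVs, hE4]
    push_cast at hWsd
    linear_combination (N : (Zl q)⟦X⟧) ^ 6 * hZ₀' - (N : (Zl q)⟦X⟧) ^ 2 * hWsd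
      + (N : (Zl q)⟦X⟧) ^ 2 * thYs + (N : (Zl q)⟦X⟧) ^ 5 * expand N hN0 (theta (sser (Zl q) 3)) * ht'
  rw [f1, f2] at hX
  have hVf : RForm (Zl q) N 6 V Vs :=
    RForm.of_nat_mul 3 (by norm_num) (hX.congr (by push_cast; rfl) (by push_cast; rfl))
  have h3 : ((q ^ 1 : ℕ) : (Zl q)⟦X⟧) = 3 := by
    have : q ^ 1 = 3 := by rw [hq3]; norm_num
    exact_mod_cast congrArg (Nat.cast (R := (Zl q)⟦X⟧)) this
  refine descent hqN (w := 1) le_rfl hW' hVf ?_ ?_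
  · rw [h3]; linear_combination f1
  · rw [h3]; linear_combination f2

/-- case `q = 2`, `N ≡ 7 (mod 8)` -/
theorem B5 (hq2 : q = 2) (hN7 : N % 8 = 7)
    (hG : RForm (Zl q) N 1 (1 + ((q ^ 3 : ℕ) : (Zl q)⟦X⟧) * X₁)
      (1 + ((q ^ 3 : ℕ) : (Zl q)⟦X⟧) * X₂)) : False := by
  have hN0 := hN.out.ne_zero
  have hqN : q ≠ N := by rintro h; omega
  have h8 : ((q ^ 3 : ℕ) : (Zl q)⟦X⟧) = 8 := by
    have : q ^ 3 = 8 := by rw [hq2]; norm_num
    exact_mod_cast congrArg (Nat.cast (R := (Zl q)⟦X⟧)) this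
  rw [h8] at hG
  obtain ⟨u, hu⟩ := Zl.exists_inv (q := q) 3 (by rw [hq2]; norm_num)
  have hU : (C u : (Zl q)⟦X⟧) * 3 = 1 := by
    have := congrArg (C (R := Zl q)) hu
    rw [map_mul, map_natCast, map_one] at this
    exact_mod_cast this
  obtain ⟨t, ht⟩ : ∃ t : ℕ, N + 1 = 8 * t := ⟨(N + 1) / 8, by omega⟩
  have ht' : (N : (Zl q)⟦X⟧) = 8 * (t : (Zl q)⟦X⟧) - 1 := by
    have : (N : (Zl q)⟦X⟧) + 1 = 8 * (t : (Zl q)⟦X⟧) := by
      exact_mod_cast congrArg (Nat.cast (R := (Zl q)⟦X⟧)) ht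
    linear_combination this
  generalize (C u : (Zl q)⟦X⟧) = U at hU
  have hU3 : U ^ 3 * 27 = 1 := by
    have : U ^ 3 * 27 = (U * 3) ^ 3 := by ring
    rw [this, hU, one_pow]
  have hE4 := expand_e4 (R := Zl q) hN0
  have hE6 := expand_e6 (R := Zl q) hN0
  have hw12 := w12_spec (R := Zl q)
  have hEw : 12 * expand N hN0 (w12 (Zl q)) = 5 * expand N hN0 (sser (Zl q) 3) +
      7 * expand N hN0 (sser (Zl q) 5) := by
    have := congrArg (expand N hN0) hw12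
    rw [map_mul, map_add, map_mul, map_mul, map_ofNat, map_ofNat, map_ofNat] at this
    exact this
  have hDs : 1728 * expand N hN0 (delta (Zl q)) =
      expand N hN0 (e4 (Zl q)) ^ 3 - expand N hN0 (e6 (Zl q)) ^ 2 := by
    have := congrArg (expand N hN0) (delta_spec (R := Zl q))
    rw [map_mul, map_sub, map_pow, map_pow, map_ofNat] at this
    exact this
  have h4 := RForm.ofOne (N := N) (j := 2) ((rOne_e4 (R := Zl q)).cast (by norm_num))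
  have h6 := RForm.ofOne (N := N) (j := 3) ((rOne_e6 (R := Zl q)).cast (by norm_num))
  obtain ⟨b, hb⟩ : ∃ b : (Zl q)⟦X⟧, b = U * (X₁ + 4 * X₁ ^ 2) - 5 * sser (Zl q) 3 := ⟨_, rfl⟩
  obtain ⟨bs, hbs⟩ : ∃ bs : (Zl q)⟦X⟧, bs = -(U * (t * (4 * t - 1))) + U * (X₂ + 4 * X₂ ^ 2) -
    5 * (N : (Zl q)⟦X⟧) ^ 2 * expand N hN0 (sser (Zl q) 3) := ⟨_, rfl⟩
  have b1 : 48 * b = (1 + 8 * X₁) ^ 2 - e4 (Zl q) := by
    rw [hb, e4]
    linear_combination 16 * (X₁ + 4 * X₁ ^ 2) * hU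
  have b2 : 48 * bs = (1 + 8 * X₂) ^ 2 - (N : (Zl q)⟦X⟧) ^ 2 * expand N hN0 (e4 (Zl q)) := by
    rw [hbs, hE4, ht']
    linear_combination 16 * ((X₂ + 4 * X₂ ^ 2) - t * (4 * t - 1)) * hU
  have hbf : RForm (Zl q) N 2 b bs := by
    have := ((hG.pow 2).cast (by norm_num)).sub h4
    refine RForm.of_nat_mul 48 (by norm_num) (this.congr ?_ ?_)
    · push_cast; linear_combination -b1
    · push_cast; linear_combination -b2
  obtain ⟨c, hc⟩ : ∃ c : (Zl q)⟦X⟧, c = U ^ 3 * (3 * X₁ ^ 2 + 8 * X₁ ^ 3 -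
    90 * sser (Zl q) 3 * X₁) - w12 (Zl q) := ⟨_, rfl⟩
  obtain ⟨cs, hcs⟩ : ∃ cs : (Zl q)⟦X⟧, cs = U ^ 3 * (-(t ^ 2 * (2 * (N : (Zl q)⟦X⟧) - 1))
    - 6 * t * (4 * t - 1) * X₂ + 3 * X₂ ^ 2 + 8 * X₂ ^ 3
    - 90 * (N : (Zl q)⟦X⟧) ^ 2 * expand N hN0 (sser (Zl q) 3) * X₂ +
    126 * t * (N : (Zl q)⟦X⟧) ^ 2 * expand N hN0 (sser (Zl q) 5)) -
    (N : (Zl q)⟦X⟧) ^ 2 * expand N hN0 (w12 (Zl q)) := ⟨_, rfl⟩
  have c1 : 1728 * c = (1 + 8 * X₁) ^ 3 - 3 * e4 (Zl q) * (1 + 8 * X₁) + 2 * e6 (Zl q) := by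
    rw [hc, e4, e6]
    linear_combination 64 * (3 * X₁ ^ 2 + 8 * X₁ ^ 3 - 90 * sser (Zl q) 3 * X₁) * hU3 - 144 * hw12
  have c2 : 1728 * cs = (1 + 8 * X₂) ^ 3 - 3 * ((N : (Zl q)⟦X⟧) ^ 2 * expand N hN0 (e4 (Zl q))) *
      (1 + 8 * X₂) + 2 * (-((N : (Zl q)⟦X⟧) ^ 3 * expand N hN0 (e6 (Zl q)))) := by
    rw [hcs, hE4, hE6, ht']
    linear_combination 64 * (-(t ^ 2 * (2 * (8 * (t : (Zl q)⟦X⟧) - 1) - 1))
      - 6 * t * (4 * t - 1) * X₂ + 3 * X₂ ^ 2 + 8 * X₂ ^ 3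
      - 90 * (8 * (t : (Zl q)⟦X⟧) - 1) ^ 2 * expand N hN0 (sser (Zl q) 3) * X₂ +
      126 * t * (8 * (t : (Zl q)⟦X⟧) - 1) ^ 2 * expand N hN0 (sser (Zl q) 5)) * hU3
      - 144 * (8 * (t : (Zl q)⟦X⟧) - 1) ^ 2 * hEw
  have hcf : RForm (Zl q) N 3 c cs := by
    have := (((hG.pow 3).cast (l := 3) (by norm_num)).sub
      (((h4.mul hG).cast (l := 3) (by norm_num)).nat_mul 3)).add (h6.nat_mul 2)
    refine RForm.of_nat_mul 1728 (by norm_num) (this.congr ?_ ?_)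
    · push_cast; linear_combination -c1
    · push_cast; linear_combination -c2
  have hH : RForm (Zl q) N 4 (b ^ 2 - (1 + 8 * X₁) * c) (bs ^ 2 - (1 + 8 * X₂) * cs) :=
    ((hbf.pow 2).cast (by norm_num)).sub ((hG.mul hcf).cast (by norm_num))
  have hY : RForm (Zl q) N 6 (-2 * b ^ 3 + 3 * (1 + 8 * X₁) * b * c - 54 * c ^ 2)
      (-2 * bs ^ 3 + 3 * (1 + 8 * X₂) * bs * cs - 54 * cs ^ 2) := by
    have := (((((hbf.pow 3).cast (l := 6) (by norm_num)).int_mul (-2)).add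
      ((((hG.mul hbf).mul hcf).cast (l := 6) (by norm_num)).nat_mul 3)).sub
      (((hcf.pow 2).cast (l := 6) (by norm_num)).nat_mul 54))
    refine this.congr ?_ ?_
    · push_cast; ring
    · push_cast; ring
  have n1728 : (1728 : (Zl q)⟦X⟧) ≠ 0 := by
    have : ((1728 : ℕ) : (Zl q)⟦X⟧) ≠ 0 := by
      intro h
      have := congrArg (coeff 0) h
      have e : ((1728 : ℕ) : (Zl q)⟦X⟧) = C ((1728 : ℕ) : Zl q) := by rw [map_natCast]
      rw [e, coeff_zero_C, map_zero] at this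
      norm_num at this
    exact_mod_cast this
  have n2 : (2 : (Zl q)⟦X⟧) ≠ 0 := by
    intro h
    apply n1728
    linear_combination 864 * h
  refine descent hqN (w := 3) (by norm_num) hH hY ?_ ?_
  · rw [h8]
    exact e4_e6_identity n1728 n2 b1 c1 delta_spec
  · rw [h8]
    refine e4_e6_identity n1728 n2 b2 c2 ?_
    linear_combination (N : (Zl q)⟦X⟧) ^ 6 * hDs

end Fermat.Agent.H13
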