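import Mathlib
import Fermat.Prelude.Def_ModularForm_HeckeOperator
import Fermat.Prelude.Def_FLTPrelim_Modularity
import Fermat.Prelude.Thm_CongruenceSubgroup_one_mem_strictPeriods_Gamma0
import Fermat.Prelude.Sol.S_UpperHalfPlane_qCoeff_heckeT

set_option autoImplicit false

noncomputable section

open UpperHalfPlane hiding I
open ModularForm CongruenceSubgroup Complex ModularFormClass
open scoped MatrixGroups Manifold Topology ModularForm

namespace Fermat.Agent.H13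

local notation "𝕢" => Function.Periodic.qParam

/-- the matrix `S T^j` -/
theorem coe_ST (j : ℤ) : ((ModularGroup.S * ModularGroup.T ^ j : SL(2, ℤ)) : Matrix (Fin 2) (Fin 2) ℤ)
    = !![0, -1; 1, j] := by
  rw [Matrix.SpecialLinearGroup.coe_mul, ModularGroup.coe_T_zpow, ModularGroup.coe_S]
  ext a b
  fin_cases a <;> fin_cases b <;> simp [Matrix.mul_apply, Fin.sum_univ_two]

theorem coe_ST_inv (j : ℤ) : (((ModularGroup.S * ModularGroup.T ^ j)⁻¹ : SL(2, ℤ)) :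
    Matrix (Fin 2) (Fin 2) ℤ) = !![j, 1; -1, 0] := by
  rw [Matrix.SpecialLinearGroup.coe_inv, coe_ST, Matrix.adjugate_fin_two]
  simp

theorem T_zpow_one_zero (j : ℤ) : ((ModularGroup.T ^ j : SL(2, ℤ)) : GL (Fin 2) ℝ) 1 0 = 0 := by
  change ((((ModularGroup.T ^ j : SL(2, ℤ)) : Matrix (Fin 2) (Fin 2) ℤ) 1 0 : ℤ) : ℝ) = 0
  rw [ModularGroup.coe_T_zpow]
  simp

variable {N : ℕ} {k : ℤ}

section Coset
variable [Fact N.Prime]

/-- explicit coset representatives for `Γ₀(N)`, `N` prime. -/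
theorem exists_coset (γ : SL(2, ℤ)) :
    γ ∈ Gamma0 N ∨ ∃ (j : ℤ) (δ : SL(2, ℤ)), δ ∈ Gamma0 N ∧
      γ = δ * (ModularGroup.S * ModularGroup.T ^ j) := by
  by_cases h : γ ∈ Gamma0 N
  · exact Or.inl h
  · right
    rw [Gamma0_mem] at h
    have hu : IsUnit ((γ 1 0 : ℤ) : ZMod N) := isUnit_iff_ne_zero.mpr h
    obtain ⟨j, hj⟩ : ∃ j : ℤ, ((j : ℤ) : ZMod N) = ((γ 1 1 : ℤ) : ZMod N) * ((γ 1 0 : ℤ) : ZMod N)⁻¹ :=
      ZMod.intCast_surjective _
    refine ⟨j, γ * (ModularGroup.S * ModularGroup.T ^ j)⁻¹, ?_, by group⟩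
    rw [Gamma0_mem]
    have : (γ * (ModularGroup.S * ModularGroup.T ^ j)⁻¹) 1 0 = - (γ 1 1 - j * γ 1 0) := by
      rw [Matrix.SpecialLinearGroup.coe_mul, coe_ST_inv]
      simp [Matrix.mul_apply, Fin.sum_univ_two]
      ring
    rw [this]
    push_cast
    rw [hj]
    have := hu.ne_zero
    field_simp
    ring

end Coset

/-- A function of level `Γ₀(N)` in terms of `SL(2, ℤ)`-slashes -/
theorem slash_eq_of_forall {f : ℍ → ℂ} (hf : ∀ γ ∈ Gamma0 N, f ∣[k] (γ : SL(2, ℤ)) = f)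
    (g : GL (Fin 2) ℝ) (hg : g ∈ (Gamma0 N : Subgroup (GL (Fin 2) ℝ))) : f ∣[k] g = f := by
  obtain ⟨γ, hγ, rfl⟩ := hg
  exact hf γ hγ

theorem form_slash (F : ModularForm (Gamma0 N) k) (γ : SL(2, ℤ)) (hγ : γ ∈ Gamma0 N) :
    (F : ℍ → ℂ) ∣[k] γ = F :=
  SlashInvariantFormClass.slash_action_eq F _ ⟨γ, hγ, rfl⟩

/-- Constructor for modular forms of prime level. -/
def mkForm [Fact N.Prime] (f : ℍ → ℂ) (hf : ∀ γ ∈ Gamma0 N, f ∣[k] (γ : SL(2, ℤ)) = f)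
    (hol : MDiff f) (hb : IsBoundedAtImInfty f)
    (hbS : IsBoundedAtImInfty (f ∣[k] ModularGroup.S)) : ModularForm (Gamma0 N) k where
  toFun := f
  slash_action_eq' := slash_eq_of_forall hf
  holo' := hol
  bdd_at_cusps' {c} hc := by
    rw [Subgroup.IsArithmetic.isCusp_iff_isCusp_SL2Z] at hc
    rw [OnePoint.isBoundedAt_iff_forall_SL2Z hc]
    intro γ _
    rcases exists_coset (N := N) γ with h | ⟨j, δ, hδ, rfl⟩
    · rw [hf γ h]; exact hb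
    · rw [SlashAction.slash_mul, hf δ hδ, SlashAction.slash_mul]
      exact hbS.slash k (T_zpow_one_zero j)

@[simp] theorem coe_mkForm [Fact N.Prime] (f : ℍ → ℂ)
    (hf : ∀ γ ∈ Gamma0 N, f ∣[k] (γ : SL(2, ℤ)) = f)
    (hol : MDiff f) (hb : IsBoundedAtImInfty f)
    (hbS : IsBoundedAtImInfty (f ∣[k] ModularGroup.S)) : ⇑(mkForm f hf hol hb hbS) = f := rfl

/-! ### The operator `F ↦ F⁰`, `F⁰(τ) = (Nτ)^(-k) F(-1/(Nτ))` -/

/-- `F⁰(τ) = (Nτ)^(-k) F(-1/(Nτ))` -/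
def wFun (N : ℕ) (k : ℤ) (f : ℍ → ℂ) : ℍ → ℂ :=
  fun τ => (f ∣[k] ModularGroup.S) (heckeDiagMatrix N • τ)

theorem natCast_ne [Fact N.Prime] : (N : ℂ) ≠ 0 :=
  Nat.cast_ne_zero.mpr (Fact.out : N.Prime).ne_zero

theorem wFun_eq [Fact N.Prime] (f : ℍ → ℂ) :
    wFun N k f = (N : ℂ) ^ (1 - k) • ((f ∣[k] ModularGroup.S) ∣[k] heckeDiagMatrix N) := by
  ext τ
  rw [Pi.smul_apply, slash_heckeDiagMatrix_apply k (Fact.out : N.Prime).ne_zero, smul_eq_mul,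
    ← mul_assoc, ← zpow_add₀ natCast_ne]
  simp [wFun]

/-- `γ ↦ W γ W⁻¹` -/
def wConj (N : ℕ) (γ : SL(2, ℤ)) (h : (N : ℤ) ∣ γ 1 0) : SL(2, ℤ) :=
  ⟨!![γ 1 1, -(γ 1 0 / N); -(N * γ 0 1), γ 0 0], by
    have hdet := γ.det_coe
    rw [Matrix.det_fin_two] at hdet
    rw [Matrix.det_fin_two_of]
    have : γ 1 0 / N * N = γ 1 0 := Int.ediv_mul_cancel h
    linear_combination hdet - γ 0 1 * this⟩

theorem wConj_mem (γ : SL(2, ℤ)) (h : (N : ℤ) ∣ γ 1 0) : wConj N γ h ∈ Gamma0 N := by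
  rw [Gamma0_mem]
  simp [wConj]

theorem S_diag_mul [Fact N.Prime] (γ : SL(2, ℤ)) (h : (N : ℤ) ∣ γ 1 0) :
    ((ModularGroup.S : SL(2, ℤ)) : GL (Fin 2) ℝ) * heckeDiagMatrix N * (γ : GL (Fin 2) ℝ) =
      (wConj N γ h : GL (Fin 2) ℝ) * (((ModularGroup.S : SL(2, ℤ)) : GL (Fin 2) ℝ) *
        heckeDiagMatrix N) := by
  have hN : N ≠ 0 := (Fact.out : N.Prime).ne_zero
  have hc : ((γ 1 0 / N : ℤ) : ℝ) * N = ((γ 1 0 : ℤ) : ℝ) := by
    have : γ 1 0 / N * N = γ 1 0 := Int.ediv_mul_cancel h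
    exact_mod_cast congrArg (Int.cast : ℤ → ℝ) this
  apply Units.ext
  simp only [Units.val_mul, val_heckeDiagMatrix hN]
  ext a b
  have e1 : ∀ (g : SL(2, ℤ)) (i j : Fin 2), ((g : GL (Fin 2) ℝ) : Matrix (Fin 2) (Fin 2) ℝ) i j
    = ((g i j : ℤ) : ℝ) := fun g i j => rfl
  fin_cases a <;> fin_cases b <;>
  simp only [Matrix.mul_apply, Fin.sum_univ_two, e1] <;>
  simp [wConj, ModularGroup.S] <;> nlinarith [hc]

theorem dvd_of_mem_Gamma0 {γ : SL(2, ℤ)} (hγ : γ ∈ Gamma0 N) : (N : ℤ) ∣ γ 1 0 := by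
  rw [Gamma0_mem] at hγ
  exact (ZMod.intCast_zmod_eq_zero_iff_dvd _ _).mp hγ

theorem neg_one_mem_Gamma0 : (-1 : SL(2, ℤ)) ∈ Gamma0 N := by
  rw [Gamma0_mem]; simp

theorem wFun_slash [Fact N.Prime] {f : ℍ → ℂ} (hf : ∀ γ ∈ Gamma0 N, f ∣[k] (γ : SL(2, ℤ)) = f)
    (γ : SL(2, ℤ)) (hγ : γ ∈ Gamma0 N) : wFun N k f ∣[k] γ = wFun N k f := by
  have hd := dvd_of_mem_Gamma0 hγ
  rw [wFun_eq, SL_smul_slash]
  congr 1
  rw [SL_slash, SL_slash, ← SlashAction.slash_mul, ← SlashAction.slash_mul, ← mul_assoc,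
    S_diag_mul γ hd, SlashAction.slash_mul, ← SL_slash, hf _ (wConj_mem γ hd),
    SlashAction.slash_mul]

theorem mdiff_wFun [Fact N.Prime] {f : ℍ → ℂ} (hf : MDiff f) : MDiff (wFun N k f) := by
  rw [wFun_eq]
  exact ((hf.slash k _).slash k _).const_smul _

theorem heckeDiagMatrix_one_zero' (N : ℕ) :
    (heckeDiagMatrix N : GL (Fin 2) ℝ) 1 0 = 0 :=
  P2MW.S_UpperHalfPlane_qCoeff_heckeT.M4cP1W2.heckeDiagMatrix_one_zero N

theorem heckeMatrix_one_zero' (N j : ℕ) :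
    (heckeMatrix N j : GL (Fin 2) ℝ) 1 0 = 0 :=
  P2MW.S_UpperHalfPlane_qCoeff_heckeT.M4cP1W2.heckeMatrix_one_zero N j

theorem bounded_smul {f : ℍ → ℂ} (hf : IsBoundedAtImInfty f) (c : ℂ) :
    IsBoundedAtImInfty (c • f) :=
  Asymptotics.IsBigO.const_smul_left hf c

theorem bounded_wFun [Fact N.Prime] {f : ℍ → ℂ} (hf : IsBoundedAtImInfty (f ∣[k] ModularGroup.S)) :
    IsBoundedAtImInfty (wFun N k f) := by
  rw [wFun_eq]
  exact bounded_smul (hf.slash k (heckeDiagMatrix_one_zero' N)) _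

theorem S_diag_S [Fact N.Prime] :
    ((ModularGroup.S : SL(2, ℤ)) : GL (Fin 2) ℝ) * heckeDiagMatrix N *
      ((ModularGroup.S : SL(2, ℤ)) : GL (Fin 2) ℝ) =
      (((-1 : SL(2, ℤ))) : GL (Fin 2) ℝ) * heckeMatrix N 0 := by
  have hN : N ≠ 0 := (Fact.out : N.Prime).ne_zero
  apply Units.ext
  simp only [Units.val_mul, val_heckeDiagMatrix hN, val_heckeMatrix hN]
  ext a b
  have e1 : ∀ (g : SL(2, ℤ)) (i j : Fin 2), ((g : GL (Fin 2) ℝ) : Matrix (Fin 2) (Fin 2) ℝ) i j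
    = ((g i j : ℤ) : ℝ) := fun g i j => rfl
  fin_cases a <;> fin_cases b <;>
  simp only [Matrix.mul_apply, Fin.sum_univ_two, e1] <;>
  simp [ModularGroup.S]

theorem wFun_slash_S [Fact N.Prime] {f : ℍ → ℂ}
    (hf : ∀ γ ∈ Gamma0 N, f ∣[k] (γ : SL(2, ℤ)) = f) :
    wFun N k f ∣[k] ModularGroup.S = (N : ℂ) ^ (1 - k) • (f ∣[k] heckeMatrix N 0) := by
  rw [wFun_eq, SL_smul_slash]
  congr 1
  rw [SL_slash, SL_slash, ← SlashAction.slash_mul, ← SlashAction.slash_mul, ← mul_assoc, S_diag_S,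
    SlashAction.slash_mul, ← SL_slash, hf _ neg_one_mem_Gamma0]

theorem isBounded_of_form (F : ModularForm (Gamma0 N) k) [Fact N.Prime] :
    IsBoundedAtImInfty (F : ℍ → ℂ) := by
  have : Fact (IsCusp OnePoint.infty (Gamma0 N : Subgroup (GL (Fin 2) ℝ))) :=
    ⟨Subgroup.isCusp_of_mem_strictPeriods one_pos (one_mem_strictPeriods_Gamma0 N)⟩
  exact ModularFormClass.bdd_at_infty F

theorem isBounded_slash_of_form (F : ModularForm (Gamma0 N) k) [Fact N.Prime] (γ : SL(2, ℤ)) :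
    IsBoundedAtImInfty ((F : ℍ → ℂ) ∣[k] γ) := by
  have hc : IsCusp ((γ : GL (Fin 2) ℝ) • OnePoint.infty) (Gamma0 N : Subgroup (GL (Fin 2) ℝ)) := by
    rw [Subgroup.IsArithmetic.isCusp_iff_isCusp_SL2Z]
    exact isCusp_SL2Z_iff'.mpr ⟨γ, rfl⟩
  have h := F.bdd_at_cusps' hc
  exact h _ rfl

/-- `F⁰` as a modular form. -/
def wForm [Fact N.Prime] (F : ModularForm (Gamma0 N) k) : ModularForm (Gamma0 N) k :=
  mkForm (wFun N k F) (wFun_slash (form_slash F)) (mdiff_wFun F.holo')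
    (bounded_wFun (isBounded_slash_of_form F _)) (by
      rw [wFun_slash_S (form_slash F)]
      exact bounded_smul ((isBounded_of_form F).slash k (heckeMatrix_one_zero' N 0)) _)

@[simp] theorem coe_wForm [Fact N.Prime] (F : ModularForm (Gamma0 N) k) :
    ⇑(wForm F) = wFun N k F := rfl

theorem coe_diag_smul [Fact N.Prime] (τ : ℍ) :
    ((heckeDiagMatrix N • τ : ℍ) : ℂ) = (N : ℂ) * τ :=
  coe_heckeDiagMatrix_smul (Fact.out : N.Prime).ne_zero τ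

theorem wFun_apply [Fact N.Prime] (f : ℍ → ℂ) (τ : ℍ) :
    wFun N k f τ = f (ModularGroup.S • (heckeDiagMatrix N • τ : ℍ)) * ((N : ℂ) * τ) ^ (-k) := by
  rw [wFun, SL_slash_apply, ModularGroup.denom_S, coe_diag_smul]

theorem wFun_mul [Fact N.Prime] (l : ℤ) (f g : ℍ → ℂ) :
    wFun N (k + l) (f * g) = wFun N k f * wFun N l g := by
  ext τ
  simp only [wFun, mul_slash_SL2, Pi.mul_apply]

theorem wFun_add (f g : ℍ → ℂ) : wFun N k (f + g) = wFun N k f + wFun N k g := by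
  ext τ
  simp [wFun, SlashAction.add_slash]

theorem wFun_smul (c : ℂ) (f : ℍ → ℂ) : wFun N k (c • f) = c • wFun N k f := by
  ext τ
  simp only [wFun, SL_smul_slash, Pi.smul_apply]

theorem wFun_wFun [Fact N.Prime] (hk : Even k) (f : ℍ → ℂ) :
    wFun N k (wFun N k f) = (N : ℂ) ^ (-k) • f := by
  ext τ
  have hN := natCast_ne (N := N)
  have hτ : (τ : ℂ) ≠ 0 := ne_zero τ
  rw [wFun_apply, wFun_apply, Pi.smul_apply, smul_eq_mul]
  have h1 : (ModularGroup.S • (heckeDiagMatrix N •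
      (ModularGroup.S • (heckeDiagMatrix N • τ : ℍ) : ℍ) : ℍ) : ℍ) = τ := by
    apply UpperHalfPlane.ext
    rw [modular_S_smul]
    simp only [coe_diag_smul]
    rw [modular_S_smul]
    simp only [coe_diag_smul]
    field_simp
  rw [h1]
  have h2 : ((ModularGroup.S • (heckeDiagMatrix N • τ : ℍ) : ℍ) : ℂ) = -(1 / ((N : ℂ) * τ)) := by
    rw [modular_S_smul]
    simp only [coe_diag_smul]
    field_simp
  rw [h2, mul_assoc, ← mul_zpow]
  have h3 : (N : ℂ) * -(1 / (N * τ)) * (N * τ) = - (N : ℂ) := by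
    field_simp
  rw [h3, mul_comm, Even.neg_zpow hk.neg]

/-! ### Level one forms -/

theorem levelOne_slash (A : ModularForm 𝒮ℒ k) (γ : SL(2, ℤ)) : (A : ℍ → ℂ) ∣[k] γ = A :=
  A.slash_action_eq' _ ⟨γ, rfl⟩

theorem isBounded_levelOne (A : ModularForm 𝒮ℒ k) : IsBoundedAtImInfty (A : ℍ → ℂ) := by
  have : Fact (IsCusp OnePoint.infty 𝒮ℒ) :=
    ⟨Subgroup.isCusp_of_mem_strictPeriods one_pos one_mem_strictPeriods_SL⟩
  exact ModularFormClass.bdd_at_infty A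

/-- restriction of a level one form to `Γ₀(N)` -/
def resForm (N : ℕ) [Fact N.Prime] (A : ModularForm 𝒮ℒ k) : ModularForm (Gamma0 N) k :=
  mkForm A (fun γ _ => levelOne_slash A γ) A.holo' (isBounded_levelOne A)
    (by rw [levelOne_slash]; exact isBounded_levelOne A)

@[simp] theorem coe_resForm [Fact N.Prime] (A : ModularForm 𝒮ℒ k) : ⇑(resForm N A) = A := rfl

theorem wFun_levelOne (A : ModularForm 𝒮ℒ k) (τ : ℍ) :
    wFun N k A τ = A (heckeDiagMatrix N • τ) := by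
  rw [wFun, levelOne_slash]

/-! ### The trace to level one -/

/-- trace to level one -/
def trFun (N : ℕ) (k : ℤ) (f : ℍ → ℂ) : ℍ → ℂ :=
  f + ∑ j ∈ Finset.range N, f ∣[k] (ModularGroup.S * ModularGroup.T ^ (j : ℤ))

theorem slash_ST_apply [Fact N.Prime] (f : ℍ → ℂ) (j : ℕ) (τ : ℍ) :
    (f ∣[k] (ModularGroup.S * ModularGroup.T ^ (j : ℤ))) τ =
      wFun N k f (heckeMatrix N j • τ) := by
  have hN := natCast_ne (N := N)
  rw [SlashAction.slash_mul, SL_slash_apply, wFun]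
  have h1 : (ModularGroup.T ^ (j : ℤ) • τ : ℍ) = (heckeDiagMatrix N • (heckeMatrix N j • τ) : ℍ) := by
    apply UpperHalfPlane.ext
    rw [coe_diag_smul, coe_heckeMatrix_smul (Fact.out : N.Prime).ne_zero, modular_T_zpow_smul]
    simp
    field_simp
    ring
  have h2 : denom (ModularGroup.T ^ (j : ℤ) : SL(2, ℤ)) τ = 1 := by
    rw [denom, T_zpow_one_zero]
    have : ((ModularGroup.T ^ (j : ℤ) : SL(2, ℤ)) : GL (Fin 2) ℝ) 1 1 = 1 := by
      change ((((ModularGroup.T ^ (j : ℤ) : SL(2, ℤ)) : Matrix (Fin 2) (Fin 2) ℤ) 1 1 : ℤ) : ℝ) = 1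
      rw [ModularGroup.coe_T_zpow]
      simp
    rw [this]
    simp
  rw [h1, h2]
  simp

theorem trFun_eq [Fact N.Prime] (f : ℍ → ℂ) :
    trFun N k f = f + (N : ℂ) • heckeU k N (wFun N k f) := by
  ext τ
  have hN := natCast_ne (N := N)
  rw [trFun, Pi.add_apply, Pi.add_apply, Pi.smul_apply, heckeU_apply k (Fact.out : N.Prime).ne_zero,
    smul_eq_mul, ← mul_assoc, mul_inv_cancel₀ hN, one_mul, Finset.sum_apply]
  simp only [slash_ST_apply (N := N)]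

end Fermat.Agent.H13
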