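import Fermat.Agent.H13.PartB
import Fermat.Agent.H18_Ramanujan

set_option autoImplicit false

noncomputable section

open UpperHalfPlane hiding I
open ModularForm CongruenceSubgroup Complex ModularFormClass PowerSeries
open scoped MatrixGroups Manifold Topology ModularForm

namespace Fermat.Agent.H13

variable {f : ℍ → ℂ} {a : ℂ⟦X⟧} {N : ℕ} {k : ℤ}

theorem HasQ.zero (h : HasQ f a) (h0 : coeff 0 a = 0) : IsZeroAtImInfty f := by
  have := H18.tendsto_of_hasSum (h := 1) one_pos (f := f) (c := fun m => coeff m a)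
    (fun τ => by simpa using h τ)
  rw [h0] at this
  exact this

variable [hN : Fact N.Prime]

theorem zero_of_diag (h : IsZeroAtImInfty (fun τ => f (heckeDiagMatrix N • τ : ℍ))) :
    IsZeroAtImInfty f := by
  have h0 : N ≠ 0 := (Fact.out : N.Prime).ne_zero
  have h1 := h.slash (k := 0) (heckeMatrix_one_zero' N 0)
  have h2 : IsZeroAtImInfty ((N : ℂ) • ((fun τ => f (heckeDiagMatrix N • τ : ℍ)) ∣[(0 : ℤ)] heckeMatrix N 0)) := by
    have := Filter.Tendsto.const_mul (N : ℂ) h1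
    rw [mul_zero] at this
    exact this
  convert h2 using 1
  ext τ
  rw [Pi.smul_apply, slash_heckeMatrix_apply _ h0]
  have : (heckeDiagMatrix N • (heckeMatrix N 0 • τ) : ℍ) = τ := by
    apply UpperHalfPlane.ext
    rw [coe_diag_smul, coe_heckeMatrix_smul h0]
    have hN := natCast_ne (N := N)
    field_simp
    simp
  rw [this]
  have hN := natCast_ne (N := N)
  simp only [smul_eq_mul]
  rw [← mul_assoc, mul_inv_cancel₀ hN, one_mul]

/-- A modular form vanishing at both cusps is a cusp form. -/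
def toCuspForm' (F : ModularForm (Gamma0 N) k) (h0 : (qExpansion 1 F).coeff 0 = 0)
    (h1 : (qExpansion 1 (wForm F)).coeff 0 = 0) : CuspForm (Gamma0 N) k where
  toFun := F
  slash_action_eq' := F.slash_action_eq'
  holo' := F.holo'
  zero_at_cusps' {c} hc := by
    rw [Subgroup.IsArithmetic.isCusp_iff_isCusp_SL2Z] at hc
    rw [OnePoint.isZeroAt_iff_forall_SL2Z hc]
    intro γ _
    have z0 : IsZeroAtImInfty (F : ℍ → ℂ) := (hasQ_form F).zero h0
    have z1 : IsZeroAtImInfty ((F : ℍ → ℂ) ∣[k] ModularGroup.S) :=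
      zero_of_diag (N := N) ((hasQ_form (wForm F)).zero h1)
    rcases exists_coset (N := N) γ with h | ⟨j, δ, hδ, rfl⟩
    · change IsZeroAtImInfty ((F : ℍ → ℂ) ∣[k] γ)
      rw [form_slash F γ h]; exact z0
    · change IsZeroAtImInfty ((F : ℍ → ℂ) ∣[k] (δ * (ModularGroup.S * ModularGroup.T ^ j)))
      rw [SlashAction.slash_mul, form_slash F δ hδ, SlashAction.slash_mul]
      exact z1.slash k (T_zpow_one_zero j)

@[simp] theorem coe_toCuspForm' (F : ModularForm (Gamma0 N) k) (h0 : (qExpansion 1 F).coeff 0 = 0)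
    (h1 : (qExpansion 1 (wForm F)).coeff 0 = 0) : ⇑(toCuspForm' F h0 h1) = F := rfl

/-- In weight two only the vanishing at infinity is needed. -/
theorem exists_cuspForm_two (F : ModularForm (Gamma0 N) 2) (h0 : (qExpansion 1 F).coeff 0 = 0) :
    ∃ G : CuspForm (Gamma0 N) 2, (⇑G : ℍ → ℂ) = F := by
  refine ⟨toCuspForm' F h0 ?_, rfl⟩
  rw [qExpansion_wForm_two, coeff_C_mul, coeff_Uop, zero_mul, h0, mul_zero]

/-! ### Hecke relations for `σ_N` -/

omit hN in
theorem sigN_one (hN1 : N ≠ 1) : sigN N 1 = 1 := by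
  rw [sigN, Nat.divisors_one, Finset.filter_singleton, if_pos (by simpa using hN1),
    Finset.sum_singleton]

omit hN in
theorem sigN_zero : sigN N 0 = 0 := by
  simp [sigN]

theorem sigN_mul_self (k : ℕ) : sigN N (k * N) = sigN N k := by
  rcases eq_or_ne k 0 with rfl | hk
  · simp
  rw [sigN, sigN]
  apply Finset.sum_congr _ (fun _ _ => rfl)
  ext d
  simp only [Finset.mem_filter, Nat.mem_divisors]
  constructor
  · rintro ⟨⟨h1, _⟩, h2⟩
    have hc : Nat.Coprime d N := ((Nat.Prime.coprime_iff_not_dvd hN.out).mpr h2).symm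
    exact ⟨⟨hc.dvd_of_dvd_mul_right h1, hk⟩, h2⟩
  · rintro ⟨⟨h1, _⟩, h2⟩
    exact ⟨⟨dvd_mul_of_dvd_left h1 _, mul_ne_zero hk hN.out.ne_zero⟩, h2⟩

theorem sigN_mul_prime {ℓ : ℕ} (hℓ : ℓ.Prime) (hℓN : ¬ ℓ ∣ N) (k : ℕ) :
    sigN N (k * ℓ) + (if ℓ ∣ k then ℓ * sigN N (k / ℓ) else 0) = (1 + ℓ) * sigN N k := by
  rcases eq_or_ne k 0 with rfl | hk
  · simp [sigN_zero]
  have hNℓ : ¬ N ∣ ℓ := by
    intro h
    rcases (Nat.dvd_prime hℓ).mp h with h | h
    · exact hN.out.ne_one h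
    · exact hℓN (h ▸ dvd_refl N)
  have hNmul : ∀ d, N ∣ ℓ * d ↔ N ∣ d := fun d => by
    rw [hN.out.dvd_mul]; tauto
  -- the two subsets
  set A : Finset ℕ := {d ∈ k.divisors | ¬ N ∣ d} with hA
  set B : Finset ℕ := A.map ⟨fun d => ℓ * d, mul_right_injective₀ hℓ.ne_zero⟩ with hB
  have hU : {d ∈ (k * ℓ).divisors | ¬ N ∣ d} = A ∪ B := by
    ext d
    simp only [hA, hB, Finset.mem_union, Finset.mem_map, Finset.mem_filter, Nat.mem_divisors,
      Function.Embedding.coeFn_mk]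
    constructor
    · rintro ⟨⟨h1, _⟩, h2⟩
      by_cases hd : ℓ ∣ d
      · obtain ⟨e, rfl⟩ := hd
        right
        refine ⟨e, ⟨⟨?_, hk⟩, ?_⟩, rfl⟩
        · rw [mul_comm k ℓ] at h1
          exact Nat.dvd_of_mul_dvd_mul_left hℓ.pos h1
        · rwa [hNmul] at h2
      · left
        have hc : Nat.Coprime d ℓ := ((Nat.Prime.coprime_iff_not_dvd hℓ).mpr hd).symm
        exact ⟨⟨hc.dvd_of_dvd_mul_right h1, hk⟩, h2⟩
    · rintro (⟨⟨h1, _⟩, h2⟩ | ⟨e, ⟨⟨h1, _⟩, h2⟩, rfl⟩)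
      · exact ⟨⟨dvd_mul_of_dvd_left h1 _, mul_ne_zero hk hℓ.ne_zero⟩, h2⟩
      · refine ⟨⟨?_, mul_ne_zero hk hℓ.ne_zero⟩, ?_⟩
        · rw [mul_comm k ℓ]; exact mul_dvd_mul_left _ h1
        · rwa [hNmul]
  have hBs : ∑ d ∈ B, d = ℓ * sigN N k := by
    rw [hB, Finset.sum_map, sigN, Finset.mul_sum]
    rfl
  have hI : ∑ d ∈ A ∩ B, d = if ℓ ∣ k then ℓ * sigN N (k / ℓ) else 0 := by
    split_ifs with h
    · obtain ⟨m, rfl⟩ := h
      have hm : m ≠ 0 := right_ne_zero_of_mul hk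
      rw [Nat.mul_div_cancel_left _ hℓ.pos, sigN, Finset.mul_sum]
      symm
      refine Finset.sum_bij (fun d _ => ℓ * d) ?_ ?_ ?_ ?_
      · intro d hd
        simp only [hA, hB, Finset.mem_inter, Finset.mem_map, Finset.mem_filter, Nat.mem_divisors,
          Function.Embedding.coeFn_mk] at hd ⊢
        exact ⟨⟨⟨Nat.mul_dvd_mul_left _ hd.1.1, hk⟩, by rw [hNmul]; exact hd.2⟩, d,
          ⟨⟨dvd_mul_of_dvd_right hd.1.1 _, hk⟩, hd.2⟩, rfl⟩
      · intro a _ b _ hab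
        exact Nat.eq_of_mul_eq_mul_left hℓ.pos hab
      · intro b hb
        simp only [hA, hB, Finset.mem_inter, Finset.mem_map, Finset.mem_filter, Nat.mem_divisors,
          Function.Embedding.coeFn_mk] at hb
        obtain ⟨⟨⟨h1, _⟩, h2⟩, c, ⟨⟨_, _⟩, h3⟩, rfl⟩ := hb
        refine ⟨c, ?_, rfl⟩
        rw [Finset.mem_filter, Nat.mem_divisors]
        exact ⟨⟨Nat.dvd_of_mul_dvd_mul_left hℓ.pos h1, hm⟩, h3⟩
      · intro d _; rfl
    · apply Finset.sum_eq_zero
      intro d hd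
      simp only [hA, hB, Finset.mem_inter, Finset.mem_map, Finset.mem_filter, Nat.mem_divisors,
          Function.Embedding.coeFn_mk] at hd
      obtain ⟨⟨⟨h1, _⟩, _⟩, c, _, rfl⟩ := hd
      exact absurd (dvd_trans (dvd_mul_right _ _) h1) h
  have h1 : sigN N (k * ℓ) = ∑ d ∈ A ∪ B, d := by rw [sigN, hU]
  have h2 := Finset.sum_union_inter (s₁ := A) (s₂ := B) (f := fun d => d)
  have h3 : ∑ d ∈ A, d = sigN N k := rfl
  rw [← hI, h1, h2, hBs, h3]
  ring

end Fermat.Agent.H13
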