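import Fermat.Agent.H13.B3

set_option autoImplicit false

noncomputable section

open PowerSeries

namespace Fermat.Agent.H13

section
variable {R : Subring ℚ}

theorem Ci (i : ℕ) : ∀ (κ τ : R⟦X⟧) (μ a : R), ROne R (12 * (i : ℤ) - 4) κ →
    ROne R (12 * (i : ℤ)) τ → e4 R * κ + C μ * τ = C a * delta R ^ i → μ ∣ a := by
  induction i with
  | zero =>
    intro κ τ μ a hκ hτ h
    have h1 := hκ.eq_zero_of_neg (by norm_num)
    have h2 := (hτ.cast (k' := 0) (by norm_num)).eq_C_of_zero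
    rw [h1, h2] at h
    have := congrArg (coeff 0) h
    rw [mul_zero, zero_add, pow_zero, mul_one, ← map_mul, coeff_zero_C, coeff_zero_C] at this
    exact ⟨_, this.symm⟩
  | succ i ih =>
    intro κ τ μ a hκ hτ h
    have h0 : coeff 0 κ + μ * coeff 0 τ = 0 := by
      have := congrArg (coeff 0) h
      rw [map_add, coeff_C_mul, coeff_C_mul, coeff_zero_mul', coeff_zero_e4, one_mul,
        coeff_zero_pow', coeff_zero_delta, zero_pow (Nat.succ_ne_zero i), mul_zero] at this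
      exact this
    have hk1 := hκ.sub (((rOne_e4 (R := R)).pow (3 * i + 2)).cast (k' := 12 * ((i + 1 : ℕ) : ℤ) - 4)
      (by push_cast; ring) |>.C_mul (coeff 0 κ))
    have ht1 := hτ.sub (((rOne_e4 (R := R)).pow (3 * i + 3)).cast (k' := 12 * ((i + 1 : ℕ) : ℤ))
      (by push_cast; ring) |>.C_mul (coeff 0 τ))
    obtain ⟨κ', hκ'⟩ := exists_eq_delta_mul (κ - C (coeff 0 κ) * e4 R ^ (3 * i + 2)) (by
      rw [map_sub, coeff_C_mul, coeff_zero_pow', coeff_zero_e4]; ring)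
    obtain ⟨τ', hτ'⟩ := exists_eq_delta_mul (τ - C (coeff 0 τ) * e4 R ^ (3 * i + 3)) (by
      rw [map_sub, coeff_C_mul, coeff_zero_pow', coeff_zero_e4]; ring)
    rw [hκ'] at hk1
    rw [hτ'] at ht1
    refine ih κ' τ' μ a (hk1.div_delta.cast (by push_cast; ring))
      (ht1.div_delta.cast (by push_cast; ring)) ?_
    apply mul_left_cancel₀ (delta_ne_zero (S := R))
    have h2 : C (coeff 0 κ) + C μ * C (coeff 0 τ) = (0 : R⟦X⟧) := by
      rw [← map_mul, ← map_add, h0, map_zero]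
    have h3 : delta R * (e4 R * κ' + C μ * τ') = e4 R * (delta R * κ') + C μ * (delta R * τ') := by
      ring
    rw [h3, ← hκ', ← hτ']
    linear_combination h - e4 R ^ (3 * i + 3) * h2

end

variable {q : ℕ} [hq : Fact q.Prime] {N : ℕ} [hN : Fact N.Prime] {w : ℕ}

/-- The final contradiction for small primes. -/
theorem descent (hqN : q ≠ N) (hw : 1 ≤ w) {H Hs Y Ys : (Zl q)⟦X⟧}
    (hH : RForm (Zl q) N 4 H Hs) (hY : RForm (Zl q) N 6 Y Ys)
    (h1 : delta (Zl q) = e4 (Zl q) * H + ((q ^ w : ℕ) : (Zl q)⟦X⟧) * Y)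
    (h2 : (N : (Zl q)⟦X⟧) ^ 6 * expand N hN.out.ne_zero (delta (Zl q)) =
      ((N : (Zl q)⟦X⟧) ^ 2 * expand N hN.out.ne_zero (e4 (Zl q))) * Hs +
        ((q ^ w : ℕ) : (Zl q)⟦X⟧) * Ys) : False := by
  have hN0 := hN.out.ne_zero
  have hD := RForm.ofOne (N := N) (j := 6) ((rOne_delta (R := Zl q)).cast (by norm_num))
  have hneg : (-(N : (Zl q)⟦X⟧)) ^ 6 = (N : (Zl q)⟦X⟧) ^ 6 := by ring
  rw [hneg] at hD
  set L : (Zl q)⟦X⟧ := ((q ^ w : ℕ) : (Zl q)⟦X⟧) with hL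
  have key : ∀ i : ℕ, ∃ A As Z Zs : (Zl q)⟦X⟧, RForm (Zl q) N (6 * i + 4) A As ∧
      RForm (Zl q) N (6 * i + 6) Z Zs ∧
      delta (Zl q) ^ (i + 1) = e4 (Zl q) * A + L ^ (i + 1) * Z ∧
      ((N : (Zl q)⟦X⟧) ^ 6 * expand N hN0 (delta (Zl q))) ^ (i + 1) =
      ((N : (Zl q)⟦X⟧) ^ 2 * expand N hN0 (e4 (Zl q))) * As + L ^ (i + 1) * Zs := by
    intro i
    induction i with
    | zero => exact ⟨H, Hs, Y, Ys, by simpa using hH, by simpa using hY, by simpa using h1,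
        by simpa using h2⟩
    | succ i ih =>
      obtain ⟨A, As, Z, Zs, hA, hZ, e1, e2⟩ := ih
      have hL1 : L ^ (i + 1) = ((q ^ w) ^ (i + 1) : ℕ) := by rw [hL]; push_cast; ring
      refine ⟨A * delta (Zl q) + L ^ (i + 1) * (Z * H),
        As * ((N : (Zl q)⟦X⟧) ^ 6 * expand N hN0 (delta (Zl q))) + L ^ (i + 1) * (Zs * Hs),
        Z * Y, Zs * Ys, ?_, ?_, ?_, ?_⟩
      · refine RForm.add ((hA.mul hD).cast (by ring)) ?_
        rw [hL1]
        exact ((hZ.mul hH).cast (by ring)).nat_mul _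
      · exact (hZ.mul hY).cast (by ring)
      · rw [pow_succ, e1]
        linear_combination (L ^ (i + 1) * Z) * h1
      · rw [pow_succ, e2]
        linear_combination (L ^ (i + 1) * Zs) * h2
  obtain ⟨A, As, Z, Zs, hA, hZ, e1, e2⟩ := key N
  have hA1 := (hA.cast (l := (6 * N + 3) + 1) (by ring)).trace
  have hZ1 := (hZ.cast (l := (6 * N + 5) + 1) (by ring)).trace
  have s1 : (-1 : (Zl q)⟦X⟧) ^ (6 * N + 3 + 1) = 1 := by
    apply Even.neg_one_pow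
    exact ⟨3 * N + 2, by ring⟩
  have s2 : (-1 : (Zl q)⟦X⟧) ^ (6 * N + 5 + 1) = 1 := by
    apply Even.neg_one_pow
    exact ⟨3 * N + 3, by ring⟩
  rw [s1, one_mul] at hA1
  rw [s2, one_mul] at hZ1
  have hA2 := hA1.nat_mul (N ^ 2)
  have hL1 : L ^ (N + 1) = ((q ^ w) ^ (N + 1) : ℕ) := by rw [hL]; push_cast; ring
  have e3 : Uop N (((N : (Zl q)⟦X⟧) ^ 6 * expand N hN0 (delta (Zl q))) ^ (N + 1)) =
      (N : (Zl q)⟦X⟧) ^ (6 * N + 6) * delta (Zl q) ^ (N + 1) := by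
    rw [mul_pow, ← pow_mul, ← map_pow]
    have : (N : (Zl q)⟦X⟧) ^ (6 * (N + 1)) = ((N ^ (6 * (N + 1)) : ℕ) : (Zl q)⟦X⟧) := by push_cast; ring
    rw [this, Uop_natCast_mul, Uop_expand]
    push_cast
    ring
  have e4' : Uop N (((N : (Zl q)⟦X⟧) ^ 2 * expand N hN0 (e4 (Zl q))) * As + L ^ (N + 1) * Zs) =
      (N : (Zl q)⟦X⟧) ^ 2 * (e4 (Zl q) * Uop N As) + L ^ (N + 1) * Uop N Zs := by
    have : (N : (Zl q)⟦X⟧) ^ 2 = ((N ^ 2 : ℕ) : (Zl q)⟦X⟧) := by push_cast; ring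
    rw [map_add, hL1, Uop_natCast_mul, this, mul_assoc, Uop_natCast_mul, Uop_expand_mul]
  have hfin := Ci (N + 1) _ _ ((q ^ w) ^ (N + 1) : ℕ) ((N ^ (6 * N + 5) * (N + 1) : ℕ) : Zl q)
    (hA2.cast (by push_cast; ring)) (hZ1.cast (by push_cast; ring)) (by
      have c1 : (C (((q ^ w) ^ (N + 1) : ℕ) : Zl q) : (Zl q)⟦X⟧) = L ^ (N + 1) := by
        rw [hL1, map_natCast]
      have c2 : (C ((N ^ (6 * N + 5) * (N + 1) : ℕ) : Zl q) : (Zl q)⟦X⟧) =
          (N : (Zl q)⟦X⟧) ^ (6 * N + 5) * ((N : (Zl q)⟦X⟧) + 1) := by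
        rw [map_natCast]; push_cast; ring
      rw [c1, c2]
      have e5 := e3.symm.trans ((congrArg (Uop N) e2).trans e4')
      push_cast
      linear_combination -(N : (Zl q)⟦X⟧) ^ (6 * N + 5) * e1 - e5)
  have h8 := Zl.dvd_of_dvd_nat (q := q) (v := w * (N + 1)) (m := N ^ (6 * N + 5) * (N + 1))
    (by rw [pow_mul]; exact hfin)
  have h9 : Nat.Coprime (q ^ (w * (N + 1))) (N ^ (6 * N + 5)) :=
    Nat.Coprime.pow _ _ ((Nat.coprime_primes hq.out hN.out).mpr hqN)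
  have h10 := Nat.le_of_dvd (Nat.succ_pos N) (h9.dvd_of_dvd_mul_left h8)
  have h11 : w * (N + 1) < q ^ (w * (N + 1)) := Nat.lt_pow_self hq.out.one_lt
  have h12 : 1 * (N + 1) ≤ w * (N + 1) := Nat.mul_le_mul_right _ hw
  omega

end Fermat.Agent.H13
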