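import Mathlib

set_option autoImplicit false

noncomputable section

open PowerSeries

namespace Fermat.Agent.H13

section ops
variable {R : Type*} [CommRing R]

/-- the operator `U_N` on power series -/
def Uop (N : ℕ) : R⟦X⟧ →ₗ[R] R⟦X⟧ where
  toFun φ := PowerSeries.mk fun n => coeff (n * N) φ
  map_add' a b := by ext; simp
  map_smul' c a := by ext; simp

@[simp] theorem coeff_Uop (N n : ℕ) (φ : R⟦X⟧) : coeff n (Uop N φ) = coeff (n * N) φ := by
  simp [Uop]

/-- `θ = q d/dq` -/
def theta (φ : R⟦X⟧) : R⟦X⟧ := X * derivative R φ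

@[simp] theorem coeff_theta (n : ℕ) (φ : R⟦X⟧) : coeff n (theta φ) = n * coeff n φ := by
  rcases n with _ | n
  · simp [theta]
  · rw [theta, coeff_succ_X_mul, coeff_derivative]
    push_cast
    ring

theorem theta_mul (a b : R⟦X⟧) : theta (a * b) = theta a * b + a * theta b := by
  simp only [theta, Derivation.leibniz, smul_eq_mul]
  ring

theorem theta_add (a b : R⟦X⟧) : theta (a + b) = theta a + theta b := by
  simp only [theta, map_add]; ring

theorem theta_sub (a b : R⟦X⟧) : theta (a - b) = theta a - theta b := by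
  simp only [theta, map_sub]; ring

theorem theta_smul (c : R) (a : R⟦X⟧) : theta (c • a) = c • theta a := by
  ext n; simp; ring

theorem theta_C (c : R) : theta (C c) = 0 := by
  simp [theta]

theorem theta_one : theta (1 : R⟦X⟧) = 0 := by
  simpa using theta_C (1 : R)

theorem theta_C_mul (c : R) (a : R⟦X⟧) : theta (C c * a) = C c * theta a := by
  rw [theta_mul, theta_C]; ring

theorem theta_natCast (n : ℕ) : theta (n : R⟦X⟧) = 0 := by
  have : (n : R⟦X⟧) = C (n : R) := by simp
  rw [this, theta_C]

theorem theta_pow (a : R⟦X⟧) (n : ℕ) : theta (a ^ n) = n * a ^ (n - 1) * theta a := by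
  simp only [theta, derivative_pow]; ring

variable {N : ℕ} (hN : N ≠ 0)

theorem theta_expand (a : R⟦X⟧) : theta (expand N hN a) = (N : R⟦X⟧) * expand N hN (theta a) := by
  ext n
  have : (N : R⟦X⟧) = C (N : R) := by simp
  rw [this, coeff_C_mul, coeff_theta, coeff_expand, coeff_expand]
  split_ifs with h
  · obtain ⟨m, rfl⟩ := h
    rw [Nat.mul_div_cancel_left _ (Nat.pos_of_ne_zero hN), coeff_theta]
    push_cast
    ring
  · simp

theorem Uop_expand_mul (a b : R⟦X⟧) : Uop N (expand N hN a * b) = a * Uop N b := by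
  ext n
  rw [coeff_Uop, coeff_mul, coeff_mul]
  have hinj : Function.Injective (fun p : ℕ × ℕ => (N * p.1, p.2 * N)) := by
    intro p q h
    simp only [Prod.mk.injEq] at h
    exact Prod.ext (Nat.eq_of_mul_eq_mul_left (Nat.pos_of_ne_zero hN) h.1)
      (Nat.eq_of_mul_eq_mul_right (Nat.pos_of_ne_zero hN) h.2)
  rw [← Finset.sum_subset (s₁ := (Finset.HasAntidiagonal.antidiagonal n).map ⟨_, hinj⟩)]
  · rw [Finset.sum_map]
    refine Finset.sum_congr rfl fun p _ => ?_
    simp only [Function.Embedding.coeFn_mk, coeff_Uop, coeff_expand_mul]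
  · intro p hp
    simp only [Finset.mem_map, Function.Embedding.coeFn_mk, Finset.HasAntidiagonal.mem_antidiagonal] at hp ⊢
    obtain ⟨q, hq, rfl⟩ := hp
    simp only
    rw [← hq]; ring
  · intro p hp hp'
    rw [coeff_expand]
    split_ifs with h
    · exfalso
      apply hp'
      obtain ⟨m, hm⟩ := h
      rw [Finset.HasAntidiagonal.mem_antidiagonal] at hp
      have hle : m ≤ n := by
        have : N * m ≤ n * N := by rw [← hm]; omega
        rw [mul_comm n N] at this
        exact Nat.le_of_mul_le_mul_left this (Nat.pos_of_ne_zero hN)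
      simp only [Finset.mem_map, Function.Embedding.coeFn_mk, Finset.HasAntidiagonal.mem_antidiagonal]
      refine ⟨(m, n - m), by omega, Prod.ext hm.symm ?_⟩
      simp only
      rw [Nat.sub_mul]
      have : m * N = p.1 := by rw [hm, mul_comm]
      omega
    · rw [zero_mul]

theorem Uop_expand (a : R⟦X⟧) : Uop N (expand N hN a) = a := by
  ext n
  rw [coeff_Uop, mul_comm, coeff_expand_mul]

include hN in
theorem Uop_C (c : R) : Uop N (C c) = C c := by
  ext n
  rw [coeff_Uop, coeff_C, coeff_C]
  simp [hN]

include hN in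
theorem Uop_one : Uop N (1 : R⟦X⟧) = 1 := by
  simpa using Uop_C hN (1 : R)

section map
variable {S : Type*} [CommRing S] (f : R →+* S)

theorem map_Uop (a : R⟦X⟧) : (Uop N a).map f = Uop N (a.map f) := by
  ext n; simp

theorem map_expand' (a : R⟦X⟧) : (expand N hN a).map f = expand N hN (a.map f) := by
  ext n
  rw [coeff_map, coeff_expand, coeff_expand]
  split_ifs <;> simp

theorem map_theta (a : R⟦X⟧) : (theta a).map f = theta (a.map f) := by
  ext n; simp

end map

end ops

end Fermat.Agent.H13
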