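import Fermat.Agent.H13.LevelOne

set_option autoImplicit false

noncomputable section

open PowerSeries

namespace Fermat.Agent.H13

variable (R : Subring ℚ)

/-- coefficient embedding -/
abbrev ιR : R⟦X⟧ →+* ℚ⟦X⟧ := PowerSeries.map R.subtype

/-- level one form with coefficients in `R`. -/
def ROne (k : ℤ) (φ : R⟦X⟧) : Prop := IsOne k (ιR R φ)

/-- half weight `j`, form `φ` and normalised Fricke transform `ψ`, with coefficients in `R`. -/
def RForm (N : ℕ) [Fact N.Prime] (j : ℕ) (φ ψ : R⟦X⟧) : Prop :=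
  IsForm N (2 * (j : ℤ)) (ιR R φ) (C ((-(N : ℚ)) ^ (-(j : ℤ))) * ιR R ψ)

variable {R}

theorem ιR_injective : Function.Injective (ιR R) := by
  intro a b h
  ext n
  have := congrArg (coeff n) h
  simpa using this

variable {N : ℕ} [hN : Fact N.Prime] {j l : ℕ} {k : ℤ} {φ ψ φ' ψ' : R⟦X⟧}

theorem negN_ne : (-(N : ℚ)) ≠ 0 := neg_ne_zero.mpr (Nat.cast_ne_zero.mpr hN.out.ne_zero)

theorem RForm.congr (h : RForm R N j φ ψ) (h1 : φ = φ') (h2 : ψ = ψ') : RForm R N j φ' ψ' := by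
  subst h1; subst h2; exact h

theorem RForm.cast (h : RForm R N j φ ψ) (h1 : j = l) : RForm R N l φ ψ := by
  subst h1; exact h

theorem RForm.add (h : RForm R N j φ ψ) (h' : RForm R N j φ' ψ') :
    RForm R N j (φ + φ') (ψ + ψ') := by
  refine (IsForm.add h h').congr ?_ ?_
  · rw [map_add]
  · rw [map_add]; ring

theorem RForm.C_mul (h : RForm R N j φ ψ) (c : R) : RForm R N j (C c * φ) (C c * ψ) := by
  refine (IsForm.C_mul h (c : ℚ)).congr ?_ ?_
  · rw [map_mul, map_C]; rfl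
  · rw [map_mul, map_C]
    change C (c : ℚ) * _ = _ * (C (c : ℚ) * _)
    ring

theorem RForm.int_mul (h : RForm R N j φ ψ) (c : ℤ) :
    RForm R N j ((c : R⟦X⟧) * φ) ((c : R⟦X⟧) * ψ) := by
  have : (c : R⟦X⟧) = C (c : R) := by simp
  rw [this]; exact h.C_mul _

theorem RForm.nat_mul (h : RForm R N j φ ψ) (c : ℕ) :
    RForm R N j ((c : R⟦X⟧) * φ) ((c : R⟦X⟧) * ψ) := by
  have : (c : R⟦X⟧) = C (c : R) := by simp
  rw [this]; exact h.C_mul _

theorem RForm.neg (h : RForm R N j φ ψ) : RForm R N j (-φ) (-ψ) := by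
  refine (h.int_mul (-1)).congr ?_ ?_ <;> simp

theorem RForm.sub (h : RForm R N j φ ψ) (h' : RForm R N j φ' ψ') :
    RForm R N j (φ - φ') (ψ - ψ') := by
  rw [sub_eq_add_neg, sub_eq_add_neg]; exact h.add h'.neg

theorem RForm.of_C_mul (c : R) (hc : c ≠ 0) (h : RForm R N j (C c * φ) (C c * ψ)) :
    RForm R N j φ ψ := by
  have hc' : (c : ℚ) ≠ 0 := by exact_mod_cast hc
  have e : (C ((c : ℚ)⁻¹)) * C (c : ℚ) = (1 : ℚ⟦X⟧) := by
    rw [← map_mul, inv_mul_cancel₀ hc', map_one]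
  have e' : ∀ χ : R⟦X⟧, ιR R (C c * χ) = C (c : ℚ) * ιR R χ := by
    intro χ
    rw [map_mul, map_C]; rfl
  refine (IsForm.C_mul h ((c : ℚ)⁻¹)).congr ?_ ?_
  · rw [e']
    linear_combination ιR R φ * e
  · rw [e']
    linear_combination C ((-(N : ℚ)) ^ (-(j : ℤ))) * ιR R ψ * e

theorem RForm.of_nat_mul (c : ℕ) (hc : c ≠ 0)
    (h : RForm R N j ((c : R⟦X⟧) * φ) ((c : R⟦X⟧) * ψ)) : RForm R N j φ ψ := by
  have : (c : R⟦X⟧) = C (c : R) := by simp
  rw [this] at h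
  exact h.of_C_mul (c : R) (by exact_mod_cast hc)

theorem RForm.mul (h : RForm R N j φ ψ) (h' : RForm R N l φ' ψ') :
    RForm R N (j + l) (φ * φ') (ψ * ψ') := by
  refine ((IsForm.mul h h').cast ?_).congr ?_ ?_
  · push_cast; ring
  · rw [map_mul]
  · rw [map_mul]
    have : (C ((-(N : ℚ)) ^ (-((j + l : ℕ) : ℤ)))) =
        C ((-(N : ℚ)) ^ (-(j : ℤ))) * C ((-(N : ℚ)) ^ (-(l : ℤ))) := by
      rw [← map_mul, ← zpow_add₀ negN_ne]
      congr 2
      push_cast; ring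
    rw [this]; ring

theorem RForm.one : RForm R N 0 1 1 := by
  refine ((IsForm.one (N := N)).cast ?_).congr ?_ ?_
  · simp
  · simp
  · simp

theorem RForm.pow (h : RForm R N j φ ψ) (n : ℕ) : RForm R N (n * j) (φ ^ n) (ψ ^ n) := by
  induction n with
  | zero => simpa using RForm.one (N := N) (R := R)
  | succ n ih =>
    rw [pow_succ, pow_succ]
    exact (ih.mul h).cast (by ring)

theorem RForm.swap (h : RForm R N j φ ψ) : RForm R N j ψ φ := by
  have h1 := IsForm.swap h (even_two_mul _)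
  refine (h1.C_mul ((-(N : ℚ)) ^ (j : ℤ))).congr ?_ ?_
  · rw [← mul_assoc, ← map_mul, ← zpow_add₀ negN_ne]
    simp
  · rw [← mul_assoc, ← map_mul]
    congr 2
    have hN0 : (N : ℚ) ≠ 0 := Nat.cast_ne_zero.mpr hN.out.ne_zero
    have h2 : (N : ℚ) ^ (-(2 * (j : ℤ))) = (-(N : ℚ)) ^ (-(2 * (j : ℤ))) := by
      rw [Even.neg_zpow]
      exact (even_two_mul _).neg
    rw [h2, ← zpow_add₀ negN_ne]
    congr 1
    ring

theorem RForm.ofOne (h : ROne R (2 * (j : ℤ)) φ) :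
    RForm R N j φ ((-(N : R⟦X⟧)) ^ j * expand N hN.out.ne_zero φ) := by
  refine (IsOne.toForm (N := N) h).congr rfl ?_
  rw [map_mul, map_pow, map_neg, map_natCast]
  have e1 : ιR R ((expand N hN.out.ne_zero) φ) = Vop N (ιR R φ) := map_expand' _ _ _
  rw [e1]
  have e2 : (-(N : ℚ⟦X⟧)) ^ j = C ((-(N : ℚ)) ^ j) := by simp
  rw [e2, ← mul_assoc, ← map_mul]
  have e3 : (-(N : ℚ)) ^ (-(j : ℤ)) * (-(N : ℚ)) ^ j = 1 := by
    rw [zpow_neg, zpow_natCast, inv_mul_cancel₀ (pow_ne_zero _ negN_ne)]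
  rw [e3, map_one, one_mul]

/-- trace to level one -/
theorem RForm.trace (h : RForm R N (j + 1) φ ψ) :
    ROne R (2 * ((j : ℤ) + 1)) ((N : R⟦X⟧) ^ j * φ + (-1) ^ (j + 1) * Uop N ψ) := by
  have h1 := (IsForm.trace h).C_mul ((N : ℚ) ^ j)
  refine (h1.cast (by push_cast; ring)).congr ?_
  have hN0 : (N : ℚ) ≠ 0 := Nat.cast_ne_zero.mpr hN.out.ne_zero
  have e1 : ιR R (Uop N ψ) = Uop N (ιR R ψ) := map_Uop _ _
  have e0 : ιR R ((N : R⟦X⟧) ^ j * φ + (-1) ^ (j + 1) * Uop N ψ) =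
      (N : ℚ⟦X⟧) ^ j * ιR R φ + (-1) ^ (j + 1) * Uop N (ιR R ψ) := by
    rw [map_add, map_mul, map_mul, map_pow, map_natCast, map_pow, map_neg, map_one, e1]
  rw [e0]
  have e2 : Uop N (C ((-(N : ℚ)) ^ (-((j + 1 : ℕ) : ℤ))) * ιR R ψ) =
      C ((-(N : ℚ)) ^ (-((j + 1 : ℕ) : ℤ))) * Uop N (ιR R ψ) := by
    rw [← smul_eq_C_mul, map_smul, smul_eq_C_mul]
  rw [e2, mul_add, smul_eq_C_mul]
  congr 1
  · simp
  · rw [← mul_assoc, ← mul_assoc, ← map_mul, ← map_mul]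
    congr 1
    have e3 : ((-1 : ℚ⟦X⟧)) ^ (j + 1) = C ((-1 : ℚ) ^ (j + 1)) := by simp
    rw [e3]
    congr 1
    have e4 : (-(N : ℚ)) ^ (-((j + 1 : ℕ) : ℤ)) = (-1) ^ (j + 1) * ((N : ℚ) ^ (j + 1))⁻¹ := by
      rw [zpow_neg, zpow_natCast, neg_eq_neg_one_mul, mul_pow, mul_inv]
      congr 1
      rw [← inv_pow]
      norm_num
    rw [e4, pow_succ (N : ℚ)]
    field_simp

/-- bracket -/
theorem RForm.bracket (h : RForm R N j φ ψ) (h' : RForm R N l φ' ψ') :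
    RForm R N (j + l + 1) (j * (φ * theta φ') - l * (φ' * theta φ))
      (-(j * (ψ * theta ψ') - l * (ψ' * theta ψ))) := by
  have hN0 : (N : ℚ) ≠ 0 := Nat.cast_ne_zero.mpr hN.out.ne_zero
  have h1 := IsForm.mul h (IsForm.serre h')
  have h2 := IsForm.mul (IsForm.serre h) h'
  have h3 := ((h1.cast (l := 2 * ((j + l + 1 : ℕ) : ℤ)) (by push_cast; ring)).C_mul (j : ℚ)).sub
    ((h2.cast (l := 2 * ((j + l + 1 : ℕ) : ℤ)) (by push_cast; ring)).C_mul (l : ℚ))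
  refine h3.congr ?_ ?_
  · have e1 : ιR R (theta φ) = theta (ιR R φ) := map_theta _ _
    have e2 : ιR R (theta φ') = theta (ιR R φ') := map_theta _ _
    have m1 : ιR R (j : R⟦X⟧) = (j : ℚ⟦X⟧) := map_natCast _ _
    have m2 : ιR R (l : R⟦X⟧) = (l : ℚ⟦X⟧) := map_natCast _ _
    rw [map_sub (ιR R), map_mul (ιR R), map_mul (ιR R), map_mul (ιR R), map_mul (ιR R), m1, m2,
      e1, e2]
    have c1 : (C (((2 * (j : ℤ) : ℤ) : ℚ) / 12)) * 6 = (j : ℚ⟦X⟧) := by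
      rw [show (6 : ℚ⟦X⟧) = C (6 : ℚ) by rw [map_ofNat], ← map_mul]
      push_cast
      rw [show 2 * (j : ℚ) / 12 * 6 = j by ring]
      simp
    have c2 : (C (((2 * (l : ℤ) : ℤ) : ℚ) / 12)) * 6 = (l : ℚ⟦X⟧) := by
      rw [show (6 : ℚ⟦X⟧) = C (6 : ℚ) by rw [map_ofNat], ← map_mul]
      push_cast
      rw [show 2 * (l : ℚ) / 12 * 6 = l by ring]
      simp
    have c3 : (C (j : ℚ) : ℚ⟦X⟧) = j := by simp
    have c4 : (C (l : ℚ) : ℚ⟦X⟧) = l := by simp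
    rw [c3, c4, ← c1, ← c2]
    ring
  · have e1 : ιR R (theta ψ) = theta (ιR R ψ) := map_theta _ _
    have e2 : ιR R (theta ψ') = theta (ιR R ψ') := map_theta _ _
    have m1 : ιR R (j : R⟦X⟧) = (j : ℚ⟦X⟧) := map_natCast _ _
    have m2 : ιR R (l : R⟦X⟧) = (l : ℚ⟦X⟧) := map_natCast _ _
    rw [map_neg (ιR R), map_sub (ιR R), map_mul (ιR R), map_mul (ιR R), map_mul (ιR R),
      map_mul (ιR R), m1, m2, e1, e2, theta_C_mul, theta_C_mul]
    have c1 : (C (((2 * (j : ℤ) : ℤ) : ℚ) / 12)) * 6 = (j : ℚ⟦X⟧) := by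
      rw [show (6 : ℚ⟦X⟧) = C (6 : ℚ) by rw [map_ofNat], ← map_mul]
      push_cast
      rw [show 2 * (j : ℚ) / 12 * 6 = j by ring]
      simp
    have c2 : (C (((2 * (l : ℤ) : ℤ) : ℚ) / 12)) * 6 = (l : ℚ⟦X⟧) := by
      rw [show (6 : ℚ⟦X⟧) = C (6 : ℚ) by rw [map_ofNat], ← map_mul]
      push_cast
      rw [show 2 * (l : ℚ) / 12 * 6 = l by ring]
      simp
    have c3 : (C (j : ℚ) : ℚ⟦X⟧) = j := by simp
    have c4 : (C (l : ℚ) : ℚ⟦X⟧) = l := by simp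
    have c5 : (C ((-(N : ℚ)) ^ (-((j + l + 1 : ℕ) : ℤ)))) =
        -(C ((-(N : ℚ)) ^ (-(j : ℤ))) * C ((-(N : ℚ)) ^ (-(l : ℤ))) * C (1 / (N : ℚ))) := by
      rw [← map_mul, ← map_mul, ← zpow_add₀ negN_ne, ← map_neg]
      congr 1
      have : (-((j + l + 1 : ℕ) : ℤ)) = (-(j : ℤ) + -(l : ℤ)) + (-1) := by push_cast; ring
      rw [this, zpow_add₀ negN_ne, zpow_neg_one]
      field_simp
    rw [c3, c4, c5, ← c1, ← c2]
    ring

/-! ### Level one forms with coefficients in `R` -/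

omit hN

theorem ROne.congr (h : ROne R k φ) (h1 : φ = φ') : ROne R k φ' := h1 ▸ h

theorem ROne.cast {k' : ℤ} (h : ROne R k φ) (h1 : k = k') : ROne R k' φ := h1 ▸ h

theorem ROne.add (h : ROne R k φ) (h' : ROne R k φ') : ROne R k (φ + φ') :=
  (IsOne.add h h').congr (by rw [map_add])

theorem ROne.C_mul (h : ROne R k φ) (c : R) : ROne R k (C c * φ) :=
  (IsOne.C_mul h (c : ℚ)).congr (by rw [map_mul, map_C]; rfl)

theorem ROne.nat_mul (h : ROne R k φ) (c : ℕ) : ROne R k ((c : R⟦X⟧) * φ) := by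
  have : (c : R⟦X⟧) = C (c : R) := by simp
  rw [this]; exact h.C_mul _

theorem ROne.neg (h : ROne R k φ) : ROne R k (-φ) :=
  (IsOne.neg h).congr (by rw [map_neg])

theorem ROne.sub (h : ROne R k φ) (h' : ROne R k φ') : ROne R k (φ - φ') :=
  (IsOne.sub h h').congr (by rw [map_sub])

theorem ROne.mul {k' : ℤ} (h : ROne R k φ) (h' : ROne R k' φ') : ROne R (k + k') (φ * φ') :=
  (IsOne.mul h h').congr (by rw [map_mul])

theorem ROne.pow (h : ROne R k φ) (n : ℕ) : ROne R (n * k) (φ ^ n) :=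
  (IsOne.pow h n).congr (by rw [map_pow])

theorem rOne_e4 : ROne R 4 (e4 R) := isOne_e4.congr (map_e4 _).symm

theorem rOne_e6 : ROne R 6 (e6 R) := isOne_e6.congr (map_e6 _).symm

theorem rOne_delta : ROne R 12 (delta R) := isOne_delta.congr (map_delta _).symm

theorem ROne.eq_zero_of_neg (h : ROne R k φ) (hk : k < 0) : φ = 0 := by
  apply ιR_injective
  rw [map_zero]
  exact IsOne.eq_zero_of_neg h hk

theorem ROne.eq_zero_of_two (h : ROne R 2 φ) : φ = 0 := by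
  apply ιR_injective
  rw [map_zero]
  exact IsOne.eq_zero_of_two h

theorem ROne.eq_C_of_zero (h : ROne R 0 φ) : φ = C (coeff 0 φ) := by
  apply ιR_injective
  rw [map_C]
  have := IsOne.eq_C_of_zero h
  rw [coeff_map] at this
  exact this

theorem ROne.div_delta (h : ROne R k (delta R * ψ)) : ROne R (k - 12) ψ := by
  refine IsOne.div_delta h ?_ ?_
  · rw [coeff_map, coeff_zero_mul', coeff_zero_delta, zero_mul, map_zero]
  · rw [map_mul, map_delta]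

theorem ROne.eq_of_lt {A : R⟦X⟧} (h : ROne R k φ) (hA : ROne R k A) (hA0 : coeff 0 A = 1)
    (hk : k < 12) : φ = C (coeff 0 φ) * A := by
  have h1 := h.sub (hA.C_mul (coeff 0 φ))
  have h2 : coeff 0 (φ - C (coeff 0 φ) * A) = 0 := by
    rw [map_sub, coeff_C_mul, hA0]; ring
  obtain ⟨ψ, hψ⟩ := exists_eq_delta_mul _ h2
  rw [hψ] at h1
  have h3 := h1.div_delta.eq_zero_of_neg (by linarith)
  rw [h3, mul_zero, sub_eq_zero] at hψ
  exact hψ

theorem delta_ne_zero {S : Type*} [CommRing S] [Nontrivial S] : delta S ≠ 0 := by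
  intro h
  have := congrArg (coeff 1) h
  rw [coeff_one_delta, map_zero] at this
  exact one_ne_zero this

end Fermat.Agent.H13
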