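import Fermat.Agent.H13.QExp

set_option autoImplicit false

noncomputable section

open UpperHalfPlane hiding I
open ModularForm CongruenceSubgroup Complex ModularFormClass PowerSeries Derivative Filter
open scoped MatrixGroups Manifold Topology ModularForm Real

namespace Fermat.Agent.H13

local notation "𝕢" => Function.Periodic.qParam

/-- `f` has `q`-expansion `a` (width one) -/
def HasQ (f : ℍ → ℂ) (a : ℂ⟦X⟧) : Prop :=
  ∀ τ : ℍ, HasSum (fun m ↦ coeff m a * 𝕢 1 τ ^ m) (f τ)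

variable {f g : ℍ → ℂ} {a b : ℂ⟦X⟧} {N : ℕ} {k : ℤ}

theorem HasQ.congr (h : HasQ f a) (h1 : f = g) (h2 : a = b) : HasQ g b := by
  subst h1; subst h2; exact h

theorem HasQ.add (hf : HasQ f a) (hg : HasQ g b) : HasQ (f + g) (a + b) := by
  intro τ
  have := (hf τ).add (hg τ)
  simpa [add_mul] using this

theorem HasQ.smul (hf : HasQ f a) (c : ℂ) : HasQ (c • f) (c • a) := by
  intro τ
  have := (hf τ).mul_left c
  simpa [mul_assoc] using this

theorem HasQ.sub (hf : HasQ f a) (hg : HasQ g b) : HasQ (f - g) (a - b) := by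
  intro τ
  have := (hf τ).sub (hg τ)
  simpa [sub_mul] using this

theorem HasQ.mul (hf : HasQ f a) (hg : HasQ g b) : HasQ (f * g) (a * b) := by
  intro τ
  have h1 := (hf τ).summable.norm
  have h2 := (hg τ).summable.norm
  have h3 := (summable_norm_sum_mul_antidiagonal_of_summable_norm h1 h2).of_norm
  have h4 := tsum_mul_tsum_eq_tsum_sum_antidiagonal_of_summable_norm h1 h2
  rw [(hf τ).tsum_eq, (hg τ).tsum_eq] at h4
  rw [Pi.mul_apply, h4]
  have e : (fun m ↦ coeff m (a * b) * 𝕢 1 τ ^ m) = fun n =>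
      ∑ kl ∈ Finset.HasAntidiagonal.antidiagonal n,
        coeff kl.1 a * 𝕢 1 τ ^ kl.1 * (coeff kl.2 b * 𝕢 1 τ ^ kl.2) := by
    funext m
    rw [coeff_mul, Finset.sum_mul]
    refine Finset.sum_congr rfl fun p hp => ?_
    rw [Finset.HasAntidiagonal.mem_antidiagonal] at hp
    rw [← hp, pow_add]
    ring
  rw [e]
  exact h3.hasSum

theorem HasQ.bounded (hf : HasQ f a) : IsBoundedAtImInfty f :=
  isBoundedAtImInfty_of_hasSum_qExpansion (h := 1) (c := fun m => coeff m a) one_pos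
    (by intro τ; simpa using hf τ)

theorem HasQ.D (hf : HasQ f a) : HasQ (D f) (theta a) := by
  intro z
  set y : ℝ := z.im / 2 with hy
  have hypos : 0 < y := by have := z.im_pos; positivity
  let τ₁ : ℍ := ⟨y * I, by simpa using hypos⟩
  let u : ℕ → ℝ := fun m => ‖coeff m a * 𝕢 1 τ₁ ^ m‖
  have hu : Summable u := (hf τ₁).summable.norm
  let U : Set ℂ := {w | y < w.im}
  have hU : IsOpen U := isOpen_lt continuous_const continuous_im
  have hzU : (z : ℂ) ∈ U := by
    change y < (z : ℂ).im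
    have := z.im_pos
    rw [hy]
    change z.im / 2 < z.im
    linarith
  have hder : ∀ (m : ℕ) (w : ℂ), HasDerivAt (fun w : ℂ => coeff m a * 𝕢 1 w ^ m)
      (2 * π * I * (m * coeff m a * 𝕢 1 w ^ m)) w := by
    intro m w
    have hq : HasDerivAt (𝕢 1) (2 * π * I * 𝕢 1 w) w := by
      have h1 : HasDerivAt (fun z : ℂ => 2 * π * I * z / ((1 : ℝ) : ℂ)) (2 * π * I) w := by
        have := (hasDerivAt_id w).const_mul (2 * π * I)
        simpa using this
      have h2 := h1.cexp
      have e : 2 * π * I * 𝕢 1 w = cexp (2 * π * I * w / ((1 : ℝ) : ℂ)) * (2 * π * I) := by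
        unfold Function.Periodic.qParam
        ring
      rw [e]
      exact h2
    have h3 := (hq.fun_pow m).const_mul (coeff m a)
    have e : 2 * π * I * (m * coeff m a * 𝕢 1 w ^ m) =
        coeff m a * (↑m * 𝕢 1 w ^ (m - 1) * (2 * ↑π * I * 𝕢 1 w)) := by
      rcases m with _ | m
      · simp
      · push_cast
        simp only [pow_succ]
        ring
    rw [e]
    exact h3
  have hle : ∀ (m : ℕ) (w : ℂ), w ∈ U → ‖coeff m a * 𝕢 1 w ^ m‖ ≤ u m := by
    intro m w hw
    change ‖coeff m a * 𝕢 1 w ^ m‖ ≤ ‖coeff m a * 𝕢 1 τ₁ ^ m‖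
    rw [norm_mul, norm_pow, norm_mul, norm_pow]
    gcongr
    rw [Function.Periodic.norm_qParam, Function.Periodic.norm_qParam]
    apply Real.exp_le_exp.mpr
    have h1 : (τ₁ : ℂ).im = y := by
      change ((y : ℂ) * I).im = y
      simp
    rw [h1]
    have : y ≤ w.im := le_of_lt hw
    have hpi := Real.pi_pos
    rw [div_one, div_one]
    nlinarith
  have hmain := hasSum_deriv_of_summable_norm (F := fun (m : ℕ) (w : ℂ) => coeff m a * 𝕢 1 w ^ m)
    (U := U) (z := (z : ℂ)) hu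
    (fun m w _ => (hder m w).differentiableAt.differentiableWithinAt) hU hle hzU
  have hev : (fun w : ℂ => ∑' m : ℕ, coeff m a * 𝕢 1 w ^ m) =ᶠ[𝓝 (z : ℂ)] (f ∘ ofComplex) := by
    filter_upwards [isOpen_upperHalfPlaneSet.mem_nhds z.im_pos] with w hw
    simp only [Function.comp_apply]
    rw [ofComplex_apply_of_im_pos hw]
    exact (hf ⟨w, hw⟩).tsum_eq
  rw [hev.deriv_eq] at hmain
  have h5 := hmain.mul_left (2 * π * I)⁻¹
  unfold normalizedDerivOfComplex
  have e : (fun m ↦ coeff m (theta a) * 𝕢 1 z ^ m) =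
      fun m : ℕ => (2 * π * I)⁻¹ * deriv (fun w : ℂ => coeff m a * 𝕢 1 w ^ m) z := by
    funext m
    rw [(hder m z).deriv, coeff_theta]
    have : (2 * π * I : ℂ) ≠ 0 := two_pi_I_ne_zero
    field_simp
  rw [e]
  exact h5

theorem HasQ.diag [hN : Fact N.Prime] (hf : HasQ f a) :
    HasQ (fun τ => f (heckeDiagMatrix N • τ : ℍ)) (expand N hN.out.ne_zero a) := by
  intro τ
  have h0 := hN.out.ne_zero
  have h1 := hf (heckeDiagMatrix N • τ : ℍ)
  rw [P2MW.S_UpperHalfPlane_qCoeff_heckeT.M4cP1W2.qParam_heckeDiagMatrix_smul h0 τ] at h1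
  have hinj : Function.Injective (fun l : ℕ ↦ N * l) := mul_right_injective₀ h0
  refine (hinj.hasSum_iff ?_).mp ?_
  · intro m hm
    rw [coeff_expand_of_not_dvd, zero_mul]
    rintro ⟨l, rfl⟩
    exact hm ⟨l, rfl⟩
  · convert h1 using 1
    ext m
    simp only [Function.comp_apply, coeff_expand_mul]
    rw [pow_mul]

theorem hasQ_gen {Γ : Subgroup (GL (Fin 2) ℝ)} (hΓ : (1 : ℝ) ∈ Γ.strictPeriods)
    (F : ModularForm Γ k) : HasQ F (qExpansion 1 F) := fun τ => hasSum_gen hΓ F τ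

theorem hasQ_form (F : ModularForm (Gamma0 N) k) : HasQ F (qExpansion 1 F) :=
  hasQ_gen (one_mem_strictPeriods_Gamma0 N) F

theorem hasQ_one (F : ModularForm 𝒮ℒ k) : HasQ F (qExpansion 1 F) :=
  hasQ_gen one_mem_strictPeriods_SL F

theorem qExpansion_eq_of_hasQ_form (F : ModularForm (Gamma0 N) k) (h : HasQ F a) :
    qExpansion 1 F = a :=
  qExpansion_eq_of_hasSum_gen (one_mem_strictPeriods_Gamma0 N) F a h

theorem qExpansion_eq_of_hasQ_one (F : ModularForm 𝒮ℒ k) (h : HasQ F a) :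
    qExpansion 1 F = a :=
  qExpansion_eq_of_hasSum_gen one_mem_strictPeriods_SL F a h

end Fermat.Agent.H13
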