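import Fermat.Agent.H13.Half

set_option autoImplicit false

noncomputable section

open PowerSeries

namespace Fermat.Agent.H13

/-- `ℤ` localised at the prime `q`, inside `ℚ`. -/
def Zl (q : ℕ) [hq : Fact q.Prime] : Subring ℚ where
  carrier := {x | ∃ (a : ℤ) (b : ℕ), ¬ q ∣ b ∧ x * b = a}
  mul_mem' := by
    rintro x y ⟨a, b, hb, h⟩ ⟨a', b', hb', h'⟩
    refine ⟨a * a', b * b', ?_, ?_⟩
    · rw [hq.out.dvd_mul]; tauto
    · push_cast; rw [← h, ← h']; ring
  one_mem' := ⟨1, 1, fun h => hq.out.one_lt.ne' (Nat.dvd_one.mp h), by norm_num⟩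
  add_mem' := by
    rintro x y ⟨a, b, hb, h⟩ ⟨a', b', hb', h'⟩
    refine ⟨a * b' + a' * b, b * b', ?_, ?_⟩
    · rw [hq.out.dvd_mul]; tauto
    · push_cast; rw [← h, ← h']; ring
  zero_mem' := ⟨0, 1, fun h => hq.out.one_lt.ne' (Nat.dvd_one.mp h), by norm_num⟩
  neg_mem' := by
    rintro x ⟨a, b, hb, h⟩
    exact ⟨-a, b, hb, by push_cast; rw [← h]; ring⟩

variable {q : ℕ} [hq : Fact q.Prime]

theorem Zl.exists_inv (m : ℕ) (hm : ¬ q ∣ m) : ∃ u : Zl q, u * (m : Zl q) = 1 := by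
  have hm0 : (m : ℚ) ≠ 0 := by
    rintro h
    have : m = 0 := by exact_mod_cast h
    exact hm (this ▸ dvd_zero q)
  refine ⟨⟨(m : ℚ)⁻¹, 1, m, hm, ?_⟩, ?_⟩
  · push_cast; exact inv_mul_cancel₀ hm0
  · apply Subtype.ext
    push_cast
    exact inv_mul_cancel₀ hm0

theorem Zl.dvd_of_dvd {m : ℤ} {v : ℕ} (h : ((q ^ v : ℕ) : Zl q) ∣ (m : Zl q)) :
    ((q ^ v : ℕ) : ℤ) ∣ m := by
  obtain ⟨⟨x, a, b, hb, hx⟩, h⟩ := h
  have h1 : (m : ℚ) = (q ^ v : ℕ) * x := by
    have := congrArg (Subtype.val) h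
    simpa using this
  have h2 : (m * b : ℤ) = (q ^ v : ℕ) * a := by
    have : ((m * b : ℤ) : ℚ) = (((q ^ v : ℕ) * a : ℤ) : ℚ) := by
      push_cast
      rw [← hx, h1]; push_cast; ring
    exact_mod_cast this
  have h3 : IsCoprime ((q ^ v : ℕ) : ℤ) (b : ℤ) := by
    rw [Nat.isCoprime_iff_coprime]
    exact Nat.Coprime.pow_left _ ((Nat.Prime.coprime_iff_not_dvd hq.out).mpr hb)
  exact h3.dvd_of_dvd_mul_right (Dvd.intro _ h2.symm)

theorem Zl.dvd_of_dvd_nat {m : ℕ} {v : ℕ} (h : ((q ^ v : ℕ) : Zl q) ∣ (m : Zl q)) :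
    q ^ v ∣ m := by
  have := Zl.dvd_of_dvd (q := q) (m := m) (v := v) (by simpa using h)
  exact_mod_cast this

section sturm
variable {R : Subring ℚ} {φ ψ χ : R⟦X⟧} {k : ℤ} {lam : R}

theorem dvd_mul_upTo {S : Type*} [CommRing S] {lam : S} {B : ℕ} {φ : S⟦X⟧}
    (h : ∀ n < B, lam ∣ coeff n φ) (χ : S⟦X⟧) : ∀ n < B, lam ∣ coeff n (χ * φ) := by
  intro n hn
  rw [coeff_mul]
  refine Finset.dvd_sum fun p hp => ?_
  rw [Finset.HasAntidiagonal.mem_antidiagonal] at hp
  exact Dvd.dvd.mul_left (h _ (by omega)) _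

theorem exists_monomial (m : ℕ) (hm : 2 ≤ m) : ∃ A : R⟦X⟧, ROne R (2 * m) A ∧ coeff 0 A = 1 := by
  obtain ⟨a, b, hab⟩ : ∃ a b : ℕ, 2 * a + 3 * b = m := by
    rcases Nat.even_or_odd' m with ⟨c, hc | hc⟩
    · exact ⟨c, 0, by omega⟩
    · exact ⟨c - 1, 1, by omega⟩
  refine ⟨e4 R ^ a * e6 R ^ b, ?_, ?_⟩
  · refine ((rOne_e4.pow a).mul (rOne_e6.pow b)).cast ?_
    rw [← hab]; push_cast; ring
  · rw [coeff_zero_mul', coeff_zero_pow', coeff_zero_pow', coeff_zero_e4, coeff_zero_e6]; simp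

/-- Sturm bound modulo `lam` -/
theorem sturm (B : ℕ) : ∀ (m : ℤ) (φ : R⟦X⟧), m < 6 * B → ROne R (2 * m) φ →
    (∀ n < B, lam ∣ coeff n φ) → ∀ n, lam ∣ coeff n φ := by
  induction B with
  | zero =>
    intro m φ hm h _ n
    rw [h.eq_zero_of_neg (by push_cast at hm; linarith), map_zero]
    exact dvd_zero _
  | succ B ih =>
    intro m φ hm h hφ
    rcases lt_trichotomy m 1 with h1 | rfl | h1
    · rcases lt_or_eq_of_le (show m ≤ 0 by omega) with h0 | rfl
      · intro n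
        rw [h.eq_zero_of_neg (by linarith), map_zero]
        exact dvd_zero _
      · intro n
        have h2 : ROne R 0 φ := h.cast (by norm_num)
        rw [h2.eq_C_of_zero, coeff_C]
        split_ifs
        · exact hφ 0 (by omega)
        · exact dvd_zero _
    · intro n
      rw [ROne.eq_zero_of_two (h.cast (by norm_num)), map_zero]
      exact dvd_zero _
    · obtain ⟨m', rfl⟩ : ∃ m' : ℕ, m = m' := ⟨m.toNat, by omega⟩
      obtain ⟨A, hA, hA0⟩ := exists_monomial (R := R) m' (by omega)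
      have h2 := h.sub (hA.C_mul (coeff 0 φ))
      have h3 : coeff 0 (φ - C (coeff 0 φ) * A) = 0 := by
        rw [map_sub, coeff_C_mul, hA0]; ring
      have hd : ∀ n, lam ∣ coeff n (C (coeff 0 φ) * A) := by
        intro n
        rw [coeff_C_mul]
        exact Dvd.dvd.mul_right (hφ 0 (by omega)) _
      obtain ⟨u, v, hu, huv⟩ := exists_delta_unit (R := R)
      obtain ⟨χ, hχ⟩ := (X_dvd_iff (φ := φ - C (coeff 0 φ) * A)).mpr (by
        rw [← coeff_zero_eq_constantCoeff_apply]; exact h3)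
      have h4 : φ - C (coeff 0 φ) * A = delta R * (v * χ) := by
        rw [hu, hχ]
        linear_combination (-X * χ) * huv
      rw [h4] at h2
      have h5 := h2.div_delta
      have h6 : ∀ n < B, lam ∣ coeff n χ := by
        intro n hn
        have h7 : coeff n χ = coeff (n + 1) (φ - C (coeff 0 φ) * A) := by
          rw [hχ, coeff_succ_X_mul]
        rw [h7, map_sub]
        exact dvd_sub (hφ _ (by omega)) (hd _)
      have h8 := ih (m' - 6) (v * χ) (by push_cast at hm ⊢; linarith)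
        (h5.cast (by ring)) (dvd_mul_upTo h6 v)
      intro n
      have h9 : φ = delta R * (v * χ) + C (coeff 0 φ) * A := by rw [← h4]; ring
      rw [h9, map_add]
      refine dvd_add ?_ (hd n)
      exact dvd_mul_upTo (B := n + 1) (fun i _ => h8 i) _ n (by omega)

end sturm

end Fermat.Agent.H13
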