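import Fermat.Agent.H13.B45

set_option autoImplicit false

noncomputable section

open UpperHalfPlane hiding I
open ModularForm CongruenceSubgroup Complex ModularFormClass PowerSeries
open scoped MatrixGroups Manifold Topology ModularForm

namespace Fermat.Agent.H13

/-- `σ_N(k) = ∑_{d ∣ k, N ∤ d} d`. -/
def sigN (N k : ℕ) : ℕ := ∑ d ∈ k.divisors with ¬ N ∣ d, d

theorem sigma_eq_sigN {N : ℕ} (hN : N ≠ 0) (k : ℕ) :
    ArithmeticFunction.sigma 1 k = sigN N k +
      (if N ∣ k then N * ArithmeticFunction.sigma 1 (k / N) else 0) := by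
  rw [ArithmeticFunction.sigma_one_apply, sigN,
    ← Finset.sum_filter_add_sum_filter_not _ (fun d => ¬ N ∣ d)]
  congr 1
  simp only [not_not]
  split_ifs with h
  · rw [ArithmeticFunction.sigma_one_apply, Finset.mul_sum]
    obtain ⟨m, rfl⟩ := h
    rw [Nat.mul_div_cancel_left _ (Nat.pos_of_ne_zero hN)]
    rcases eq_or_ne m 0 with rfl | hm
    · simp
    symm
    refine Finset.sum_bij (fun d _ => N * d) ?_ ?_ ?_ ?_
    · intro d hd
      rw [Nat.mem_divisors] at hd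
      rw [Finset.mem_filter, Nat.mem_divisors]
      exact ⟨⟨Nat.mul_dvd_mul_left _ hd.1, Nat.mul_ne_zero hN hm⟩, dvd_mul_right _ _⟩
    · intro a _ b _ hab
      exact Nat.eq_of_mul_eq_mul_left (Nat.pos_of_ne_zero hN) hab
    · intro b hb
      rw [Finset.mem_filter, Nat.mem_divisors] at hb
      obtain ⟨⟨h1, _⟩, c, rfl⟩ := hb
      exact ⟨c, Nat.mem_divisors.mpr ⟨Nat.dvd_of_mul_dvd_mul_left (Nat.pos_of_ne_zero hN) h1, hm⟩, rfl⟩
    · intro d _; rfl
  · apply Finset.sum_eq_zero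
    intro d hd
    rw [Finset.mem_filter, Nat.mem_divisors] at hd
    exact absurd (hd.2.trans hd.1.1) h

/-- `(N-1) + 24 ∑ σ_N(k) q^k`, integral -/
def eisZ (N : ℕ) : ℤ⟦X⟧ := PowerSeries.mk fun k => if k = 0 then (N : ℤ) - 1 else 24 * (sigN N k : ℤ)

variable {N : ℕ} [hN : Fact N.Prime]

theorem qExpansion_eisForm' : qExpansion 1 (eisForm N) = qc ((eisZ N).map (Int.castRingHom ℚ)) := by
  have hN0 := hN.out.ne_zero
  rw [qExpansion_eisForm]
  ext k
  rw [map_sub, coeff_C_mul, coeff_expand, coeff_qc, coeff_map, eisZ, coeff_mk]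
  have h2 : ∀ j, coeff j (H13.e2 ℂ) = if j = 0 then 1 else -24 * (ArithmeticFunction.sigma 1 j : ℂ) := by
    intro j
    rw [H13.e2, map_sub, coeff_ofNat_mul, coeff_sser, coeff_one]
    split_ifs with h
    · subst h; simp
    · simp
  rw [h2 k]
  rcases eq_or_ne k 0 with rfl | hk
  · simp [h2]
  · rw [if_neg hk, if_neg hk]
    have h3 := sigma_eq_sigN hN0 k
    split_ifs with hd
    · rw [if_pos hd] at h3
      have hk' : k / N ≠ 0 := by
        rw [Nat.div_ne_zero_iff]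
        exact ⟨hN0, Nat.le_of_dvd (Nat.pos_of_ne_zero hk) hd⟩
      rw [h2, if_neg hk', h3, eq_intCast]
      push_cast
      ring
    · rw [if_neg hd, add_zero] at h3
      have h4 : ((Int.castRingHom ℚ) (24 * (sigN N k : ℤ)) : ℚ) = 24 * (sigN N k : ℚ) := by simp
      rw [h3, h4]
      push_cast
      ring

theorem isForm_two (F : ModularForm (Gamma0 N) 2) (φ : ℚ⟦X⟧) (h : qExpansion 1 F = qc φ) :
    IsForm N 2 φ (PowerSeries.C (-(1 / (N : ℚ))) * Uop N φ) := by
  refine ⟨F, h, ?_⟩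
  rw [qExpansion_wForm_two, h, map_mul, map_C, map_Uop]
  simp

variable {q : ℕ} [hq : Fact q.Prime]

theorem rForm_of_int (P : ℤ⟦X⟧) (F : ModularForm (Gamma0 N) 2)
    (h : qExpansion 1 F = qc (P.map (Int.castRingHom ℚ))) :
    RForm (Zl q) N 1 (P.map (Int.castRingHom (Zl q))) (Uop N (P.map (Int.castRingHom (Zl q)))) := by
  have hN0 : (N : ℚ) ≠ 0 := Nat.cast_ne_zero.mpr hN.out.ne_zero
  have e : ιR (Zl q) (P.map (Int.castRingHom (Zl q))) = P.map (Int.castRingHom ℚ) := by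
    ext n
    simp
  refine ((isForm_two F _ h).cast (by norm_num)).congr e.symm ?_
  have e1 : ιR (Zl q) (Uop N (P.map (Int.castRingHom (Zl q)))) =
      Uop N (P.map (Int.castRingHom ℚ)) := by
    rw [← e]; exact map_Uop _ _
  rw [e1]
  congr 2
  rw [zpow_neg, Nat.cast_one, zpow_one, inv_neg, one_div]

theorem getG (f : ModularForm (Gamma0 N) 2) (a : ℕ → ℤ)
    (ha0 : a 0 = 0) (ha : ∀ k, (qExpansion 1 f).coeff k = a k) (v w : ℕ)
    (hcong : ∀ k, 1 ≤ k → ((q ^ v : ℕ) : ℤ) ∣ sigN N k - a k)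
    {s t m r : ℕ} (hm : N - 1 = q ^ s * m) (hqm : ¬ q ∣ m) (hr : 24 = q ^ t * r)
    (hw : s + w ≤ t + v) :
    ∃ X₁ X₂ : (Zl q)⟦X⟧, RForm (Zl q) N 1 (1 + ((q ^ w : ℕ) : (Zl q)⟦X⟧) * X₁)
      (1 + ((q ^ w : ℕ) : (Zl q)⟦X⟧) * X₂) := by
  choose D' hD' using fun k : ℕ => fun hk : 1 ≤ k => hcong k hk
  let D : ℤ⟦X⟧ := PowerSeries.mk fun k => if h : 1 ≤ k then D' k h else 0
  have hN2 := hN.out.two_le
  -- the modular form
  let F : ModularForm (Gamma0 N) 2 := eisForm N - (24 : ℂ) • f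
  have hF : qExpansion 1 F = qc ((((N : ℤ⟦X⟧) - 1) + (24 * q ^ v : ℕ) * D).map (Int.castRingHom ℚ)) := by
    have e1 : (⇑F : ℍ → ℂ) = ⇑(eisForm N) - ⇑((24 : ℂ) • f) := rfl
    have e2 : qExpansion 1 F = qExpansion 1 (eisForm N) - (24 : ℂ) • qExpansion 1 f := by
      rw [e1, ModularForm.qExpansion_sub one_pos (one_mem_strictPeriods_Gamma0 N),
        FunLike.coe_smul, ModularForm.qExpansion_smul one_pos (one_mem_strictPeriods_Gamma0 N)]
    rw [e2, qExpansion_eisForm']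
    ext k
    rw [map_sub, coeff_smul, ha, coeff_qc, coeff_qc, coeff_map, coeff_map, eisZ, coeff_mk]
    rcases Nat.eq_zero_or_pos k with rfl | hk'
    · rw [map_add, coeff_natCast_mul, coeff_mk]
      have : coeff 0 ((N : ℤ⟦X⟧) - 1) = (N : ℤ) - 1 := by
        rw [map_sub, coeff_zero_eq_constantCoeff]; simp
      rw [this, ha0]
      simp
    · have hk : 1 ≤ k := hk'
      rw [map_add, coeff_natCast_mul, coeff_mk, dif_pos hk, if_neg (by omega)]
      have : coeff k ((N : ℤ⟦X⟧) - 1) = 0 := by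
        rw [map_sub, coeff_natCast_of_pos _ _ (by omega), coeff_one, if_neg (by omega)]; simp
      rw [this]
      have h3 : ((24 * q ^ v : ℕ) : ℤ) * D' k hk = 24 * ((sigN N k : ℤ) - a k) := by
        rw [hD' k hk]; push_cast; ring
      rw [h3, eq_intCast, eq_intCast]
      push_cast
      simp only [smul_eq_mul]
      ring
  have hR := rForm_of_int (q := q) _ F hF
  obtain ⟨u, hu⟩ := Zl.exists_inv (q := q) m hqm
  let Y : (Zl q)⟦X⟧ := PowerSeries.C u * (((r * q ^ (t + v - s - w) : ℕ) : (Zl q)⟦X⟧) *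
    D.map (Int.castRingHom (Zl q)))
  have hN1 : ((N - 1 : ℕ) : (Zl q)⟦X⟧) = (N : (Zl q)⟦X⟧) - 1 := by
    push_cast [Nat.cast_sub (by omega : 1 ≤ N)]; ring
  have hU : (PowerSeries.C u : (Zl q)⟦X⟧) * (m : (Zl q)⟦X⟧) = 1 := by
    have := congrArg (PowerSeries.C (R := Zl q)) hu
    rwa [map_mul, map_natCast, map_one] at this
  have key : ((24 * q ^ v : ℕ) : (Zl q)⟦X⟧) = ((N - 1 : ℕ) : (Zl q)⟦X⟧) * ((q ^ w : ℕ) : (Zl q)⟦X⟧) *
      (PowerSeries.C u * ((r * q ^ (t + v - s - w) : ℕ) : (Zl q)⟦X⟧)) := by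
    rw [hm]
    have h24 : 24 * q ^ v = q ^ s * q ^ w * (r * q ^ (t + v - s - w)) := by
      have : t + v = s + w + (t + v - s - w) := by omega
      calc 24 * q ^ v = r * q ^ (t + v) := by rw [hr, pow_add]; ring
        _ = _ := by rw [this, pow_add, pow_add]; rw [← this]; ring
    rw [h24]
    push_cast
    linear_combination (-(q : (Zl q)⟦X⟧) ^ s * (q : (Zl q)⟦X⟧) ^ w * ((r : (Zl q)⟦X⟧) * (q : (Zl q)⟦X⟧) ^ (t + v - s - w))) * hU
  refine ⟨Y, Uop N Y, ?_⟩
  have hNne : N - 1 ≠ 0 := by omega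
  refine RForm.of_nat_mul (N - 1) hNne (hR.congr ?_ ?_)
  · rw [map_add, map_sub, map_mul, map_natCast, map_natCast, map_one, key, hN1]
    simp only [Y]
    ring
  · have e1 : Uop N (PowerSeries.map (Int.castRingHom (Zl q)) ((((N : ℤ⟦X⟧) - 1) + (24 * q ^ v : ℕ) * D))) =
        ((N - 1 : ℕ) : (Zl q)⟦X⟧) + ((24 * q ^ v : ℕ) : (Zl q)⟦X⟧) *
          Uop N (D.map (Int.castRingHom (Zl q))) := by
      have h1 : PowerSeries.map (Int.castRingHom (Zl q)) ((((N : ℤ⟦X⟧) - 1) + (24 * q ^ v : ℕ) * D)) =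
        PowerSeries.C ((N - 1 : ℕ) : Zl q) + ((24 * q ^ v : ℕ) : (Zl q)⟦X⟧) *
          (D.map (Int.castRingHom (Zl q))) := by
        rw [map_add, map_sub, map_mul, map_natCast, map_natCast, map_one, map_natCast, hN1]
      rw [h1, map_add, Uop_natCast_mul, Uop_C hN.out.ne_zero, map_natCast]
    have e2 : Uop N Y = PowerSeries.C u * (((r * q ^ (t + v - s - w) : ℕ) : (Zl q)⟦X⟧) *
        Uop N (D.map (Int.castRingHom (Zl q)))) := by
      simp only [Y]
      rw [← smul_eq_C_mul, map_smul, smul_eq_C_mul, Uop_natCast_mul]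
    rw [e1, e2, key]
    ring


theorem nval_bound {q n g : ℕ} (hq : q.Prime) {v s m s' m' : ℕ} (hn : n = q ^ s * m)
    (hg : g = q ^ s' * m') (hm : ¬ q ∣ m') (h : ¬ q ^ v ∣ n / g) (hgn : g ∣ n) : s < s' + v := by
  by_contra hlt
  apply h
  have hg0 : 0 < g := by
    rcases Nat.eq_zero_or_pos g with h0 | h0
    · exfalso
      apply hm
      have : m' = 0 := by
        rw [h0] at hg
        rcases Nat.mul_eq_zero.mp hg.symm with h1 | h1
        · exact absurd h1 (pow_ne_zero _ hq.ne_zero)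
        · exact h1
      rw [this]; exact dvd_zero _
    · exact h0
  obtain ⟨c, hc⟩ := hgn
  rw [hc, Nat.mul_div_cancel_left _ hg0]
  have h1 : q ^ (s' + v) ∣ q ^ s' * m' * c := by
    rw [← hg, ← hc, hn]
    exact dvd_mul_of_dvd_left (pow_dvd_pow q (by omega)) _
  rw [pow_add, mul_assoc] at h1
  have h2 := Nat.dvd_of_mul_dvd_mul_left (pow_pos hq.pos s') h1
  exact (Nat.Coprime.pow_left v ((Nat.Prime.coprime_iff_not_dvd hq).mpr hm)).dvd_of_dvd_mul_left h2

theorem partB (f : ModularForm (Gamma0 N) 2) (a : ℕ → ℤ)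
    (ha0 : a 0 = 0) (ha : ∀ k, (qExpansion 1 f).coeff k = a k) (v : ℕ) (hv : 1 ≤ v)
    (hcong : ∀ k, 1 ≤ k → ((q ^ v : ℕ) : ℤ) ∣ sigN N k - a k) :
    q ^ v ∣ (N - 1) / Nat.gcd (N - 1) 12 := by
  by_contra hcon
  have hN2 := hN.out.two_le
  obtain ⟨s, m, hqm, hm⟩ := Nat.exists_eq_pow_mul_and_not_dvd (n := N - 1) (by omega) q hq.out.ne_one
  have hgd : Nat.gcd (N - 1) 12 ∣ N - 1 := Nat.gcd_dvd_left _ _
  have hg12 : Nat.gcd (N - 1) 12 ∣ 12 := Nat.gcd_dvd_right _ _
  have hgne : Nat.gcd (N - 1) 12 ≠ 0 := by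
    intro h; rw [h] at hg12; norm_num at hg12
  obtain ⟨s', m', hqm', hm'⟩ := Nat.exists_eq_pow_mul_and_not_dvd hgne q hq.out.ne_one
  have hlt := nval_bound hq.out hm hm' hqm' hcon hgd
  have hs'1 : q ^ s' ∣ 12 := dvd_trans (hm' ▸ dvd_mul_right _ _) hg12
  have hs'2 : q ^ s' ∣ N - 1 := dvd_trans (hm' ▸ dvd_mul_right _ _) hgd
  have hs's : s' ≤ s := by
    rw [hm] at hs'2
    by_contra hlt
    have h1 : q ^ (s + 1) ∣ q ^ s * m := dvd_trans (pow_dvd_pow q (by omega)) hs'2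
    rw [pow_succ] at h1
    exact hqm (Nat.dvd_of_mul_dvd_mul_left (pow_pos hq.out.pos s) h1)
  have hdvdN : ∀ j, j ≤ s → q ^ j ∣ N - 1 := fun j hj => by
    rw [hm]; exact dvd_mul_of_dvd_left (pow_dvd_pow q hj) _
  have hndvdN : ¬ q ^ (s + 1) ∣ N - 1 := by
    rw [hm, pow_succ]
    intro h
    exact hqm (Nat.dvd_of_mul_dvd_mul_left (pow_pos hq.out.pos s) h)
  have hq2 := hq.out.two_le
  have hcases : q = 2 ∨ q = 3 ∨ 5 ≤ q := by
    rcases (show q = 2 ∨ q = 3 ∨ q = 4 ∨ 5 ≤ q by omega) with h | h | h | h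
    · exact Or.inl h
    · exact Or.inr (Or.inl h)
    · exfalso; have := hq.out; rw [h] at this; revert this; decide
    · exact Or.inr (Or.inr h)
  rcases hcases with h2 | h3 | h5
  · -- q = 2
    have hs'3 : s' ≤ 2 := by
      by_contra h
      have : q ^ 3 ∣ 12 := dvd_trans (pow_dvd_pow q (by omega)) hs'1
      rw [h2] at this
      norm_num at this
    have h24 : 24 = q ^ 3 * 3 := by rw [h2]; norm_num
    rcases (show s = 0 ∨ s = 1 ∨ 2 ≤ s by omega) with h0 | h1 | h2'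
    · -- N = 2
      obtain ⟨X₁, X₂, hG⟩ := getG (q := q) f a ha0 ha v 4 hcong hm hqm h24 (by omega)
      have hNe : N = 2 := by
        rw [h0, h2] at hndvdN
        have : N % 2 = 0 := by omega
        rcases hN.out.eq_two_or_odd with h | h
        · exact h
        · omega
      exact B2_two (by rw [h2, hNe]) h2 hG
    · obtain ⟨X₁, X₂, hG⟩ := getG (q := q) f a ha0 ha v 3 hcong hm hqm h24 (by omega)
      have hd := hdvdN 1 (by omega)
      rw [h1] at hndvdN
      rw [h2] at hd hndvdN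
      rcases (show N % 8 = 3 ∨ N % 8 = 7 by omega) with h | h
      · have hb := B3 (by rintro rfl; omega) (by rw [h2]; norm_num) hG
        rw [h2] at hb
        have : (N ^ 3 + 1) % 8 = 4 := by
          rw [Nat.add_mod, Nat.pow_mod, h]
        omega
      · exact B5 h2 h hG
    · obtain ⟨X₁, X₂, hG⟩ := getG (q := q) f a ha0 ha v 2 hcong hm hqm h24 (by omega)
      have hd := hdvdN 2 h2'
      rw [h2] at hd
      have hN4 : N % 4 = 1 := by omega
      have hb := B3 (by rintro rfl; omega) (by rw [h2]; norm_num) hG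
      rw [h2] at hb
      have : (N ^ 3 + 1) % 4 = 2 := by
        rw [Nat.add_mod, Nat.pow_mod, hN4]
      omega
  · -- q = 3
    have hs'3 : s' ≤ 1 := by
      by_contra h
      have : q ^ 2 ∣ 12 := dvd_trans (pow_dvd_pow q (by omega)) hs'1
      rw [h3] at this
      norm_num at this
    have h24 : 24 = q ^ 1 * 8 := by rw [h3]; norm_num
    rcases Nat.eq_zero_or_pos s with h0 | h1
    · obtain ⟨X₁, X₂, hG⟩ := getG (q := q) f a ha0 ha v 2 hcong hm hqm h24 (by omega)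
      rw [h0, h3] at hndvdN
      rcases (show N % 3 = 0 ∨ N % 3 = 2 by omega) with h | h
      · have hNe : N = 3 := ((Nat.prime_dvd_prime_iff_eq Nat.prime_three hN.out).mp
          (Nat.dvd_of_mod_eq_zero h)).symm
        exact B2_three (by rw [h3, hNe]) h3 hG
      · exact B4 h3 h hG
    · obtain ⟨X₁, X₂, hG⟩ := getG (q := q) f a ha0 ha v 1 hcong hm hqm h24 (by omega)
      have hd := hdvdN 1 h1
      rw [h3] at hd
      have hN3 : N % 3 = 1 := by omega
      have hb := B3 (by rintro rfl; omega) (by rw [h3]; norm_num) hG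
      rw [h3] at hb
      have : (N ^ 3 + 1) % 3 = 2 := by
        rw [Nat.add_mod, Nat.pow_mod, hN3]
      omega
  · -- q ≥ 5
    have hs'0 : s' = 0 := by
      by_contra h
      have h1 : q ∣ 12 := dvd_trans (dvd_pow_self q h) hs'1
      have h2 : q ≤ 12 := Nat.le_of_dvd (by norm_num) h1
      have h3 := hq.out
      have : q = 5 ∨ q = 6 ∨ q = 7 ∨ q = 8 ∨ q = 9 ∨ q = 10 ∨ q = 11 ∨ q = 12 := by omega
      rcases this with h | h | h | h | h | h | h | h <;> rw [h] at h1 h3 <;>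
        revert h1 h3 <;> decide
    have h24 : 24 = q ^ 0 * 24 := by norm_num
    obtain ⟨X₁, X₂, hG⟩ := getG (q := q) f a ha0 ha v 1 hcong hm hqm h24 (by omega)
    by_cases hqN : q = N
    · exact B2_ge hqN h5 hG
    · exact B1 hqN h5 hG

end Fermat.Agent.H13
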