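import Fermat.Agent.H13.Trace
import Fermat.Agent.H13.Formal

set_option autoImplicit false

noncomputable section

open UpperHalfPlane hiding I
open ModularForm CongruenceSubgroup Complex ModularFormClass PowerSeries
open scoped MatrixGroups Manifold Topology ModularForm

namespace Fermat.Agent.H13

/-- coefficient embedding `ℚ⟦X⟧ → ℂ⟦X⟧` -/
abbrev qc : ℚ⟦X⟧ →+* ℂ⟦X⟧ := PowerSeries.map (algebraMap ℚ ℂ)

theorem qc_injective : Function.Injective qc := by
  intro a b h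
  ext n
  have := congrArg (coeff n) h
  simpa using this

theorem coeff_qc (a : ℚ⟦X⟧) (n : ℕ) : coeff n (qc a) = ((coeff n a : ℚ) : ℂ) := by
  simp [qc]

theorem qc_smul (c : ℚ) (a : ℚ⟦X⟧) : qc (c • a) = (c : ℂ) • qc a := by
  ext n; simp [qc]

section defs

variable (N : ℕ) [Fact N.Prime]

/-- `(φ, ψ)` are the `q`-expansions of `(F, F⁰)` for a modular form `F` of weight `k` on `Γ₀(N)`. -/
def IsForm (k : ℤ) (φ ψ : ℚ⟦X⟧) : Prop :=
  ∃ F : ModularForm (Gamma0 N) k, qExpansion 1 F = qc φ ∧ qExpansion 1 (wForm F) = qc ψ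

end defs

/-- `φ` is the `q`-expansion of a level one modular form of weight `k`. -/
def IsOne (k : ℤ) (φ : ℚ⟦X⟧) : Prop :=
  ∃ A : ModularForm 𝒮ℒ k, qExpansion 1 A = qc φ

variable {N : ℕ} [hN : Fact N.Prime] {k l : ℤ} {φ ψ φ' ψ' : ℚ⟦X⟧}

theorem N_ne_zero : N ≠ 0 := hN.out.ne_zero

/-- the substitution `q ↦ q^N` -/
abbrev Vop (N : ℕ) [hN : Fact N.Prime] : ℚ⟦X⟧ →ₐ[ℚ] ℚ⟦X⟧ := expand N hN.out.ne_zero

omit hN in
theorem qExpansion_eq_of_hasSum_gen {Γ : Subgroup (GL (Fin 2) ℝ)} (hΓ : (1 : ℝ) ∈ Γ.strictPeriods)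
    (F : ModularForm Γ k) (a : ℂ⟦X⟧)
    (h : ∀ τ : ℍ, HasSum (fun m ↦ coeff m a * Function.Periodic.qParam 1 τ ^ m) (F τ)) :
    qExpansion 1 F = a := by
  ext n
  exact (ModularFormClass.qExpansion_coeff_unique (f := F) (c := fun m => coeff m a)
    one_pos hΓ (by simpa using h) n).symm

omit hN in
theorem hasSum_gen {Γ : Subgroup (GL (Fin 2) ℝ)} (hΓ : (1 : ℝ) ∈ Γ.strictPeriods)
    (F : ModularForm Γ k) (τ : ℍ) :
    HasSum (fun m ↦ coeff m (qExpansion 1 F) * Function.Periodic.qParam 1 τ ^ m) (F τ) := by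
  have : Fact (IsCusp OnePoint.infty Γ) := ⟨Subgroup.isCusp_of_mem_strictPeriods one_pos hΓ⟩
  simpa using ModularForm.hasSum_qExpansion (f := F) one_pos hΓ τ

theorem IsForm.congr (h : IsForm N k φ ψ) (h1 : φ = φ') (h2 : ψ = ψ') : IsForm N k φ' ψ' := by
  subst h1; subst h2; exact h

theorem IsForm.cast (h : IsForm N k φ ψ) (hk : k = l) : IsForm N l φ ψ := by
  subst hk; exact h

omit hN in
theorem IsOne.cast (h : IsOne k φ) (hk : k = l) : IsOne l φ := by
  subst hk; exact h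

theorem IsForm.add (h : IsForm N k φ ψ) (h' : IsForm N k φ' ψ') :
    IsForm N k (φ + φ') (ψ + ψ') := by
  obtain ⟨F, hF, hF0⟩ := h
  obtain ⟨G, hG, hG0⟩ := h'
  refine ⟨F + G, ?_, ?_⟩
  · rw [map_add, ← hF, ← hG, FunLike.coe_add]
    exact ModularForm.qExpansion_add one_pos (one_mem_strictPeriods_Gamma0 N) F G
  · rw [map_add, ← hF0, ← hG0]
    have : (⇑(wForm (F + G)) : ℍ → ℂ) = ⇑(wForm F) + ⇑(wForm G) := by
      simp [wFun_add]
    rw [this]
    exact ModularForm.qExpansion_add one_pos (one_mem_strictPeriods_Gamma0 N) _ _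

theorem IsForm.smul (h : IsForm N k φ ψ) (c : ℚ) : IsForm N k (c • φ) (c • ψ) := by
  obtain ⟨F, hF, hF0⟩ := h
  refine ⟨(c : ℂ) • F, ?_, ?_⟩
  · rw [qc_smul, ← hF, FunLike.coe_smul]
    exact ModularForm.qExpansion_smul one_pos (one_mem_strictPeriods_Gamma0 N) _ F
  · rw [qc_smul, ← hF0]
    have : (⇑(wForm ((c : ℂ) • F)) : ℍ → ℂ) = (c : ℂ) • ⇑(wForm F) := by
      simp only [coe_wForm, FunLike.coe_smul, wFun_smul]
    rw [this]
    exact ModularForm.qExpansion_smul one_pos (one_mem_strictPeriods_Gamma0 N) _ _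

theorem IsForm.C_mul (h : IsForm N k φ ψ) (c : ℚ) : IsForm N k (C c * φ) (C c * ψ) := by
  simpa [smul_eq_C_mul] using h.smul c

theorem IsForm.neg (h : IsForm N k φ ψ) : IsForm N k (-φ) (-ψ) := by
  simpa using h.smul (-1)

theorem IsForm.sub (h : IsForm N k φ ψ) (h' : IsForm N k φ' ψ') :
    IsForm N k (φ - φ') (ψ - ψ') := by
  simpa [sub_eq_add_neg] using h.add h'.neg

theorem IsForm.mul (h : IsForm N k φ ψ) (h' : IsForm N l φ' ψ') :
    IsForm N (k + l) (φ * φ') (ψ * ψ') := by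
  obtain ⟨F, hF, hF0⟩ := h
  obtain ⟨G, hG, hG0⟩ := h'
  refine ⟨F.mul G, ?_, ?_⟩
  · rw [map_mul, ← hF, ← hG]
    exact ModularForm.qExpansion_mul one_pos (one_mem_strictPeriods_Gamma0 N) F G
  · rw [map_mul, ← hF0, ← hG0]
    have : (⇑(wForm (F.mul G)) : ℍ → ℂ) = ⇑(wForm F) * ⇑(wForm G) := by
      simp only [coe_wForm, ModularForm.coe_mul, wFun_mul]
    rw [this]
    exact ModularForm.qExpansion_mul_coe one_pos (one_mem_strictPeriods_Gamma0 N) _ _

theorem IsForm.swap (h : IsForm N k φ ψ) (hk : Even k) :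
    IsForm N k ψ (C ((N : ℚ) ^ (-k)) * φ) := by
  obtain ⟨F, hF, hF0⟩ := h
  refine ⟨wForm F, hF0, ?_⟩
  have : (⇑(wForm (wForm F)) : ℍ → ℂ) = ((N : ℂ) ^ (-k)) • ⇑F := by
    simp only [coe_wForm, wFun_wFun hk]
  rw [this, map_mul, map_C, ← hF, ← smul_eq_C_mul,
    ModularForm.qExpansion_smul one_pos (one_mem_strictPeriods_Gamma0 N) _ F]
  simp

theorem IsForm.trace (h : IsForm N k φ ψ) : IsOne k (φ + (N : ℚ) • Uop N ψ) := by
  obtain ⟨F, hF, hF0⟩ := h
  refine ⟨trForm F, ?_⟩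
  ext n
  rw [qCoeff_trForm, hF, hF0, coeff_qc, coeff_qc, coeff_qc]
  simp

theorem hasSum_expand {A : ModularForm 𝒮ℒ k} (τ : ℍ) :
    HasSum (fun m ↦ coeff m (expand N hN.out.ne_zero (qExpansion 1 A)) *
      Function.Periodic.qParam 1 τ ^ m) (A (heckeDiagMatrix N • τ : ℍ)) := by
  have h0 := hN.out.ne_zero
  have h1 := hasSum_gen one_mem_strictPeriods_SL A (heckeDiagMatrix N • τ : ℍ)
  rw [P2MW.S_UpperHalfPlane_qCoeff_heckeT.M4cP1W2.qParam_heckeDiagMatrix_smul h0 τ] at h1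
  have hinj : Function.Injective (fun l : ℕ ↦ N * l) := mul_right_injective₀ h0
  refine (hinj.hasSum_iff ?_).mp ?_
  · intro m hm
    rw [coeff_expand_of_not_dvd, zero_mul]
    rintro ⟨l, rfl⟩
    exact hm ⟨l, rfl⟩
  · convert h1 using 1
    ext m
    simp only [Function.comp_apply, coeff_expand_mul]
    rw [pow_mul]

theorem IsOne.toForm (h : IsOne k φ) : IsForm N k φ (Vop N φ) := by
  obtain ⟨A, hA⟩ := h
  refine ⟨resForm N A, by simpa using hA, ?_⟩
  refine qExpansion_eq_of_hasSum_gen (one_mem_strictPeriods_Gamma0 N) _ _ fun τ => ?_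
  have h1 := hasSum_expand (N := N) (A := A) τ
  rw [hA, ← map_expand'] at h1
  rw [coe_wForm, coe_resForm, wFun_levelOne]
  exact h1

section one
omit hN

theorem IsOne.congr (h : IsOne k φ) (h1 : φ = φ') : IsOne k φ' := h1 ▸ h

theorem IsOne.add (h : IsOne k φ) (h' : IsOne k φ') : IsOne k (φ + φ') := by
  obtain ⟨F, hF⟩ := h
  obtain ⟨G, hG⟩ := h'
  refine ⟨F + G, ?_⟩
  rw [map_add, ← hF, ← hG, FunLike.coe_add]
  exact ModularForm.qExpansion_add one_pos one_mem_strictPeriods_SL F G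

theorem IsOne.smul (h : IsOne k φ) (c : ℚ) : IsOne k (c • φ) := by
  obtain ⟨F, hF⟩ := h
  refine ⟨(c : ℂ) • F, ?_⟩
  rw [qc_smul, ← hF, FunLike.coe_smul]
  exact ModularForm.qExpansion_smul one_pos one_mem_strictPeriods_SL _ F

theorem IsOne.C_mul (h : IsOne k φ) (c : ℚ) : IsOne k (C c * φ) := by
  simpa [smul_eq_C_mul] using h.smul c

theorem IsOne.neg (h : IsOne k φ) : IsOne k (-φ) := by
  simpa using h.smul (-1)

theorem IsOne.sub (h : IsOne k φ) (h' : IsOne k φ') : IsOne k (φ - φ') := by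
  simpa [sub_eq_add_neg] using h.add h'.neg

theorem IsOne.mul (h : IsOne k φ) (h' : IsOne l φ') : IsOne (k + l) (φ * φ') := by
  obtain ⟨F, hF⟩ := h
  obtain ⟨G, hG⟩ := h'
  refine ⟨F.mul G, ?_⟩
  rw [map_mul, ← hF, ← hG]
  exact ModularForm.qExpansion_mul one_pos one_mem_strictPeriods_SL F G

theorem IsOne.one : IsOne 0 1 := by
  refine ⟨(1 : ModularForm 𝒮ℒ 0), ?_⟩
  rw [map_one]
  exact ModularForm.qExpansion_one (Γ := 𝒮ℒ) (h := 1)

theorem IsOne.C (c : ℚ) : IsOne 0 (PowerSeries.C c) := by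
  simpa using IsOne.one.C_mul c

theorem IsOne.zero (k : ℤ) : IsOne k 0 := ⟨0, by simpa using qExpansion_zero 1⟩

theorem IsOne.pow (h : IsOne k φ) (n : ℕ) : IsOne (n * k) (φ ^ n) := by
  induction n with
  | zero => simpa using IsOne.one
  | succ n ih =>
    rw [pow_succ]
    exact (ih.mul h).cast (by push_cast; ring)

end one

theorem IsForm.one : IsForm N 0 1 1 := by
  simpa using (IsOne.one).toForm (N := N)

theorem IsForm.pow (h : IsForm N k φ ψ) (n : ℕ) : IsForm N (n * k) (φ ^ n) (ψ ^ n) := by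
  induction n with
  | zero => simpa using IsForm.one (N := N)
  | succ n ih =>
    rw [pow_succ, pow_succ]
    exact (ih.mul h).cast (by push_cast; ring)

end Fermat.Agent.H13
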