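import Fermat.Agent.H13.HasQ

set_option autoImplicit false

noncomputable section

open UpperHalfPlane hiding I
open ModularForm CongruenceSubgroup Complex ModularFormClass PowerSeries Derivative Filter
open EisensteinSeries
open scoped MatrixGroups Manifold Topology ModularForm Real

namespace Fermat.Agent.H13

local notation "𝕢" => Function.Periodic.qParam

section series
variable (R : Type*) [CommRing R]

/-- `∑ σ_k(n) q^n` -/
def sser (k : ℕ) : R⟦X⟧ := PowerSeries.mk fun n => ((ArithmeticFunction.sigma k n : ℕ) : R)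

def e2 : R⟦X⟧ := 1 - 24 * sser R 1
def e4 : R⟦X⟧ := 1 + 240 * sser R 3
def e6 : R⟦X⟧ := 1 - 504 * sser R 5

variable {R}

@[simp] theorem coeff_sser (k n : ℕ) : coeff n (sser R k) = ((ArithmeticFunction.sigma k n : ℕ) : R) := by
  simp [sser]

theorem coeff_ofNat_mul (n c : ℕ) [c.AtLeastTwo] (a : R⟦X⟧) :
    coeff n ((OfNat.ofNat c : R⟦X⟧) * a) = (OfNat.ofNat c : R) * coeff n a := by
  have : (OfNat.ofNat c : R⟦X⟧) = C (OfNat.ofNat c : R) := (map_ofNat (C (R := R)) c).symm
  rw [this, coeff_C_mul]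

variable {S : Type*} [CommRing S] (f : R →+* S)

@[simp] theorem map_sser (k : ℕ) : (sser R k).map f = sser S k := by
  ext n; simp

@[simp] theorem map_e2 : (e2 R).map f = e2 S := by
  rw [e2, e2, map_sub, map_mul, map_one, map_sser, map_ofNat]

@[simp] theorem map_e4 : (e4 R).map f = e4 S := by
  rw [e4, e4, map_add, map_mul, map_one, map_sser, map_ofNat]

@[simp] theorem map_e6 : (e6 R).map f = e6 S := by
  rw [e6, e6, map_sub, map_mul, map_one, map_sser, map_ofNat]

end series

variable {f g : ℍ → ℂ} {a b : ℂ⟦X⟧} {N : ℕ} {k : ℤ}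

theorem hasQ_E2 : HasQ E2 (e2 ℂ) := by
  intro τ
  have h := hasSum_qExpansion_E2 (z := τ)
  have e : (fun m ↦ coeff m (e2 ℂ) * 𝕢 1 τ ^ m) =
      fun m : ℕ ↦ (if m = 0 then 1 else -24 * ArithmeticFunction.sigma 1 m : ℂ) • cexp (2 * π * I * τ) ^ m := by
    funext m
    have hq : 𝕢 1 τ = cexp (2 * π * I * τ) := by
      simp [Function.Periodic.qParam]
    rw [hq, e2, map_sub, coeff_ofNat_mul, coeff_sser, coeff_one]
    split_ifs with h
    · subst h; simp
    · simp
  rw [e]
  exact h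

theorem hasQ_serre (hf : HasQ f a) (k : ℤ) :
    HasQ (serreDerivative k f) (theta a - C ((k : ℂ) * 12⁻¹) * (e2 ℂ * a)) := by
  have h := hf.D.sub ((hasQ_E2.mul hf).smul ((k : ℂ) * 12⁻¹))
  refine h.congr ?_ ?_
  · ext z
    simp only [Pi.sub_apply, Pi.smul_apply, Pi.mul_apply, smul_eq_mul, serreDerivative_apply]
    ring
  · rw [smul_eq_C_mul]

section
variable [Fact N.Prime]

theorem D_diag (hf : MDiff f) (τ : ℍ) :
    D (fun τ => f (heckeDiagMatrix N • τ : ℍ)) τ = N * D f (heckeDiagMatrix N • τ : ℍ) := by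
  have hN := natCast_ne (N := N)
  have h0 : N ≠ 0 := (Fact.out : N.Prime).ne_zero
  have hdet : ((heckeDiagMatrix N : GL (Fin 2) ℝ).val).det = N := by
    rw [val_heckeDiagMatrix h0, Matrix.det_fin_two_of]; simp
  have h := congrFun (normalizedDerivOfComplex_slash (k := 0) hf (g := heckeDiagMatrix N)
    (by rw [hdet]; exact_mod_cast Nat.pos_of_ne_zero h0)) τ
  have e : f ∣[(0 : ℤ)] heckeDiagMatrix N =
      (N : ℂ)⁻¹ • (fun τ => f (heckeDiagMatrix N • τ : ℍ)) := by
    ext z
    rw [slash_heckeDiagMatrix_apply 0 h0, Pi.smul_apply, smul_eq_mul]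
    simp
  rw [slash_heckeDiagMatrix_apply _ h0, e, normalizedDerivOfComplex_smul _ _
    (by
      have := (hf.slash 0 (heckeDiagMatrix N)).const_smul (N : ℂ)
      rw [e, smul_smul, mul_inv_cancel₀ hN, one_smul] at this
      exact this), hdet, Pi.smul_apply, smul_eq_mul] at h
  simp only [Int.cast_zero, zero_mul, sub_zero] at h
  have h2 : ((N : ℂ)) ^ ((0 : ℤ) + 2 - 1) = N := by norm_num
  rw [h2] at h
  have h3 := congrArg (fun x => (N : ℂ) * x) h
  simp only [← mul_assoc] at h3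
  rw [mul_inv_cancel₀ hN, one_mul] at h3
  rw [h3]
  push_cast
  rw [mul_inv_cancel₀ hN, one_mul]

theorem bounded_of_diag (h : IsBoundedAtImInfty (fun τ => f (heckeDiagMatrix N • τ : ℍ))) :
    IsBoundedAtImInfty f := by
  have h0 : N ≠ 0 := (Fact.out : N.Prime).ne_zero
  have h1 := h.slash 0 (heckeMatrix_one_zero' N 0)
  refine (bounded_smul (c := (N : ℂ)) h1).congr_left ?_
  intro τ
  rw [Pi.smul_apply, slash_heckeMatrix_apply _ h0]
  have : (heckeDiagMatrix N • (heckeMatrix N 0 • τ) : ℍ) = τ := by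
    apply UpperHalfPlane.ext
    rw [coe_diag_smul, coe_heckeMatrix_smul h0]
    have hN := natCast_ne (N := N)
    field_simp
    simp
  rw [this]
  have hN := natCast_ne (N := N)
  simp only [smul_eq_mul]
  rw [← mul_assoc, mul_inv_cancel₀ hN, one_mul]

theorem serre_diag (hf : MDiff f) (τ : ℍ) :
    serreDerivative k (f ∣[k] ModularGroup.S) (heckeDiagMatrix N • τ : ℍ) =
      (N : ℂ)⁻¹ * D (wFun N k f) τ -
        k * 12⁻¹ * E2 (heckeDiagMatrix N • τ : ℍ) * wFun N k f τ := by
  have hN := natCast_ne (N := N)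
  have h := D_diag (N := N) (hf.slash k (ModularGroup.S : SL(2,ℤ))) τ
  have e : (fun τ => (f ∣[k] ((ModularGroup.S : SL(2,ℤ)) : GL (Fin 2) ℝ)) (heckeDiagMatrix N • τ : ℍ))
    = wFun N k f := rfl
  rw [e] at h
  rw [h, serreDerivative_apply, ← mul_assoc, inv_mul_cancel₀ hN, one_mul]
  rfl

theorem hasQ_serre_diag (hf : MDiff f) (ha : HasQ (wFun N k f) a) :
    HasQ (fun τ => serreDerivative k (f ∣[k] ModularGroup.S) (heckeDiagMatrix N • τ : ℍ))
      (C (N : ℂ)⁻¹ * theta a - C ((k : ℂ) * 12⁻¹) *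
        (expand N (Fact.out : N.Prime).ne_zero (e2 ℂ) * a)) := by
  have h := (ha.D.smul (N : ℂ)⁻¹).sub (((hasQ_E2.diag (N := N)).mul ha).smul ((k : ℂ) * 12⁻¹))
  refine h.congr ?_ ?_
  · ext z
    simp only [Pi.sub_apply, Pi.smul_apply, Pi.mul_apply, smul_eq_mul]
    rw [serre_diag hf]
    ring
  · rw [smul_eq_C_mul, smul_eq_C_mul]

omit [Fact N.Prime] in
theorem form_mdiff (F : ModularForm (Gamma0 N) k) : MDiff (F : ℍ → ℂ) := F.holo'

/-- The Serre derivative of a modular form. -/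
def serForm (F : ModularForm (Gamma0 N) k) : ModularForm (Gamma0 N) (k + 2) :=
  mkForm (serreDerivative k F)
    (fun γ hγ => serreDerivative_slash_invariant (form_mdiff F) (form_slash F γ hγ))
    (serreDerivative_mdifferentiable k (form_mdiff F))
    (hasQ_serre (hasQ_form F) k).bounded
    (by
      rw [serreDerivative_slash_equivariant (form_mdiff F)]
      exact bounded_of_diag (N := N) (hasQ_serre_diag (form_mdiff F) (hasQ_form (wForm F))).bounded)

@[simp] theorem coe_serForm (F : ModularForm (Gamma0 N) k) :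
    ⇑(serForm F) = serreDerivative k F := rfl

omit [Fact N.Prime] in
theorem wFun_serForm (F : ModularForm (Gamma0 N) k) :
    wFun N (k + 2) (serreDerivative k F) =
      (fun τ => serreDerivative k (F ∣[k] ModularGroup.S) (heckeDiagMatrix N • τ : ℍ)) := by
  ext τ
  rw [wFun, serreDerivative_slash_equivariant (form_mdiff F)]

variable {φ ψ φ' ψ' : ℚ⟦X⟧} {l : ℤ}

theorem IsForm.serre (h : IsForm N k φ ψ) :
    IsForm N (k + 2) (theta φ - C ((k : ℚ) / 12) * (e2 ℚ * φ))
      (C (1 / (N : ℚ)) * theta ψ - C ((k : ℚ) / 12) * (Vop N (e2 ℚ) * ψ)) := by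
  obtain ⟨F, hF, hF0⟩ := h
  refine ⟨serForm F, ?_, ?_⟩
  · have := qExpansion_eq_of_hasQ_form (serForm F) (hasQ_serre (hasQ_form F) k)
    rw [this, hF]
    simp [map_theta, div_eq_mul_inv]
  · have h1 := hasQ_serre_diag (form_mdiff F) (hasQ_form (wForm F))
    rw [← wFun_serForm] at h1
    have := qExpansion_eq_of_hasQ_form (wForm (serForm F)) h1
    rw [this, hF0]
    simp only [map_sub, map_mul, map_theta, map_expand', map_e2, map_C]
    simp [div_eq_mul_inv]

end

theorem one_mdiff (F : ModularForm 𝒮ℒ k) : MDiff (F : ℍ → ℂ) := F.holo'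

/-- The Serre derivative of a level one modular form. -/
def serOne (F : ModularForm 𝒮ℒ k) : ModularForm 𝒮ℒ (k + 2) where
  toFun := serreDerivative k F
  slash_action_eq' := by
    rintro _ ⟨γ, rfl⟩
    exact serreDerivative_slash_invariant (one_mdiff F) (levelOne_slash F γ)
  holo' := serreDerivative_mdifferentiable k (one_mdiff F)
  bdd_at_cusps' {c} hc := by
    rw [Subgroup.IsArithmetic.isCusp_iff_isCusp_SL2Z] at hc
    rw [OnePoint.isBoundedAt_iff_forall_SL2Z hc]
    intro γ _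
    have : serreDerivative k F ∣[k + 2] γ = serreDerivative k F :=
      serreDerivative_slash_invariant (one_mdiff F) (levelOne_slash F γ)
    erw [this]
    exact (hasQ_serre (hasQ_one F) k).bounded

theorem IsOne.serre {φ : ℚ⟦X⟧} (h : IsOne k φ) :
    IsOne (k + 2) (theta φ - PowerSeries.C ((k : ℚ) / 12) * (e2 ℚ * φ)) := by
  obtain ⟨F, hF⟩ := h
  refine ⟨serOne F, ?_⟩
  have := qExpansion_eq_of_hasQ_one (serOne F) (hasQ_serre (hasQ_one F) k)
  rw [this, hF]
  simp [map_theta, div_eq_mul_inv]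

end Fermat.Agent.H13
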