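import Fermat.Agent.H13.Basic
import Fermat.Prelude.Thm_ModularForm_heckeU_slash_eq_self_of_mem_Gamma0
import Fermat.Prelude.Thm_ModularForm_mdifferentiable_heckeU
import Fermat.Prelude.Thm_ModularForm_isBoundedAtImInfty_heckeU
import Fermat.Prelude.Thm_ModularFormClass_qCoeff_heckeU

set_option autoImplicit false

noncomputable section

open UpperHalfPlane hiding I
open ModularForm CongruenceSubgroup Complex ModularFormClass
open scoped MatrixGroups Manifold Topology ModularForm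

namespace Fermat.Agent.H13

variable {N : ℕ} {k : ℤ}

theorem slash_eq_of_mul_inv_mem {f : ℍ → ℂ} (hf : ∀ γ ∈ Gamma0 N, f ∣[k] (γ : SL(2, ℤ)) = f)
    {g h : SL(2, ℤ)} (hgh : g * h⁻¹ ∈ Gamma0 N) : f ∣[k] g = f ∣[k] h := by
  have : g = (g * h⁻¹) * h := by group
  rw [this, SlashAction.slash_mul, hf _ hgh]

theorem mem_Gamma0_of {γ : SL(2, ℤ)} (h : ((γ 1 0 : ℤ) : ZMod N) = 0) : γ ∈ Gamma0 N := by
  rwa [Gamma0_mem]

variable [Fact N.Prime]

omit [Fact N.Prime] in
theorem coe_ST_S (j : ℤ) : ((ModularGroup.S * ModularGroup.T ^ j * ModularGroup.S : SL(2, ℤ)) :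
    Matrix (Fin 2) (Fin 2) ℤ) = !![-1, 0; j, -1] := by
  rw [Matrix.SpecialLinearGroup.coe_mul, coe_ST, ModularGroup.coe_S]
  ext a b
  fin_cases a <;> fin_cases b <;> simp [Matrix.mul_apply, Fin.sum_univ_two]

/-- the function `j ↦ f ∣ S T^j` on `ZMod N` -/
def gST (k : ℤ) (f : ℍ → ℂ) (j : ZMod N) : ℍ → ℂ :=
  f ∣[k] (ModularGroup.S * ModularGroup.T ^ (j.val : ℤ))

theorem trFun_eq_sum (f : ℍ → ℂ) : trFun N k f = f + ∑ j : ZMod N, gST k f j := by
  rw [trFun]
  congr 1
  have hN : 0 < N := (Fact.out : N.Prime).pos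
  refine Finset.sum_bij (fun (j : ℕ) _ => (j : ZMod N)) (fun _ _ => Finset.mem_univ _) ?_ ?_ ?_
  · intro a ha b hb hab
    have h1 := congrArg ZMod.val hab
    rwa [ZMod.val_natCast_of_lt (Finset.mem_range.mp ha),
      ZMod.val_natCast_of_lt (Finset.mem_range.mp hb)] at h1
  · intro b _
    exact ⟨b.val, Finset.mem_range.mpr (ZMod.val_lt b), by simp⟩
  · intro a ha
    rw [gST, ZMod.val_natCast_of_lt (Finset.mem_range.mp ha)]

theorem trFun_slash_S {f : ℍ → ℂ} (hf : ∀ γ ∈ Gamma0 N, f ∣[k] (γ : SL(2, ℤ)) = f) :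
    trFun N k f ∣[k] ModularGroup.S = trFun N k f := by
  rw [trFun_eq_sum, SlashAction.add_slash, SlashAction.sum_slash]
  have h0 : f ∣[k] ModularGroup.S = gST k f (0 : ZMod N) := by
    rw [gST]; simp
  have h1 : ∀ j : ZMod N, gST k f j ∣[k] ModularGroup.S =
      if j = 0 then f else gST k f (-j⁻¹) := by
    intro j
    rw [gST, ← SlashAction.slash_mul]
    split_ifs with hj
    · apply hf
      apply mem_Gamma0_of
      rw [coe_ST_S]
      simp [hj]
    · rw [gST]
      apply slash_eq_of_mul_inv_mem hf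
      apply mem_Gamma0_of
      rw [Matrix.SpecialLinearGroup.coe_mul, coe_ST_S, coe_ST_inv]
      simp [Matrix.mul_apply, Fin.sum_univ_two, hj]
  simp only [h0, h1]
  rw [← Finset.add_sum_erase _ _ (Finset.mem_univ (0 : ZMod N)), if_pos rfl,
    Finset.sum_congr rfl (g := fun j => gST k f (-j⁻¹))
      (fun j hj => if_neg (Finset.ne_of_mem_erase hj)), ← add_assoc, add_comm (gST k f 0), add_assoc]
  congr 1
  have h2 : gST k f (0 : ZMod N) = gST k f (-(0 : ZMod N)⁻¹) := by simp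
  rw [h2, Finset.add_sum_erase Finset.univ (fun j : ZMod N => gST k f (-j⁻¹)) (Finset.mem_univ 0)]
  let e : ZMod N ≃ ZMod N := ⟨fun j => -j⁻¹, fun j => -j⁻¹, fun j => by simp [inv_neg],
    fun j => by simp [inv_neg]⟩
  exact Equiv.sum_comp e (gST k f)

theorem trFun_slash_T {f : ℍ → ℂ} (hf : ∀ γ ∈ Gamma0 N, f ∣[k] (γ : SL(2, ℤ)) = f) :
    trFun N k f ∣[k] ModularGroup.T = trFun N k f := by
  have hT : ModularGroup.T ∈ Gamma0 N := by
    rw [Gamma0_mem]; simp [ModularGroup.T]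
  rw [trFun_eq, SlashAction.add_slash, SL_smul_slash, hf _ hT]
  congr 2
  rw [SL_slash]
  exact heckeU_slash_eq_self_of_mem_Gamma0 k (dvd_refl N)
    (slash_eq_of_forall (wFun_slash hf)) _ ⟨_, hT, rfl⟩

theorem mdiff_trFun {f : ℍ → ℂ} (hf : MDiff f) : MDiff (trFun N k f) := by
  rw [trFun_eq]
  exact hf.add ((mdifferentiable_heckeU (mdiff_wFun hf) k N).const_smul _)

theorem bounded_trFun {f : ℍ → ℂ} (hf : IsBoundedAtImInfty f)
    (hS : IsBoundedAtImInfty (f ∣[k] ModularGroup.S)) :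
    IsBoundedAtImInfty (trFun N k f) := by
  rw [trFun_eq]
  exact hf.add (bounded_smul (isBoundedAtImInfty_heckeU (bounded_wFun hS) k N) _)

/-- The trace from `Γ₀(N)` to level one. -/
def trForm (F : ModularForm (Gamma0 N) k) : ModularForm 𝒮ℒ k where
  toFun := trFun N k F
  slash_action_eq' := by
    rintro _ ⟨γ, rfl⟩
    exact SlashInvariantForm.slash_action_generators_SL2Z (trFun_slash_S (form_slash F))
      (trFun_slash_T (form_slash F)) γ
  holo' := mdiff_trFun F.holo'
  bdd_at_cusps' {c} hc := by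
    rw [Subgroup.IsArithmetic.isCusp_iff_isCusp_SL2Z] at hc
    rw [OnePoint.isBoundedAt_iff_forall_SL2Z hc]
    intro γ _
    rw [SlashInvariantForm.slash_action_generators_SL2Z (trFun_slash_S (form_slash F))
      (trFun_slash_T (form_slash F)) γ]
    exact bounded_trFun (isBounded_of_form F) (isBounded_slash_of_form F _)

@[simp] theorem coe_trForm (F : ModularForm (Gamma0 N) k) : ⇑(trForm F) = trFun N k F := rfl

theorem qCoeff_trForm (F : ModularForm (Gamma0 N) k) (n : ℕ) :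
    (qExpansion 1 (trForm F)).coeff n =
      (qExpansion 1 F).coeff n + N * (qExpansion 1 (wForm F)).coeff (n * N) := by
  have hN0 : N ≠ 0 := (Fact.out : N.Prime).ne_zero
  have hper : Function.Periodic (⇑(wForm F) ∘ ofComplex) 1 := by
    have := SlashInvariantFormClass.periodic_comp_ofComplex (wForm F)
      (one_mem_strictPeriods_Gamma0 N)
    simpa using this
  have hs := P2MW.S_UpperHalfPlane_qCoeff_heckeT.M4cP1W2.hasSum_heckeU hN0 hper (wForm F).holo'
    (isBounded_of_form (wForm F)) k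
  symm
  refine ModularFormClass.qExpansion_coeff_unique (F := ModularForm 𝒮ℒ k) (f := trForm F)
    (c := fun n => (qExpansion 1 F).coeff n + N * (qExpansion 1 (wForm F)).coeff (n * N))
    one_pos one_mem_strictPeriods_SL ?_ n
  intro τ
  have h1 : HasSum (fun m ↦ (qExpansion 1 F).coeff m * Function.Periodic.qParam 1 τ ^ m) (F τ) := by
    have : Fact (IsCusp OnePoint.infty (Gamma0 N : Subgroup (GL (Fin 2) ℝ))) :=
      ⟨Subgroup.isCusp_of_mem_strictPeriods one_pos (one_mem_strictPeriods_Gamma0 N)⟩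
    simpa using ModularForm.hasSum_qExpansion (f := F) one_pos (one_mem_strictPeriods_Gamma0 N) τ
  have h2 := (hs τ).mul_left (N : ℂ)
  have h3 := h1.add h2
  rw [coe_trForm, trFun_eq]
  have e1 : (⇑F + (N : ℂ) • heckeU k N (wFun N k ⇑F)) τ = F τ + ↑N * heckeU k N (⇑(wForm F)) τ :=
    rfl
  rw [e1]
  convert h3 using 1
  ext m
  simp only [ModularForm.coeffHeckeU_apply, ModularFormClass.qCoeff, smul_eq_mul]
  ring

end Fermat.Agent.H13
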